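import Mathlib

/-!
# S28, auxiliary: the degree absolute value on `k[X]` and weighted coefficient bounds
for monic divisors (Gauss lemma for the weighted degree).
-/

set_option autoImplicit false

namespace Fermat.Agent.S28

open Polynomial

open scoped Classical

noncomputable section

variable {k : Type*} [Field k]

/-- The absolute value `p ↦ 2 ^ deg p` on `k[X]`. -/
def degAbs (k : Type*) [Field k] : AbsoluteValue k[X] ℝ where
  toFun p := if p = 0 then 0 else (2 : ℝ) ^ p.natDegree
  map_mul' p q := by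
    by_cases hp : p = 0
    · simp [hp]
    by_cases hq : q = 0
    · simp [hq]
    simp [hp, hq, natDegree_mul hp hq, pow_add]
  nonneg' p := by
    by_cases hp : p = 0
    · simp [hp]
    · simp [hp]
  eq_zero' p := by
    by_cases hp : p = 0
    · simp [hp]
    · simp [hp]
  add_le' p q := by
    by_cases hp : p = 0
    · simp [hp]
    by_cases hq : q = 0
    · simp [hq]
    by_cases hpq : p + q = 0
    · simp only [hpq, hp, hq, if_true, if_false]
      positivity
    simp only [hpq, hp, hq, if_false]
    have h := natDegree_add_le p q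
    rcases le_max_iff.mp h with h1 | h1
    · calc (2 : ℝ) ^ (p + q).natDegree ≤ 2 ^ p.natDegree :=
            pow_le_pow_right₀ (by norm_num) h1
        _ ≤ 2 ^ p.natDegree + 2 ^ q.natDegree := by
            have : (0 : ℝ) ≤ 2 ^ q.natDegree := by positivity
            linarith
    · calc (2 : ℝ) ^ (p + q).natDegree ≤ 2 ^ q.natDegree :=
            pow_le_pow_right₀ (by norm_num) h1
        _ ≤ 2 ^ p.natDegree + 2 ^ q.natDegree := by
            have : (0 : ℝ) ≤ 2 ^ p.natDegree := by positivity
            linarith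

theorem degAbs_apply (p : k[X]) :
    degAbs k p = if p = 0 then 0 else (2 : ℝ) ^ p.natDegree := rfl

theorem degAbs_of_ne_zero {p : k[X]} (hp : p ≠ 0) : degAbs k p = (2 : ℝ) ^ p.natDegree := by
  rw [degAbs_apply, if_neg hp]

theorem degAbs_le_pow (p : k[X]) : degAbs k p ≤ (2 : ℝ) ^ p.natDegree := by
  rw [degAbs_apply]
  split_ifs
  · positivity
  · exact le_rfl

theorem degAbs_one : degAbs k (1 : k[X]) = 1 := by
  rw [degAbs_of_ne_zero one_ne_zero, natDegree_one, pow_zero]

theorem isNonarchimedean_degAbs : IsNonarchimedean (degAbs k) := by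
  intro p q
  by_cases hp : p = 0
  · simp [hp]
  by_cases hq : q = 0
  · simp [hq]
  by_cases hpq : p + q = 0
  · rw [hpq, map_zero]
    exact le_max_of_le_left ((degAbs k).nonneg p)
  rw [degAbs_of_ne_zero hpq, degAbs_of_ne_zero hp, degAbs_of_ne_zero hq]
  have h := natDegree_add_le p q
  rcases le_max_iff.mp h with h1 | h1
  · exact le_max_of_le_left (pow_le_pow_right₀ (by norm_num) h1)
  · exact le_max_of_le_right (pow_le_pow_right₀ (by norm_num) h1)

/-- Gauss lemma for the weighted degree: if `χ = m * m₁` with `m, m₁` monic in `k[Y][X]` and all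
monomials `Y^a X^i` of `χ` have weight `a + φ i ≤ φ · deg χ`, then the same holds for `m`. -/
theorem weighted_bound_of_monic_mul {φ : ℕ} (χ m m₁ : k[X][X]) (hm : m.Monic) (hm₁ : m₁.Monic)
    (hχ : χ = m * m₁)
    (hχc : ∀ i, i < χ.natDegree → (χ.coeff i).natDegree + φ * i ≤ φ * χ.natDegree) :
    ∀ i, i < m.natDegree → (m.coeff i).natDegree + φ * i ≤ φ * m.natDegree := by
  classical
  have hχm : χ.Monic := hχ ▸ hm.mul hm₁
  set c : ℝ := (2 : ℝ) ^ φ with hc
  have hc0 : 0 < c := by positivity
  have hna := isNonarchimedean_degAbs (k := k)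
  have hdeg : χ.natDegree = m.natDegree + m₁.natDegree := by
    rw [hχ, hm.natDegree_mul hm₁]
  -- upper bound for χ
  have hχle : χ.gaussNorm (degAbs k) c ≤ c ^ χ.natDegree := by
    obtain ⟨i, hi⟩ := χ.exists_eq_gaussNorm (degAbs k) c
    rw [hi]
    rcases lt_trichotomy i χ.natDegree with h | h | h
    · have := hχc i h
      calc degAbs k (χ.coeff i) * c ^ i ≤ (2 : ℝ) ^ (χ.coeff i).natDegree * c ^ i := by
            gcongr
            exact degAbs_le_pow _
        _ = (2 : ℝ) ^ ((χ.coeff i).natDegree + φ * i) := by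
            rw [hc, ← pow_mul, ← pow_add]
        _ ≤ (2 : ℝ) ^ (φ * χ.natDegree) := pow_le_pow_right₀ (by norm_num) this
        _ = c ^ χ.natDegree := by rw [hc, ← pow_mul]
    · rw [h, hχm.coeff_natDegree, degAbs_one, one_mul]
    · rw [coeff_eq_zero_of_natDegree_lt h, map_zero, zero_mul]
      positivity
  have hmge : c ^ m₁.natDegree ≤ m₁.gaussNorm (degAbs k) c := by
    have := m₁.le_gaussNorm (degAbs k) hc0.le m₁.natDegree
    rwa [hm₁.coeff_natDegree, degAbs_one, one_mul] at this
  have hmul : χ.gaussNorm (degAbs k) c = m.gaussNorm (degAbs k) c * m₁.gaussNorm (degAbs k) c := by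
    rw [hχ]
    exact gaussNorm_mul hna hc0 m m₁
  have hmnn : 0 ≤ m.gaussNorm (degAbs k) c := m.gaussNorm_nonneg (degAbs k) hc0.le
  have hmle : m.gaussNorm (degAbs k) c ≤ c ^ m.natDegree := by
    have h1 : m.gaussNorm (degAbs k) c * c ^ m₁.natDegree ≤ c ^ m.natDegree * c ^ m₁.natDegree := by
      calc m.gaussNorm (degAbs k) c * c ^ m₁.natDegree
          ≤ m.gaussNorm (degAbs k) c * m₁.gaussNorm (degAbs k) c := by gcongr
        _ = χ.gaussNorm (degAbs k) c := hmul.symm
        _ ≤ c ^ χ.natDegree := hχle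
        _ = c ^ m.natDegree * c ^ m₁.natDegree := by rw [hdeg, pow_add]
    exact le_of_mul_le_mul_right h1 (by positivity)
  intro i hi
  by_cases h0 : m.coeff i = 0
  · rw [h0, natDegree_zero, zero_add]
    exact Nat.mul_le_mul_left φ hi.le
  have h2 := (m.le_gaussNorm (degAbs k) hc0.le i).trans hmle
  rw [degAbs_of_ne_zero h0, hc, ← pow_mul, ← pow_mul, ← pow_add] at h2
  exact (pow_le_pow_iff_right₀ (by norm_num : (1 : ℝ) < 2)).mp h2

end

end Fermat.Agent.S28
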