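import Mathlib
import Fermat.Prelude.Def_ModularCurve_LaurentCoeff
import Fermat.Agent.S28.OrderLemma

/-!
# S28: evaluation of (bivariate) polynomials at Laurent series over an arbitrary commutative ring

`pev1 j : A[Y] →+* A((q))` sends `Y ↦ j`, `pev2 j u : A[Y][X] →+* A((q))` sends `Y ↦ j`, `X ↦ u`.
Both are natural in the coefficient ring (`coeffMap`) and agree with `evJ` over a field.
-/

set_option autoImplicit false

namespace Fermat.Agent.S28

open Polynomial ModularCurve

noncomputable section

variable {A B : Type*} [CommRing A] [CommRing B]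

/-- Evaluation `A[Y] → A((q))`, `Y ↦ j`. -/
def pev1 (j : LaurentSeries A) : A[X] →+* LaurentSeries A :=
  eval₂RingHom (HahnSeries.C : A →+* LaurentSeries A) j

/-- Evaluation `A[Y][X] → A((q))`, `Y ↦ j`, `X ↦ u`. -/
def pev2 (j u : LaurentSeries A) : A[X][X] →+* LaurentSeries A :=
  eval₂RingHom (pev1 j) u

theorem pev1_apply (j : LaurentSeries A) (p : A[X]) :
    pev1 j p = p.eval₂ (HahnSeries.C : A →+* LaurentSeries A) j := rfl

theorem pev2_apply (j u : LaurentSeries A) (P : A[X][X]) :
    pev2 j u P = P.eval₂ (pev1 j) u := rfl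

@[simp] theorem pev1_C (j : LaurentSeries A) (a : A) : pev1 j (C a) = HahnSeries.C a := by
  simp [pev1_apply]

@[simp] theorem pev1_X (j : LaurentSeries A) : pev1 j X = j := by
  simp [pev1_apply]

@[simp] theorem pev2_C (j u : LaurentSeries A) (p : A[X]) : pev2 j u (C p) = pev1 j p := by
  simp [pev2_apply]

@[simp] theorem pev2_X (j u : LaurentSeries A) : pev2 j u X = u := by
  simp [pev2_apply]

theorem coeffMap_hahnC (f : A →+* B) (a : A) :
    coeffMap f (HahnSeries.C a) = HahnSeries.C (f a) := by
  rw [HahnSeries.C_apply, HahnSeries.C_apply]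
  exact coeffMap_single f 0 a

theorem coeffMap_comp_hahnC (f : A →+* B) :
    (coeffMap f).comp (HahnSeries.C : A →+* LaurentSeries A) =
      (HahnSeries.C : B →+* LaurentSeries B).comp f :=
  RingHom.ext fun a => coeffMap_hahnC f a

theorem coeffMap_pev1 (f : A →+* B) (j : LaurentSeries A) (p : A[X]) :
    coeffMap f (pev1 j p) = pev1 (coeffMap f j) (p.map f) := by
  rw [pev1_apply, pev1_apply, hom_eval₂, eval₂_map, coeffMap_comp_hahnC]

theorem coeffMap_comp_pev1 (f : A →+* B) (j : LaurentSeries A) :
    (coeffMap f).comp (pev1 j) = (pev1 (coeffMap f j)).comp (mapRingHom f) :=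
  RingHom.ext fun p => coeffMap_pev1 f j p

theorem coeffMap_pev2 (f : A →+* B) (j u : LaurentSeries A) (P : A[X][X]) :
    coeffMap f (pev2 j u P) =
      pev2 (coeffMap f j) (coeffMap f u) (P.map (mapRingHom f)) := by
  rw [pev2_apply, pev2_apply, hom_eval₂, eval₂_map, coeffMap_comp_pev1]

theorem coeffMap_injective {f : A →+* B} (hf : Function.Injective f) :
    Function.Injective (coeffMap f) := by
  intro x y h
  ext k
  apply hf
  have := congrArg (fun z => HahnSeries.coeff z k) h
  simpa using this

section Field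

variable {k : Type*} [Field k]

theorem hahnC_eq_algebraMap (c : k) :
    (HahnSeries.C c : LaurentSeries k) = algebraMap k (LaurentSeries k) c := by
  rw [algebraMap_eq_single_zero, HahnSeries.C_apply]

theorem pev1_eq_evJ (j : LaurentSeries k) : pev1 j = evJ j := by
  refine RingHom.ext fun p => ?_
  show p.eval₂ (HahnSeries.C : k →+* LaurentSeries k) j = aeval j p
  rw [aeval_def]
  congr 1
  exact RingHom.ext fun c => hahnC_eq_algebraMap c

theorem pev2_eq_eval₂_evJ (j u : LaurentSeries k) (P : k[X][X]) :
    pev2 j u P = P.eval₂ (evJ j) u := by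
  rw [pev2_apply, pev1_eq_evJ]

end Field

end

end Fermat.Agent.S28
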