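/-
S28 (Igusa), descent step D1, part 1 (helper94): coefficientwise `ℚ`-linear retractions.

For a field `L ⊇ ℚ` and a `ℚ`-linear map `r : L → ℚ`, the coefficientwise map
`retL r : L((q)) → ℚ((q))` is additive and `ℚ((q))`-linear
(`retL r (coeffEmb a * y) = a * retL r y`).  Hence every polynomial relation
`P(jC, uC) = 0` with `P ∈ L[Y][X]` between the base changes of `j, u ∈ ℚ((q))` gives the
relation `(r P)(j, u) = 0` over `ℚ` (`retract_relation`), also with a rational factor
(`retract_relation_mul`).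
-/
import Mathlib
import Fermat.Prelude.Def_ModularCurve_LaurentCoeff
import Fermat.Agent.S28.Eval

set_option autoImplicit false

namespace Fermat.Agent.S28

open Polynomial ModularCurve

noncomputable section

variable {L : Type*} [Field L] [Algebra ℚ L]

/-- Coefficientwise application of a `ℚ`-linear map `L → ℚ` to a Laurent series. -/
def retL (r : L →ₗ[ℚ] ℚ) (x : LaurentSeries L) : LaurentSeries ℚ := x.map r

@[simp] lemma retL_coeff (r : L →ₗ[ℚ] ℚ) (x : LaurentSeries L) (k : ℤ) :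
    (retL r x).coeff k = r (x.coeff k) := rfl

lemma retL_support_subset (r : L →ₗ[ℚ] ℚ) (x : LaurentSeries L) :
    (retL r x).support ⊆ x.support := by
  intro k hk
  rw [HahnSeries.mem_support] at hk ⊢
  intro h
  exact hk (by rw [retL_coeff, h, map_zero])

@[simp] lemma retL_zero (r : L →ₗ[ℚ] ℚ) : retL r 0 = 0 := by
  ext k; simp

lemma retL_add (r : L →ₗ[ℚ] ℚ) (x y : LaurentSeries L) :
    retL r (x + y) = retL r x + retL r y := by
  ext k; simp

lemma retL_sum (r : L →ₗ[ℚ] ℚ) {ι : Type*} (s : Finset ι) (f : ι → LaurentSeries L) :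
    retL r (∑ i ∈ s, f i) = ∑ i ∈ s, retL r (f i) := by
  classical
  induction s using Finset.induction_on with
  | empty => simp
  | insert a s ha ih => rw [Finset.sum_insert ha, Finset.sum_insert ha, retL_add, ih]

lemma coeffEmb_support_subset (a : LaurentSeries ℚ) :
    (coeffEmb L a).support ⊆ a.support := by
  intro k hk
  rw [HahnSeries.mem_support] at hk ⊢
  intro h
  exact hk (by rw [coeffEmb_coeff, h, map_zero])

/-- `retL r` is `ℚ((q))`-linear. -/
lemma retL_coeffEmb_mul (r : L →ₗ[ℚ] ℚ) (a : LaurentSeries ℚ) (y : LaurentSeries L) :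
    retL r (coeffEmb L a * y) = a * retL r y := by
  ext k
  rw [retL_coeff, HahnSeries.coeff_mul_left' a.isPWO_support (coeffEmb_support_subset a),
    HahnSeries.coeff_mul_right' y.isPWO_support (retL_support_subset r y), map_sum]
  refine Finset.sum_congr rfl fun ij _ => ?_
  rw [coeffEmb_coeff, retL_coeff, ← Algebra.smul_def, map_smul, smul_eq_mul]

lemma retL_mul_coeffEmb (r : L →ₗ[ℚ] ℚ) (y : LaurentSeries L) (a : LaurentSeries ℚ) :
    retL r (y * coeffEmb L a) = retL r y * a := by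
  rw [mul_comm, retL_coeffEmb_mul, mul_comm]

lemma retL_C (r : L →ₗ[ℚ] ℚ) (c : L) :
    retL r (HahnSeries.C c) = HahnSeries.C (r c) := by
  ext k
  rw [retL_coeff, HahnSeries.C_apply, HahnSeries.C_apply, HahnSeries.coeff_single,
    HahnSeries.coeff_single]
  split_ifs
  · rfl
  · exact map_zero r

/-- Coefficientwise application of `r` to a polynomial. -/
def polyRet (r : L →ₗ[ℚ] ℚ) (p : L[X]) : ℚ[X] :=
  ∑ k ∈ p.support, monomial k (r (p.coeff k))

@[simp] lemma polyRet_coeff (r : L →ₗ[ℚ] ℚ) (p : L[X]) (k : ℕ) :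
    (polyRet r p).coeff k = r (p.coeff k) := by
  classical
  rw [polyRet, finsetSum_coeff]
  simp only [coeff_monomial]
  rw [Finset.sum_ite_eq' p.support k]
  split_ifs with h
  · rfl
  · rw [notMem_support_iff.mp h, map_zero]

@[simp] lemma polyRet_zero (r : L →ₗ[ℚ] ℚ) : polyRet r 0 = 0 := by
  ext k; simp

lemma polyRet_natDegree_le (r : L →ₗ[ℚ] ℚ) (p : L[X]) :
    (polyRet r p).natDegree ≤ p.natDegree := by
  rw [natDegree_le_iff_coeff_eq_zero]
  intro k hk
  rw [polyRet_coeff, coeff_eq_zero_of_natDegree_lt hk, map_zero]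

/-- Coefficientwise application of `r` to a bivariate polynomial. -/
def polyRet2 (r : L →ₗ[ℚ] ℚ) (P : L[X][X]) : ℚ[X][X] :=
  ∑ i ∈ P.support, monomial i (polyRet r (P.coeff i))

@[simp] lemma polyRet2_coeff (r : L →ₗ[ℚ] ℚ) (P : L[X][X]) (i : ℕ) :
    (polyRet2 r P).coeff i = polyRet r (P.coeff i) := by
  classical
  rw [polyRet2, finsetSum_coeff]
  simp only [coeff_monomial]
  rw [Finset.sum_ite_eq' P.support i]
  split_ifs with h
  · rfl
  · rw [notMem_support_iff.mp h, polyRet_zero]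

lemma polyRet2_coeff_coeff (r : L →ₗ[ℚ] ℚ) (P : L[X][X]) (i k : ℕ) :
    ((polyRet2 r P).coeff i).coeff k = r ((P.coeff i).coeff k) := by
  rw [polyRet2_coeff, polyRet_coeff]

lemma polyRet2_natDegree_le (r : L →ₗ[ℚ] ℚ) (P : L[X][X]) :
    (polyRet2 r P).natDegree ≤ P.natDegree := by
  rw [natDegree_le_iff_coeff_eq_zero]
  intro k hk
  rw [polyRet2_coeff, coeff_eq_zero_of_natDegree_lt hk, polyRet_zero]

lemma retL_pev1 (r : L →ₗ[ℚ] ℚ) (j : LaurentSeries ℚ) (p : L[X]) :
    retL r (pev1 (coeffEmb L j) p) = pev1 j (polyRet r p) := by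
  rw [pev1_apply, pev1_apply,
    eval₂_eq_sum_range' _ (Nat.lt_succ_self p.natDegree),
    eval₂_eq_sum_range' _ (Nat.lt_succ_of_le (polyRet_natDegree_le r p)), retL_sum]
  refine Finset.sum_congr rfl fun k _ => ?_
  rw [← map_pow, retL_mul_coeffEmb, retL_C, polyRet_coeff]

lemma retL_pev2 (r : L →ₗ[ℚ] ℚ) (j u : LaurentSeries ℚ) (P : L[X][X]) :
    retL r (pev2 (coeffEmb L j) (coeffEmb L u) P) = pev2 j u (polyRet2 r P) := by
  rw [pev2_apply, pev2_apply,
    eval₂_eq_sum_range' _ (Nat.lt_succ_self P.natDegree),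
    eval₂_eq_sum_range' _ (Nat.lt_succ_of_le (polyRet2_natDegree_le r P)), retL_sum]
  refine Finset.sum_congr rfl fun k _ => ?_
  rw [← map_pow, retL_mul_coeffEmb, retL_pev1, polyRet2_coeff]

/-- **(R)** A relation over `L` between `j, u ∈ ℚ((q))` gives a relation over `ℚ`. -/
theorem retract_relation (j u : LaurentSeries ℚ) (r : L →ₗ[ℚ] ℚ) (P : L[X][X])
    (hP : pev2 (coeffEmb L j) (coeffEmb L u) P = 0) :
    ∃ PQ : ℚ[X][X], (∀ i k, (PQ.coeff i).coeff k = r ((P.coeff i).coeff k)) ∧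
      pev2 j u PQ = 0 :=
  ⟨polyRet2 r P, polyRet2_coeff_coeff r P, by rw [← retL_pev2, hP, retL_zero]⟩

/-- **(R')** The same with a rational factor on the left. -/
theorem retract_relation_mul (j u x₀ : LaurentSeries ℚ) (r : L →ₗ[ℚ] ℚ) (P P' : L[X][X])
    (h : coeffEmb L x₀ * pev2 (coeffEmb L j) (coeffEmb L u) P =
      pev2 (coeffEmb L j) (coeffEmb L u) P') :
    x₀ * pev2 j u (polyRet2 r P) = pev2 j u (polyRet2 r P') := by
  rw [← retL_pev2, ← retL_pev2, ← retL_coeffEmb_mul, h]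

/-- A `ℚ`-linear retraction `L → ℚ` of the inclusion. -/
theorem exists_retraction (L : Type*) [Field L] [Algebra ℚ L] :
    ∃ r : L →ₗ[ℚ] ℚ, ∀ a : ℚ, r (algebraMap ℚ L a) = a := by
  obtain ⟨g, hg⟩ := LinearMap.exists_leftInverse_of_injective (Algebra.linearMap ℚ L)
    (LinearMap.ker_eq_bot.mpr (algebraMap ℚ L).injective)
  exact ⟨g, fun a => by simpa using LinearMap.congr_fun hg a⟩

/-- If `r` is a retraction then `r (P.map) = P`. -/
lemma polyRet2_map (r : L →ₗ[ℚ] ℚ) (hr : ∀ a : ℚ, r (algebraMap ℚ L a) = a) (P : ℚ[X][X]) :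
    polyRet2 r (P.map (mapRingHom (algebraMap ℚ L))) = P := by
  ext i k
  rw [polyRet2_coeff_coeff, coeff_map, coe_mapRingHom, coeff_map, hr]

end

end Fermat.Agent.S28
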