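import Mathlib
import Fermat.Agent.S28.Eval
import Fermat.Agent.S28.Residue

/-!
# S28 (D2): `ℓ`-integrality of the canonical polynomial `χ`

If `χ ∈ ℚ[Y][X]` is monic of degree `n` with `deg_Y χ_i ≤ φ (n - i)`, `χ(j,u) = 0`,
constant term an `ℓ`-integral constant, and `j, u` are `ℓ`-integral with
`ord (j mod ℓ) = -1`, `ord (u mod ℓ) = φ (n-1)`, then `χ` has coefficients in `Z_(ℓ)`.
-/

set_option autoImplicit false

namespace Fermat.Agent.S28

open Polynomial ModularCurve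

noncomputable section

section Order

variable {k : Type*} [Field k]

/-- A relation `Σ_{0<i<n} Q_i(j) u^i = 0` with `deg Q_i ≤ φ (n - i)` and `ord u = φ (n-1)`
forces `Q = 0`. -/
theorem no_small_relation (j u : LaurentSeries k) (hj : ordV k j = ((-1 : ℤ) : WithTop ℤ))
    {n φ : ℕ} (hφ : 0 < φ)
    (hu : ordV k u = (((φ * (n - 1) : ℕ) : ℤ) : WithTop ℤ))
    (Q : k[X][X]) (hQ0 : Q.coeff 0 = 0) (hQn : ∀ i, n ≤ i → Q.coeff i = 0)
    (hQc : ∀ i, i < n → (Q.coeff i).natDegree + φ * i ≤ φ * n)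
    (hQu : Q.eval₂ (evJ j) u = 0) : Q = 0 := by
  classical
  by_contra hQ
  set i₀ := Q.natTrailingDegree with hi₀
  have hc₀ : Q.coeff i₀ ≠ 0 := (trailingCoeff_nonzero_iff_nonzero (p := Q)).mpr hQ
  have hi₀pos : 0 < i₀ := by
    rcases Nat.eq_zero_or_pos i₀ with h | h
    · rw [h] at hc₀; exact absurd hQ0 hc₀
    · exact h
  have hi₀n : i₀ < n := by
    by_contra hge
    exact hc₀ (hQn i₀ (not_lt.mp hge))
  have hn1 : 1 ≤ n := by omega
  have hdeg : Q.natDegree < n := by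
    by_contra hge
    have : Q.coeff Q.natDegree = 0 := hQn _ (not_lt.mp hge)
    exact (leadingCoeff_ne_zero.mpr hQ) this
  -- the value of a term
  have hterm : ∀ i, Q.coeff i ≠ 0 →
      ordV k (evJ j (Q.coeff i) * u ^ i) =
        ((-((Q.coeff i).natDegree : ℤ) + (i : ℤ) * ((φ * (n - 1) : ℕ) : ℤ) : ℤ) : WithTop ℤ) := by
    intro i hi
    rw [AddValuation.map_mul, ordV_evJ_eq j hj hi, ordV_pow_of_eq hu]
    rfl
  have hsum : ∑ i ∈ Finset.range n, evJ j (Q.coeff i) * u ^ i = 0 := by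
    rw [← hQu, eval₂_eq_sum_range' _ hdeg]
  have hmem : i₀ ∈ Finset.range n := Finset.mem_range.mpr hi₀n
  rw [← Finset.add_sum_erase _ _ hmem] at hsum
  have hlt : ordV k (evJ j (Q.coeff i₀) * u ^ i₀) <
      ordV k (∑ i ∈ (Finset.range n).erase i₀, evJ j (Q.coeff i) * u ^ i) := by
    refine AddValuation.map_lt_sum' _ ?_ fun i hi => ?_
    · rw [hterm i₀ hc₀]; exact WithTop.coe_lt_top _
    · have hin : i < n := Finset.mem_range.mp (Finset.mem_of_mem_erase hi)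
      have hne : i ≠ i₀ := Finset.ne_of_mem_erase hi
      by_cases hci : Q.coeff i = 0
      · rw [hci, map_zero, zero_mul, AddValuation.map_zero, hterm i₀ hc₀]
        exact WithTop.coe_lt_top _
      · have hgt : i₀ < i := by
          rcases lt_or_gt_of_ne hne with h | h
          · exact absurd (coeff_eq_zero_of_lt_natTrailingDegree h) hci
          · exact h
        rw [hterm i₀ hc₀, hterm i hci]
        have hb : ((Q.coeff i).natDegree : ℤ) + φ * i ≤ φ * n := by exact_mod_cast hQc i hin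
        have h3 : ((φ * (n - 1) : ℕ) : ℤ) = (φ : ℤ) * ((n : ℤ) - 1) := by
          rw [Nat.cast_mul, Nat.cast_sub hn1]; simp
        have hφ' : (1 : ℤ) ≤ φ := by exact_mod_cast hφ
        have hi0 : (1 : ℤ) ≤ i₀ := by exact_mod_cast hi₀pos
        have hgt' : (i₀ : ℤ) + 1 ≤ i := by exact_mod_cast hgt
        have hn' : (i : ℤ) + 1 ≤ n := by exact_mod_cast hin
        have hd0 : (0 : ℤ) ≤ ((Q.coeff i₀).natDegree : ℤ) := Int.natCast_nonneg _
        rw [h3]
        have key : -((Q.coeff i₀).natDegree : ℤ) + (i₀ : ℤ) * ((φ : ℤ) * ((n : ℤ) - 1)) <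
            -((Q.coeff i).natDegree : ℤ) + (i : ℤ) * ((φ : ℤ) * ((n : ℤ) - 1)) := by
          have e1 : (i : ℤ) * ((φ : ℤ) * ((n : ℤ) - 1)) - (i₀ : ℤ) * ((φ : ℤ) * ((n : ℤ) - 1)) =
              ((i : ℤ) - i₀) * ((φ : ℤ) * ((n : ℤ) - 1)) := by ring
          have e2 : (φ : ℤ) * ((n : ℤ) - 1) ≤ ((i : ℤ) - i₀) * ((φ : ℤ) * ((n : ℤ) - 1)) := by
            have hnn : (0 : ℤ) ≤ (φ : ℤ) * ((n : ℤ) - 1) :=
              mul_nonneg (by linarith) (by linarith)
            nlinarith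
          have e3 : (φ : ℤ) * i₀ ≥ 1 := by nlinarith
          have e4 : (φ : ℤ) * (i₀ + 1) ≤ φ * i := mul_le_mul_of_nonneg_left hgt' (by linarith)
          nlinarith
        exact_mod_cast key
  have hval := AddValuation.map_add_eq_of_lt_left (ordV k) hlt
  rw [hsum, AddValuation.map_zero, hterm i₀ hc₀] at hval
  exact WithTop.top_ne_coe hval

end Order

section Main

variable (ℓ : ℕ) [Fact ℓ.Prime]

theorem natCast_ne_zero_rat_poly2 (d : ℕ) : ((ℓ : ℚ[X][X]) ^ d) ≠ 0 := by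
  have hℓ : (ℓ : ℚ) ≠ 0 := by exact_mod_cast (Fact.out : ℓ.Prime).ne_zero
  have h1 : ((ℓ : ℕ) : ℚ[X][X]) = C (C (ℓ : ℚ)) := by simp
  rw [h1, ← C_pow, ← C_pow]
  intro h
  have h2 := C_eq_zero.mp (C_eq_zero.mp h)
  exact (pow_ne_zero d hℓ) h2

/-- **(D2)** `ℓ`-integrality of `χ`. -/
theorem chi_integral {n φ : ℕ} (hφ : 0 < φ)
    (jR uR : LaurentSeries ↥(GaloisRep.ratLocalizedAt ℓ))
    (hj : ordV (ZMod ℓ) (coeffMap (resR ℓ) jR) = ((-1 : ℤ) : WithTop ℤ))
    (hu : ordV (ZMod ℓ) (coeffMap (resR ℓ) uR) = (((φ * (n - 1) : ℕ) : ℤ) : WithTop ℤ))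
    (χ : ℚ[X][X]) (hχm : χ.Monic) (hχd : χ.natDegree = n)
    (hχc : ∀ i, i < n → (χ.coeff i).natDegree + φ * i ≤ φ * n)
    (c₀ : ↥(GaloisRep.ratLocalizedAt ℓ)) (hχ0 : χ.coeff 0 = C (c₀ : ℚ))
    (hχu : pev2 (coeffMap (GaloisRep.ratLocalizedAt ℓ).subtype jR)
      (coeffMap (GaloisRep.ratLocalizedAt ℓ).subtype uR) χ = 0) :
    ∃ χR : (↥(GaloisRep.ratLocalizedAt ℓ))[X][X],
      χR.map (mapRingHom (GaloisRep.ratLocalizedAt ℓ).subtype) = χ := by
  classical
  set ι := (GaloisRep.ratLocalizedAt ℓ).subtype with hι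
  have hιinj : Function.Injective ι := Subtype.val_injective
  have hι1 : Function.Injective (mapRingHom ι) := Polynomial.map_injective ι hιinj
  have hι2 : Function.Injective (mapRingHom (mapRingHom ι)) :=
    Polynomial.map_injective _ hι1
  obtain ⟨a, b, χ₀, hres, heq⟩ := (gaussTriple_poly2 ℓ).nrm χ hχm.ne_zero
  rcases le_or_gt a b with hab | hab
  · refine ⟨(ℓ : (↥(GaloisRep.ratLocalizedAt ℓ))[X][X]) ^ (b - a) * χ₀, ?_⟩
    have h1 : (ℓ : ℚ[X][X]) ^ a * χ =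
        (ℓ : ℚ[X][X]) ^ a * ((ℓ : ℚ[X][X]) ^ (b - a) * (mapRingHom (mapRingHom ι)) χ₀) := by
      rw [← mul_assoc, ← pow_add, Nat.add_sub_cancel' hab]; exact heq
    have h2 := mul_left_cancel₀ (natCast_ne_zero_rat_poly2 ℓ a) h1
    rw [h2, Polynomial.map_mul, Polynomial.map_pow, Polynomial.map_natCast]
    rfl
  · exfalso
    obtain ⟨d, hd⟩ : ∃ d, a = b + (d + 1) := ⟨a - b - 1, by omega⟩
    have h1 : (ℓ : ℚ[X][X]) ^ b * ((ℓ : ℚ[X][X]) ^ (d + 1) * χ) =
        (ℓ : ℚ[X][X]) ^ b * (mapRingHom (mapRingHom ι)) χ₀ := by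
      rw [← mul_assoc, ← pow_add, ← hd]; exact heq
    have h2 : (ℓ : ℚ[X][X]) ^ (d + 1) * χ = (mapRingHom (mapRingHom ι)) χ₀ :=
      mul_left_cancel₀ (natCast_ne_zero_rat_poly2 ℓ b) h1
    have hℓC : ((ℓ : ℕ) : ℚ[X][X]) = C (C (ℓ : ℚ)) := by simp
    -- coefficients of χ₀
    have hcoeff : ∀ i, (χ₀.coeff i).map ι = C ((ℓ : ℚ) ^ (d + 1)) * χ.coeff i := by
      intro i
      have := congrArg (fun P => Polynomial.coeff P i) h2
      simp only [coe_mapRingHom, coeff_map] at this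
      rw [← this, hℓC, ← C_pow, ← C_pow, coeff_C_mul]
    have hℓ0 : ((ℓ : ℚ) ^ (d + 1)) ≠ 0 :=
      pow_ne_zero _ (by exact_mod_cast (Fact.out : ℓ.Prime).ne_zero)
    have hresℓ : resR ℓ ((ℓ : ↥(GaloisRep.ratLocalizedAt ℓ)) ^ (d + 1)) = 0 := by
      rw [map_pow, resR_ell, zero_pow (Nat.succ_ne_zero d)]
    set Q : (ZMod ℓ)[X][X] := (mapRingHom (mapRingHom (resR ℓ))) χ₀ with hQdef
    have hQcoeff : ∀ i, Q.coeff i = (χ₀.coeff i).map (resR ℓ) := by
      intro i; simp [hQdef]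
    -- constant term
    have hQ0 : Q.coeff 0 = 0 := by
      rw [hQcoeff]
      have h0 : χ₀.coeff 0 = C ((ℓ : ↥(GaloisRep.ratLocalizedAt ℓ)) ^ (d + 1) * c₀) := by
        apply hι1
        show (χ₀.coeff 0).map ι = (C ((ℓ : ↥(GaloisRep.ratLocalizedAt ℓ)) ^ (d + 1) * c₀)).map ι
        rw [hcoeff 0, hχ0, Polynomial.map_C, ← C_mul]
        congr 1
      rw [h0, Polynomial.map_C, map_mul, hresℓ, zero_mul, C_0]
    have hQn : ∀ i, n ≤ i → Q.coeff i = 0 := by
      intro i hi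
      rw [hQcoeff]
      rcases Nat.eq_or_lt_of_le hi with h | h
      · have hn : χ₀.coeff i = C ((ℓ : ↥(GaloisRep.ratLocalizedAt ℓ)) ^ (d + 1)) := by
          apply hι1
          show (χ₀.coeff i).map ι = (C ((ℓ : ↥(GaloisRep.ratLocalizedAt ℓ)) ^ (d + 1))).map ι
          rw [hcoeff i, ← h, ← hχd, hχm.coeff_natDegree, mul_one, Polynomial.map_C]
          congr 1
        rw [hn, Polynomial.map_C, hresℓ, C_0]
      · have hz : χ₀.coeff i = 0 := by
          apply hι1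
          show (χ₀.coeff i).map ι = (0 : (↥(GaloisRep.ratLocalizedAt ℓ))[X]).map ι
          rw [hcoeff i, coeff_eq_zero_of_natDegree_lt (by rw [hχd]; exact h), mul_zero,
            Polynomial.map_zero]
        rw [hz, Polynomial.map_zero]
    have hQc : ∀ i, i < n → (Q.coeff i).natDegree + φ * i ≤ φ * n := by
      intro i hi
      refine le_trans (Nat.add_le_add_right ?_ _) (hχc i hi)
      rw [hQcoeff]
      calc ((χ₀.coeff i).map (resR ℓ)).natDegree ≤ (χ₀.coeff i).natDegree := natDegree_map_le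
        _ = ((χ₀.coeff i).map ι).natDegree := (natDegree_map_eq_of_injective hιinj _).symm
        _ = (χ.coeff i).natDegree := by rw [hcoeff i, natDegree_C_mul hℓ0]
    have hzeroR : pev2 jR uR χ₀ = 0 := by
      apply coeffMap_injective hιinj
      rw [coeffMap_pev2, map_zero]
      have : Polynomial.map (mapRingHom ι) χ₀ = (mapRingHom (mapRingHom ι)) χ₀ := rfl
      rw [this, ← h2, map_mul, hχu, mul_zero]
    have hQu : Q.eval₂ (evJ (coeffMap (resR ℓ) jR)) (coeffMap (resR ℓ) uR) = 0 := by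
      rw [← pev2_eq_eval₂_evJ]
      have : Q = Polynomial.map (mapRingHom (resR ℓ)) χ₀ := rfl
      rw [this, ← coeffMap_pev2, hzeroR, map_zero]
    exact hres (no_small_relation _ _ hj hφ hu Q hQ0 hQn hQc hQu)

/-- **(D2)**, packaged: the integral model of `χ` with all its properties. -/
theorem exists_chi_integral {n φ : ℕ} (hφ : 0 < φ)
    (jR uR : LaurentSeries ↥(GaloisRep.ratLocalizedAt ℓ))
    (hj : ordV (ZMod ℓ) (coeffMap (resR ℓ) jR) = ((-1 : ℤ) : WithTop ℤ))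
    (hu : ordV (ZMod ℓ) (coeffMap (resR ℓ) uR) = (((φ * (n - 1) : ℕ) : ℤ) : WithTop ℤ))
    (χ : ℚ[X][X]) (hχm : χ.Monic) (hχd : χ.natDegree = n)
    (hχc : ∀ i, i < n → (χ.coeff i).natDegree + φ * i ≤ φ * n)
    (c₀ : ↥(GaloisRep.ratLocalizedAt ℓ)) (hχ0 : χ.coeff 0 = C (c₀ : ℚ))
    (hχu : pev2 (coeffMap (GaloisRep.ratLocalizedAt ℓ).subtype jR)
      (coeffMap (GaloisRep.ratLocalizedAt ℓ).subtype uR) χ = 0) :
    ∃ χR : (↥(GaloisRep.ratLocalizedAt ℓ))[X][X],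
      χR.map (mapRingHom (GaloisRep.ratLocalizedAt ℓ).subtype) = χ ∧
      χR.Monic ∧ χR.natDegree = n ∧
      (∀ i, i < n → (χR.coeff i).natDegree + φ * i ≤ φ * n) ∧
      pev2 jR uR χR = 0 := by
  obtain ⟨χR, hχR⟩ := chi_integral ℓ hφ jR uR hj hu χ hχm hχd hχc c₀ hχ0 hχu
  have hιinj : Function.Injective (GaloisRep.ratLocalizedAt ℓ).subtype := Subtype.val_injective
  have hι1 : Function.Injective (mapRingHom (GaloisRep.ratLocalizedAt ℓ).subtype) :=
    Polynomial.map_injective _ hιinj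
  refine ⟨χR, hχR, ?_, ?_, ?_, ?_⟩
  · exact monic_of_injective hι1 (by rw [hχR]; exact hχm)
  · rw [← hχd, ← hχR]; exact (natDegree_map_eq_of_injective hι1 _).symm
  · intro i hi
    refine le_trans (Nat.add_le_add_right (le_of_eq ?_) _) (hχc i hi)
    rw [← hχR, coeff_map]
    exact (natDegree_map_eq_of_injective hιinj _).symm
  · apply coeffMap_injective hιinj
    rw [coeffMap_pev2, hχR, hχu, map_zero]

end Main

end

end Fermat.Agent.S28
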