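/-
S28 (Igusa), descent (helper94): from the formal Theorem A over `ℂ` to rational, `ℓ`-integral data.

`descent_main : ThmAStatement N → ¬ ℓ ∣ N → ∃ n φ u χQ, …`: the canonical polynomial has
coefficients in `ℤ_(ℓ)` (glue of `chi_rational` (D1), the `N`-unit constant term and
`exists_chi_integral` (D2)), and the Lagrange–Euler certificates for the `j_d` hold over `ℚ`
(`retract_relation_mul`).
-/
import Mathlib
import Fermat.Prelude.Def_ModularCurve_X0ModL
import Fermat.Agent.S28.IntOver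
import Fermat.Agent.S28.DescentD1
import Fermat.Agent.S28.Integrality
import Fermat.Agent.S28.UnitArith

set_option autoImplicit false

namespace Fermat.Agent.S28

open Polynomial ModularCurve

noncomputable section

/-! ### Monic unit series over an arbitrary ring -/

/-- `q^a · E` over the ring `A`, for an integral power series `E`. -/
def muSeries (A : Type*) [CommRing A] (a : ℤ) (E : PowerSeries ℤ) : LaurentSeries A :=
  HahnSeries.single a (1 : A) * HahnSeries.ofPowerSeries ℤ A (E.map (Int.castRingHom A))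

lemma coeffMap_muSeries {A B : Type*} [CommRing A] [CommRing B] (f : A →+* B) (a : ℤ)
    (E : PowerSeries ℤ) : coeffMap f (muSeries A a E) = muSeries B a E := by
  rw [muSeries, map_mul, coeffMap_single, map_one, coeffMap_ofPowerSeries,
    ← RingHom.comp_apply (PowerSeries.map f) (PowerSeries.map (Int.castRingHom A)),
    ← PowerSeries.map_comp, RingHom.ext_int (f.comp (Int.castRingHom A)) (Int.castRingHom B)]
  rfl

lemma coeff_muSeries {A : Type*} [CommRing A] (a : ℤ) (E : PowerSeries ℤ) (k : ℤ) :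
    (muSeries A a E).coeff k =
      (HahnSeries.ofPowerSeries ℤ A (E.map (Int.castRingHom A))).coeff (k - a) := by
  rw [muSeries, HahnSeries.coeff_single_mul, one_mul]

lemma orderTop_muSeries {A : Type*} [CommRing A] [Nontrivial A] (a : ℤ) {E : PowerSeries ℤ}
    (hE : PowerSeries.constantCoeff E = 1) : (muSeries A a E).orderTop = a := by
  refine HahnSeries.orderTop_eq_of_le ?_ fun g hg => ?_
  · rw [HahnSeries.mem_support, coeff_muSeries, sub_self,
      show (0 : ℤ) = ((0 : ℕ) : ℤ) from rfl, HahnSeries.ofPowerSeries_apply_coeff,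
      PowerSeries.coeff_map, PowerSeries.coeff_zero_eq_constantCoeff, hE]
    simp
  · by_contra hlt
    rw [not_le] at hlt
    rw [HahnSeries.mem_support] at hg
    exact hg (by rw [coeff_muSeries, ofPowerSeries_coeff_of_neg _ (by omega)])

lemma ordV_muSeries {k : Type*} [Field k] (a : ℤ) {E : PowerSeries ℤ}
    (hE : PowerSeries.constantCoeff E = 1) : ordV k (muSeries k a E) = (a : WithTop ℤ) := by
  rw [ordV, HahnSeries.addVal_apply, orderTop_muSeries a hE]

lemma muSeries_ne_zero {A : Type*} [CommRing A] [Nontrivial A] (a : ℤ) {E : PowerSeries ℤ}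
    (hE : PowerSeries.constantCoeff E = 1) : muSeries A a E ≠ 0 := by
  intro h
  have := orderTop_muSeries (A := A) a hE
  rw [h, HahnSeries.orderTop_zero] at this
  exact WithTop.top_ne_coe this

lemma jq_eq_muSeries : jq = muSeries ℚ (-1) jNum := rfl

lemma ordV_jq : ordV ℚ jq = ((-1 : ℤ) : WithTop ℤ) := by
  rw [jq_eq_muSeries]; exact ordV_muSeries (-1) constantCoeff_jNum

/-! ### Membership in `ℤ_(ℓ)` -/

lemma mem_ratLocalizedAt_of_padicValRat_eq_zero {ℓ : ℕ} (hℓ : ℓ.Prime) {x : ℚ}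
    (h : padicValRat ℓ x = 0) : x ∈ GaloisRep.ratLocalizedAt ℓ := by
  rw [mem_ratLocalizedAt_iff]
  have : Fact ℓ.Prime := ⟨hℓ⟩
  by_contra hc
  have hdvd : ℓ ∣ x.den := by
    by_contra hnd
    exact hc ((Nat.Prime.coprime_iff_not_dvd hℓ).mpr hnd).symm
  have hnum : ¬ (ℓ : ℤ) ∣ x.num := by
    intro hn
    have h1 : ℓ ∣ x.num.natAbs := Int.natCast_dvd.mp hn
    have h2 := Nat.dvd_gcd h1 hdvd
    rw [x.reduced.gcd_eq_one] at h2
    exact hℓ.one_lt.ne' (Nat.dvd_one.mp h2)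
  have h3 : padicValRat ℓ x = (padicValInt ℓ x.num : ℤ) - (padicValNat ℓ x.den : ℤ) := rfl
  rw [h3, padicValInt.eq_zero_of_not_dvd hnum] at h
  have h4 : 1 ≤ padicValNat ℓ x.den :=
    one_le_padicValNat_of_dvd x.den_nz hdvd
  omega

/-! ### The main descent statement -/

theorem descent_main (N ℓ : ℕ) [NeZero N] [Fact ℓ.Prime] (hℓN : ¬ ℓ ∣ N) (h : ThmAStatement N) :
    ∃ (n φ : ℕ) (u : LaurentSeries ℚ) (χQ : Polynomial (Polynomial ℚ)),
      0 < φ ∧ IsMonicUnitSeries u (((φ * (n - 1) : ℕ) : ℤ)) ∧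
      χQ.Monic ∧ χQ.natDegree = n ∧
      (∀ i, i < n → (χQ.coeff i).natDegree + φ * i ≤ φ * n) ∧
      (∀ i k, (χQ.coeff i).coeff k ∈ GaloisRep.ratLocalizedAt ℓ) ∧
      χQ.eval₂ (evJ ModularCurve.jq) u = 0 ∧
      ∀ (d : ℕ) (_ : NeZero d), d ∣ N → ∃ A : Polynomial (Polynomial ℚ),
        ModularCurve.qExpand ℚ d ModularCurve.jq *
            (Polynomial.derivative χQ).eval₂ (evJ ModularCurve.jq) u
          = A.eval₂ (evJ ModularCurve.jq) u := by
  obtain ⟨n, φ, u, χ, c₀, a, b, hφ, hu, hχm, hχd, hχc, hχu, hχ0, ha, hb, hab, hnorm, hA⟩ := h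
  have hℓ : ℓ.Prime := Fact.out
  obtain ⟨E, hE1, huE⟩ := hu
  have huE' : u = muSeries ℚ (((φ * (n - 1) : ℕ) : ℤ)) E := huE
  have hu0 : u ≠ 0 := by rw [huE']; exact muSeries_ne_zero _ hE1
  have huord : ordV ℚ u = ((((φ * (n - 1) : ℕ) : ℤ)) : WithTop ℤ) := by
    rw [huE']; exact ordV_muSeries _ hE1
  -- D1
  have hχu' : pev2 (coeffEmb ℂ jq) (coeffEmb ℂ u) χ = 0 := by
    rw [pev2_eq_eval₂_evJ]; exact hχu
  obtain ⟨χQ, hmap, hQm, hQd, hQc, hQu⟩ :=
    chi_rational jq u ordV_jq hu0 hφ (le_of_eq huord.symm) χ hχm hχd hχc hχu'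
  -- the constant term
  have hcoeff : ∀ i k, algebraMap ℚ ℂ ((χQ.coeff i).coeff k) = (χ.coeff i).coeff k := by
    intro i k
    rw [← hmap, coeff_map, coe_mapRingHom, coeff_map]
  set q₀ : ℚ := (χQ.coeff 0).coeff 0 with hq₀
  have hq0 : χQ.coeff 0 = C q₀ := by
    ext k
    rcases Nat.eq_zero_or_pos k with rfl | hk
    · rw [coeff_C_zero]
    · rw [coeff_C, if_neg hk.ne']
      apply (algebraMap ℚ ℂ).injective
      rw [hcoeff, hχ0, coeff_C, if_neg hk.ne', map_zero]
  have hc : ((q₀ : ℚ) : ℂ) = c₀ := by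
    have := hcoeff 0 0
    rw [hχ0, coeff_C_zero] at this
    exact this
  have hnu : IsNUnit N ((|q₀| : ℚ) : ℝ) := by
    refine ⟨a, b, ha, hb, fun p hp hpa => hab p hp (hpa.mul_right b),
      fun p hp hpb => hab p hp (hpb.mul_left a), ?_⟩
    have hb0 : (b : ℝ) ≠ 0 := by positivity
    rw [eq_div_iff hb0, ← hnorm, ← hc]
    congr 1
    rw [Rat.cast_abs]
    exact (Complex.norm_ratCast q₀).symm
  have hq₀mem : q₀ ∈ GaloisRep.ratLocalizedAt ℓ :=
    mem_ratLocalizedAt_of_padicValRat_eq_zero hℓ (hnu.padicValRat_eq_zero hℓ hℓN)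
  -- D2
  set jR : LaurentSeries ↥(GaloisRep.ratLocalizedAt ℓ) := muSeries _ (-1) jNum with hjR
  set uR : LaurentSeries ↥(GaloisRep.ratLocalizedAt ℓ) :=
    muSeries _ (((φ * (n - 1) : ℕ) : ℤ)) E with huR
  have hjRQ : coeffMap (GaloisRep.ratLocalizedAt ℓ).subtype jR = jq := by
    rw [hjR, coeffMap_muSeries, jq_eq_muSeries]
  have huRQ : coeffMap (GaloisRep.ratLocalizedAt ℓ).subtype uR = u := by
    rw [huR, coeffMap_muSeries, huE']
  obtain ⟨χR, hRmap, -⟩ := exists_chi_integral ℓ hφ jR uR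
    (by rw [hjR, coeffMap_muSeries]; exact ordV_muSeries (-1) constantCoeff_jNum)
    (by rw [huR, coeffMap_muSeries]; exact ordV_muSeries _ hE1)
    χQ hQm hQd hQc ⟨q₀, hq₀mem⟩ hq0 (by rw [hjRQ, huRQ]; exact hQu)
  refine ⟨n, φ, u, χQ, hφ, ⟨E, hE1, huE⟩, hQm, hQd, hQc, ?_, ?_, ?_⟩
  · intro i k
    rw [← hRmap, coeff_map, coe_mapRingHom, coeff_map]
    exact Subtype.property _
  · rw [← pev2_eq_eval₂_evJ]; exact hQu
  · intro d hd hdN
    obtain ⟨A, hA'⟩ := hA d hd hdN
    obtain ⟨r, hr⟩ := exists_retraction ℂ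
    refine ⟨polyRet2 r A, ?_⟩
    have key := retract_relation_mul (L := ℂ) jq u (qExpand ℚ d jq) r (derivative χ) A (by
      rw [pev2_eq_eval₂_evJ, pev2_eq_eval₂_evJ]; exact hA')
    rw [← hmap, derivative_map, polyRet2_map r hr] at key
    rw [← pev2_eq_eval₂_evJ, ← pev2_eq_eval₂_evJ]
    exact key

end

end Fermat.Agent.S28
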