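import Mathlib
import Fermat.Prelude.Def_GaloisRep_Flat
import Fermat.Prelude.Def_ModularCurve_X0
import Fermat.Prelude.Def_ModularCurve_LaurentCoeff
import Fermat.Agent.S28.OrderLemma

/-!
# S28: interface definitions (contracts between the work packages)

* `IsIntOver ℓ s x` : `x ∈ ℚ((q))` is integral over `ℤ_(ℓ)[s]` (polynomial form, instance-free).
* `IsMonicUnitSeries x a` : `x = q^a (1 + …)` with integer coefficients.
* `ThmAStatement N` : the formal output of the analytic part (Theorem A), over `ℂ((q))`.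
* `RedStatement N ℓ` : the output of descent + reduction, the input of `Charts.lean`.
-/

set_option autoImplicit false

namespace Fermat.Agent.S28

open Polynomial

/-- `x` is integral over `ℤ_(ℓ)[s]` (polynomial form): there is a monic
`p ∈ ℤ_(ℓ)[Y][X]` with `p(s, x) = 0`.  Outer variable `X ↦ x`, inner variable `Y ↦ s`. -/
def IsIntOver (ℓ : ℕ) (s x : LaurentSeries ℚ) : Prop :=
  ∃ p : Polynomial (Polynomial ℚ), p.Monic ∧
    (∀ i k, (p.coeff i).coeff k ∈ GaloisRep.ratLocalizedAt ℓ) ∧ p.eval₂ (evJ s) x = 0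

/-- `x = q^a · (1 + …)` with `ℤ`-coefficients. -/
def IsMonicUnitSeries (x : LaurentSeries ℚ) (a : ℤ) : Prop :=
  ∃ E : PowerSeries ℤ, PowerSeries.constantCoeff E = 1 ∧
    x = HahnSeries.single a (1 : ℚ) * HahnSeries.ofPowerSeries ℤ ℚ (E.map (Int.castRingHom ℚ))

/-- Base change of coefficients `ℚ((q)) → ℂ((q))`. -/
noncomputable abbrev toC : LaurentSeries ℚ →+* LaurentSeries ℂ :=
  ModularCurve.coeffMap (algebraMap ℚ ℂ)

/-- **Theorem A** (formal output of the analytic part).  There are `n, φ`, a formal unit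
`u = q^{φ(n-1)}(1 + …) ∈ ℤ((q))` and a monic `χ ∈ ℂ[Y][X]` of degree `n` with
`deg_Y (coeff_i χ) ≤ φ (n - i)`, `χ(j, u) = 0`, whose constant term is a constant `c₀` with
`‖c₀‖ = a / b`, all primes of `a b` dividing `N`; and for every `d ∣ N` the series
`j_d · χ'(j, u)` is a polynomial in `j, u`. -/
def ThmAStatement (N : ℕ) : Prop :=
  ∃ (n φ : ℕ) (u : LaurentSeries ℚ) (χ : Polynomial (Polynomial ℂ)) (c₀ : ℂ) (a b : ℕ),
    0 < φ ∧ IsMonicUnitSeries u (((φ * (n - 1) : ℕ) : ℤ)) ∧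
    χ.Monic ∧ χ.natDegree = n ∧
    (∀ i, i < n → (χ.coeff i).natDegree + φ * i ≤ φ * n) ∧
    χ.eval₂ (evJ (toC ModularCurve.jq)) (toC u) = 0 ∧
    χ.coeff 0 = C c₀ ∧ 0 < a ∧ 0 < b ∧ (∀ p : ℕ, p.Prime → p ∣ a * b → p ∣ N) ∧
    ‖c₀‖ * (b : ℝ) = (a : ℝ) ∧
    ∀ (d : ℕ) (_ : NeZero d), d ∣ N → ∃ A : Polynomial (Polynomial ℂ),
      toC (ModularCurve.qExpand ℚ d ModularCurve.jq) *
          (derivative χ).eval₂ (evJ (toC ModularCurve.jq)) (toC u) =
        A.eval₂ (evJ (toC ModularCurve.jq)) (toC u)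

/-- Output of descent + reduction (input of `Charts.lean`): a subring `B ⊆ ℚ((q))` with a
reduction map `ρ : B → 𝔽_ℓ((q))`, `ker ρ = ℓ B`, containing every element of `ℚ(j, u)` integral
over `ℤ_(ℓ)[j]` or `ℤ_(ℓ)[j⁻¹]` (K3), with the divisibility property (K4), and
`F = ℚ(j_d : d ∣ N) ⊆ ℚ(j, u)` (D3). -/
def RedStatement (N ℓ : ℕ) : Prop :=
  ∃ (u : LaurentSeries ℚ) (B : Subring (LaurentSeries ℚ)) (ρ : B →+* LaurentSeries (ZMod ℓ)),
    (ModularCurve.modularFunctionFieldFull N ≤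
      IntermediateField.adjoin ℚ ({ModularCurve.jq, u} : Set (LaurentSeries ℚ))) ∧
    (∀ x ∈ IntermediateField.adjoin ℚ ({ModularCurve.jq, u} : Set (LaurentSeries ℚ)),
      ∀ s ∈ ({ModularCurve.jq, ModularCurve.jq⁻¹} : Set (LaurentSeries ℚ)),
        IsIntOver ℓ s x → x ∈ B) ∧
    (∀ y : B, ρ y = 0 → ∃ z : B, (y : LaurentSeries ℚ) = (ℓ : LaurentSeries ℚ) * z) ∧
    (∀ z ∈ B, z ∈ IntermediateField.adjoin ℚ ({ModularCurve.jq, u} : Set (LaurentSeries ℚ)) →
      ∀ s ∈ ({ModularCurve.jq, ModularCurve.jq⁻¹} : Set (LaurentSeries ℚ)),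
        IsIntOver ℓ s ((ℓ : LaurentSeries ℚ) * z) → IsIntOver ℓ s z)

end Fermat.Agent.S28
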