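import Mathlib
import Fermat.Agent.S28.Eval
import Fermat.Agent.S28.Residue

/-!
# S28 (K1): the kernel of reduction on `Z_(ℓ)[j,u]`

Setting: `jR uR : Z_(ℓ)((q))`, `χR ∈ Z_(ℓ)[Y][X]` monic of degree `n` with `χR(jR,uR) = 0`, and
`1, ū, …, ū^{n-1}` independent over `F_ℓ[j̄]` (`hind`).  Then an element `P(jR,uR)` of `Z_(ℓ)[j,u]`
whose reduction mod `ℓ` vanishes is `ℓ · P'(jR,uR)`.
-/

set_option autoImplicit false

namespace Fermat.Agent.S28

open Polynomial ModularCurve

noncomputable section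

/-- Independence of `1, u, …, u^{n-1}` over `A[j]` (polynomial form). -/
def IndepUpTo {A : Type*} [CommRing A] (j u : LaurentSeries A) (n : ℕ) : Prop :=
  ∀ P : A[X][X], P.natDegree < n → pev2 j u P = 0 → P = 0

section Kernel

variable (ℓ : ℕ) [Fact ℓ.Prime]
variable (jR uR : LaurentSeries ↥(GaloisRep.ratLocalizedAt ℓ))

omit [Fact ℓ.Prime] in
theorem indep_pos {n : ℕ}
    (χR : (↥(GaloisRep.ratLocalizedAt ℓ))[X][X]) (hχm : χR.Monic) (hχd : χR.natDegree = n)
    (hχu : pev2 jR uR χR = 0) : 0 < n := by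
  rcases Nat.eq_zero_or_pos n with h | h
  · exfalso
    rw [h] at hχd
    have h1 : χR = 1 := eq_one_of_monic_natDegree_zero hχm hχd
    rw [h1, map_one] at hχu
    have : (1 : LaurentSeries ↥(GaloisRep.ratLocalizedAt ℓ)).coeff 0 = 0 := by rw [hχu]; rfl
    rw [HahnSeries.coeff_one] at this
    simp at this
  · exact h

/-- `j̄` is transcendental over `F_ℓ` (polynomial form). -/
theorem pev1_injective_of_indep {A : Type*} [CommRing A] {j u : LaurentSeries A} {n : ℕ}
    (hn : 0 < n) (hind : IndepUpTo j u n) : Function.Injective (pev1 j) := by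
  rw [injective_iff_map_eq_zero]
  intro g hg
  have := hind (C g) (by rw [natDegree_C]; exact hn) (by rw [pev2_C]; exact hg)
  exact C_eq_zero.mp this

/-- **(K1)** the kernel of reduction on `Z_(ℓ)[j,u]` is generated by `ℓ`. -/
theorem reduction_kernel {n : ℕ}
    (χR : (↥(GaloisRep.ratLocalizedAt ℓ))[X][X]) (hχm : χR.Monic) (hχd : χR.natDegree = n)
    (hχu : pev2 jR uR χR = 0)
    (hind : IndepUpTo (coeffMap (resR ℓ) jR) (coeffMap (resR ℓ) uR) n)
    (P : (↥(GaloisRep.ratLocalizedAt ℓ))[X][X])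
    (hP : coeffMap (resR ℓ) (pev2 jR uR P) = 0) :
    ∃ P' : (↥(GaloisRep.ratLocalizedAt ℓ))[X][X],
      pev2 jR uR P = (ℓ : LaurentSeries ↥(GaloisRep.ratLocalizedAt ℓ)) * pev2 jR uR P' := by
  have hn : 0 < n := indep_pos ℓ jR uR χR hχm hχd hχu
  have hχ1 : χR ≠ 1 := by
    intro h
    rw [h, natDegree_one] at hχd
    omega
  set P₀ := P %ₘ χR with hP₀
  have hdiv : P₀ + χR * (P /ₘ χR) = P := modByMonic_add_div P χR
  have hev : pev2 jR uR P = pev2 jR uR P₀ := by
    conv_lhs => rw [← hdiv]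
    rw [map_add, map_mul, hχu, zero_mul, add_zero]
  have hdeg : P₀.natDegree < n := by
    rw [← hχd]; exact natDegree_modByMonic_lt P hχm hχ1
  have hred : (mapRingHom (mapRingHom (resR ℓ))) P₀ = 0 := by
    apply hind
    · exact lt_of_le_of_lt natDegree_map_le hdeg
    · have : (mapRingHom (mapRingHom (resR ℓ))) P₀ = Polynomial.map (mapRingHom (resR ℓ)) P₀ := rfl
      rw [this, ← coeffMap_pev2, ← hev, hP]
  obtain ⟨P', hP'⟩ := (gaussTriple_poly2 ℓ).ker P₀ hred
  refine ⟨P', ?_⟩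
  rw [hev, hP', map_mul, map_natCast]

end Kernel

end

end Fermat.Agent.S28
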