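import Mathlib
import Fermat.Agent.S28.RedKernel

/-!
# S28: the ring `B = Z_(ℓ)[j,u]` localised at `{g(j) : g ≢ 0 mod ℓ}` and its reduction map `ρ`

`B ⊂ ℚ((q))` is the set of `x` with `x · g(j) = P(j,u)` for some `g ∈ Z_(ℓ)[Y]`, `g ≢ 0 mod ℓ`,
`P ∈ Z_(ℓ)[Y][X]`.  The reduction `ρ : B → F_ℓ((q))`, `x ↦ P̄(j̄,ū) / ḡ(j̄)`, is a ring homomorphism
with kernel `ℓ B`.
-/

set_option autoImplicit false

namespace Fermat.Agent.S28

open Polynomial ModularCurve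

noncomputable section

variable (ℓ : ℕ) [Fact ℓ.Prime]
variable (jR uR : LaurentSeries ↥(GaloisRep.ratLocalizedAt ℓ))

/-- coefficient inclusion `Z_(ℓ)((q)) → ℚ((q))` -/
abbrev incQ : LaurentSeries ↥(GaloisRep.ratLocalizedAt ℓ) →+* LaurentSeries ℚ :=
  coeffMap (GaloisRep.ratLocalizedAt ℓ).subtype

/-- coefficient reduction `Z_(ℓ)((q)) → F_ℓ((q))` -/
abbrev redK : LaurentSeries ↥(GaloisRep.ratLocalizedAt ℓ) →+* LaurentSeries (ZMod ℓ) :=
  coeffMap (resR ℓ)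

omit [Fact ℓ.Prime] in
theorem incQ_injective : Function.Injective (incQ ℓ) :=
  coeffMap_injective Subtype.val_injective

/-- Membership in `B`. -/
def InB (x : LaurentSeries ℚ) : Prop :=
  ∃ g : (↥(GaloisRep.ratLocalizedAt ℓ))[X], g.map (resR ℓ) ≠ 0 ∧
    ∃ P : (↥(GaloisRep.ratLocalizedAt ℓ))[X][X],
      x * incQ ℓ (pev1 jR g) = incQ ℓ (pev2 jR uR P)

theorem inB_of_eq {x : LaurentSeries ℚ} (P : (↥(GaloisRep.ratLocalizedAt ℓ))[X][X])
    (h : x = incQ ℓ (pev2 jR uR P)) : InB ℓ jR uR x :=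
  ⟨1, by rw [Polynomial.map_one]; exact one_ne_zero, P, by rw [map_one, map_one, mul_one, h]⟩

theorem inB_add {x y : LaurentSeries ℚ} (hx : InB ℓ jR uR x) (hy : InB ℓ jR uR y) :
    InB ℓ jR uR (x + y) := by
  obtain ⟨g, hg, P, hP⟩ := hx
  obtain ⟨g', hg', P', hP'⟩ := hy
  refine ⟨g * g', ?_, P * C g' + P' * C g, ?_⟩
  · rw [Polynomial.map_mul]; exact mul_ne_zero hg hg'
  · simp only [map_add, map_mul, pev2_C]
    rw [← hP, ← hP']; ring

theorem inB_mul {x y : LaurentSeries ℚ} (hx : InB ℓ jR uR x) (hy : InB ℓ jR uR y) :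
    InB ℓ jR uR (x * y) := by
  obtain ⟨g, hg, P, hP⟩ := hx
  obtain ⟨g', hg', P', hP'⟩ := hy
  refine ⟨g * g', ?_, P * P', ?_⟩
  · rw [Polynomial.map_mul]; exact mul_ne_zero hg hg'
  · simp only [map_mul]
    rw [← hP, ← hP']; ring

theorem inB_neg {x : LaurentSeries ℚ} (hx : InB ℓ jR uR x) : InB ℓ jR uR (-x) := by
  obtain ⟨g, hg, P, hP⟩ := hx
  refine ⟨g, hg, -P, ?_⟩
  rw [map_neg, map_neg, ← hP, neg_mul]

/-- The ring `B`. -/
def Bsub : Subring (LaurentSeries ℚ) where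
  carrier := {x | InB ℓ jR uR x}
  mul_mem' := fun hx hy => inB_mul ℓ jR uR hx hy
  one_mem' := inB_of_eq ℓ jR uR 1 (by rw [map_one, map_one])
  add_mem' := fun hx hy => inB_add ℓ jR uR hx hy
  zero_mem' := inB_of_eq ℓ jR uR 0 (by rw [map_zero, map_zero])
  neg_mem' := fun hx => inB_neg ℓ jR uR hx

theorem mem_Bsub_iff {x : LaurentSeries ℚ} : x ∈ Bsub ℓ jR uR ↔ InB ℓ jR uR x := Iff.rfl

theorem incQ_pev2_mem (P : (↥(GaloisRep.ratLocalizedAt ℓ))[X][X]) :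
    incQ ℓ (pev2 jR uR P) ∈ Bsub ℓ jR uR :=
  inB_of_eq ℓ jR uR P rfl

/-- raw reduction function -/
def rhoFun (x : ↥(Bsub ℓ jR uR)) : LaurentSeries (ZMod ℓ) :=
  redK ℓ (pev2 jR uR ((mem_Bsub_iff ℓ jR uR).mp x.2).choose_spec.2.choose) /
    redK ℓ (pev1 jR ((mem_Bsub_iff ℓ jR uR).mp x.2).choose)

variable {jR uR}

theorem redK_pev1_ne_zero (hinj : Function.Injective (pev1 (redK ℓ jR)))
    {g : (↥(GaloisRep.ratLocalizedAt ℓ))[X]} (hg : g.map (resR ℓ) ≠ 0) :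
    redK ℓ (pev1 jR g) ≠ 0 := by
  rw [coeffMap_pev1]
  intro h
  exact hg (hinj (by rw [h, map_zero]))

theorem rhoFun_eq (hinj : Function.Injective (pev1 (redK ℓ jR)))
    (x : ↥(Bsub ℓ jR uR))
    {g : (↥(GaloisRep.ratLocalizedAt ℓ))[X]} (hg : g.map (resR ℓ) ≠ 0)
    {P : (↥(GaloisRep.ratLocalizedAt ℓ))[X][X]}
    (h : (x : LaurentSeries ℚ) * incQ ℓ (pev1 jR g) = incQ ℓ (pev2 jR uR P)) :
    rhoFun ℓ jR uR x = redK ℓ (pev2 jR uR P) / redK ℓ (pev1 jR g) := by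
  have hx := (mem_Bsub_iff ℓ jR uR).mp x.2
  have hg₀ := hx.choose_spec.1
  have h₀ := hx.choose_spec.2.choose_spec
  have hcross : pev2 jR uR hx.choose_spec.2.choose * pev1 jR g =
      pev2 jR uR P * pev1 jR hx.choose := by
    apply incQ_injective ℓ
    rw [map_mul, map_mul, ← h₀, ← h]; ring
  have hcross' := congrArg (redK ℓ) hcross
  rw [map_mul, map_mul] at hcross'
  show redK ℓ (pev2 jR uR hx.choose_spec.2.choose) / redK ℓ (pev1 jR hx.choose) = _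
  rw [div_eq_div_iff (redK_pev1_ne_zero ℓ hinj hg₀) (redK_pev1_ne_zero ℓ hinj hg)]
  exact hcross'

variable (jR uR)

/-- The reduction map `ρ : B → F_ℓ((q))`. -/
def rho (hinj : Function.Injective (pev1 (redK ℓ jR))) :
    ↥(Bsub ℓ jR uR) →+* LaurentSeries (ZMod ℓ) where
  toFun x := rhoFun ℓ jR uR x
  map_one' := by
    have h : ((1 : ↥(Bsub ℓ jR uR)) : LaurentSeries ℚ) * incQ ℓ (pev1 jR 1) =
        incQ ℓ (pev2 jR uR 1) := by
      simp only [map_one, mul_one, Subring.coe_one]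
    have h1 : ((1 : (↥(GaloisRep.ratLocalizedAt ℓ))[X]).map (resR ℓ)) ≠ 0 := by
      rw [Polynomial.map_one]; exact one_ne_zero
    rw [rhoFun_eq ℓ hinj _ h1 h]
    simp only [map_one, div_one]
  map_zero' := by
    have h : ((0 : ↥(Bsub ℓ jR uR)) : LaurentSeries ℚ) * incQ ℓ (pev1 jR 1) =
        incQ ℓ (pev2 jR uR 0) := by
      simp only [map_zero, zero_mul, Subring.coe_zero]
    have h1 : ((1 : (↥(GaloisRep.ratLocalizedAt ℓ))[X]).map (resR ℓ)) ≠ 0 := by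
      rw [Polynomial.map_one]; exact one_ne_zero
    rw [rhoFun_eq ℓ hinj _ h1 h]
    simp only [map_zero, zero_div]
  map_mul' := by
    intro x y
    obtain ⟨g, hg, P, hP⟩ := (mem_Bsub_iff ℓ jR uR).mp x.2
    obtain ⟨g', hg', P', hP'⟩ := (mem_Bsub_iff ℓ jR uR).mp y.2
    have hgg : (g * g').map (resR ℓ) ≠ 0 := by
      rw [Polynomial.map_mul]; exact mul_ne_zero hg hg'
    have hmul : ((x * y : ↥(Bsub ℓ jR uR)) : LaurentSeries ℚ) * incQ ℓ (pev1 jR (g * g')) =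
        incQ ℓ (pev2 jR uR (P * P')) := by
      simp only [map_mul, Subring.coe_mul]
      rw [← hP, ← hP']; ring
    rw [rhoFun_eq ℓ hinj _ hgg hmul, rhoFun_eq ℓ hinj x hg hP, rhoFun_eq ℓ hinj y hg' hP']
    simp only [map_mul]
    rw [div_mul_div_comm]
  map_add' := by
    intro x y
    obtain ⟨g, hg, P, hP⟩ := (mem_Bsub_iff ℓ jR uR).mp x.2
    obtain ⟨g', hg', P', hP'⟩ := (mem_Bsub_iff ℓ jR uR).mp y.2
    have hgg : (g * g').map (resR ℓ) ≠ 0 := by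
      rw [Polynomial.map_mul]; exact mul_ne_zero hg hg'
    have hadd : ((x + y : ↥(Bsub ℓ jR uR)) : LaurentSeries ℚ) * incQ ℓ (pev1 jR (g * g')) =
        incQ ℓ (pev2 jR uR (P * C g' + P' * C g)) := by
      simp only [map_add, map_mul, pev2_C, Subring.coe_add]
      rw [← hP, ← hP']; ring
    rw [rhoFun_eq ℓ hinj _ hgg hadd, rhoFun_eq ℓ hinj x hg hP, rhoFun_eq ℓ hinj y hg' hP']
    simp only [map_add, map_mul, pev2_C]
    rw [div_add_div _ _ (redK_pev1_ne_zero ℓ hinj hg) (redK_pev1_ne_zero ℓ hinj hg')]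
    congr 1
    ring

variable {jR uR}

theorem rho_eq (hinj : Function.Injective (pev1 (redK ℓ jR)))
    (x : ↥(Bsub ℓ jR uR))
    {g : (↥(GaloisRep.ratLocalizedAt ℓ))[X]} (hg : g.map (resR ℓ) ≠ 0)
    {P : (↥(GaloisRep.ratLocalizedAt ℓ))[X][X]}
    (h : (x : LaurentSeries ℚ) * incQ ℓ (pev1 jR g) = incQ ℓ (pev2 jR uR P)) :
    rho ℓ jR uR hinj x = redK ℓ (pev2 jR uR P) / redK ℓ (pev1 jR g) :=
  rhoFun_eq ℓ hinj x hg h

theorem rho_incQ_pev2 (hinj : Function.Injective (pev1 (redK ℓ jR)))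
    (P : (↥(GaloisRep.ratLocalizedAt ℓ))[X][X]) :
    rho ℓ jR uR hinj ⟨incQ ℓ (pev2 jR uR P), incQ_pev2_mem ℓ jR uR P⟩ = redK ℓ (pev2 jR uR P) := by
  have h1 : ((1 : (↥(GaloisRep.ratLocalizedAt ℓ))[X]).map (resR ℓ)) ≠ 0 := by
    rw [Polynomial.map_one]; exact one_ne_zero
  rw [rho_eq ℓ hinj _ h1 (P := P) (by simp only [map_one, mul_one])]
  simp only [map_one, div_one]

end

end Fermat.Agent.S28
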