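/-
S28 (Igusa), work package WP2: size of the modular discriminant near the cusp `i∞`.
`Δ(τ) / q(τ) → 1` as `Im τ → ∞`, and two-sided bounds `c·e^{-2π Im τ} ≤ ‖Δ τ‖ ≤ C·e^{-2π Im τ}`
on every half plane `Im τ ≥ y₀ > 0`.
-/
import Mathlib.NumberTheory.ModularForms.Discriminant

set_option autoImplicit false

namespace Fermat.Agent.S28

open UpperHalfPlane ModularForm Filter Complex
open scoped Real Topology

/-- `‖q(τ)‖ = e^{-2π Im τ}`. -/
lemma wp2_norm_qParam_one (τ : ℍ) : ‖Function.Periodic.qParam 1 τ‖ = Real.exp (-2 * π * τ.im) := by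
  simp [Function.Periodic.qParam, Complex.norm_exp]

lemma wp2_qParam_one_ne_zero (τ : ℍ) : Function.Periodic.qParam 1 (τ : ℂ) ≠ 0 := by
  simp [Function.Periodic.qParam]

/-- `Δ(τ) / q(τ) → 1` at `i∞`. -/
theorem tendsto_discriminant_div_qParam :
    Tendsto (fun τ : ℍ => discriminant τ / Function.Periodic.qParam 1 (τ : ℂ)) atImInfty (𝓝 1) := by
  refine Tendsto.congr (fun τ => ?_) tendsto_atImInfty_tprod_one_sub_eta_q_pow
  rw [discriminant_eq_q_prod, mul_div_cancel_left₀ _ (wp2_qParam_one_ne_zero τ)]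

/-- The Euler product `∏ (1 - q^(n+1))^24` as a function of `q`. -/
noncomputable def wp2EulerProd24 (q : ℂ) : ℂ := ∏' n : ℕ, (1 - q ^ (n + 1)) ^ 24

lemma wp2_discriminant_eq_qParam_mul_eulerProd24 (τ : ℍ) :
    discriminant τ = Function.Periodic.qParam 1 (τ : ℂ) *
      wp2EulerProd24 (Function.Periodic.qParam 1 (τ : ℂ)) := by
  rw [discriminant_eq_q_prod]
  rfl

lemma wp2_continuousOn_eulerProd24 : ContinuousOn wp2EulerProd24 (Metric.ball (0 : ℂ) 1) :=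
  (differentiableOn_tprod_one_sub_pow_pow 24).continuousOn

lemma wp2_eulerProd24_ne_zero {q : ℂ} (hq : ‖q‖ < 1) : wp2EulerProd24 q ≠ 0 := by
  unfold wp2EulerProd24
  rw [(multipliable_one_sub_pow hq).tprod_pow 24]
  refine pow_ne_zero _ ?_
  have h := tprod_one_add_ne_zero_of_summable (f := fun n : ℕ => -q ^ (n + 1)) ?_ ?_
  · simpa [sub_eq_add_neg] using h
  · intro i
    rw [← sub_eq_add_neg, sub_ne_zero]
    intro h1
    have h2 : ‖q ^ (i + 1)‖ = 1 := by rw [← h1, norm_one]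
    rw [norm_pow] at h2
    have h3 : ‖q‖ ^ (i + 1) < 1 := pow_lt_one₀ (norm_nonneg _) hq (Nat.succ_ne_zero i)
    linarith
  · simpa using (summable_nat_add_iff 1).mpr (summable_geometric_of_lt_one (norm_nonneg _) hq)

/-- Two-sided bounds for the Euler product on a closed disc of radius `r < 1`. -/
lemma wp2_exists_eulerProd24_bounds {r : ℝ} (hr : r < 1) :
    ∃ c C : ℝ, 0 < c ∧ 0 < C ∧ ∀ q : ℂ, ‖q‖ ≤ r → c ≤ ‖wp2EulerProd24 q‖ ∧ ‖wp2EulerProd24 q‖ ≤ C := by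
  rcases lt_or_ge r 0 with hneg | hr0
  · exact ⟨1, 1, one_pos, one_pos, fun q hq => absurd (norm_nonneg q) (by linarith)⟩
  have hsub : Metric.closedBall (0 : ℂ) r ⊆ Metric.ball (0 : ℂ) 1 :=
    Metric.closedBall_subset_ball hr
  have hcont : ContinuousOn (fun q => ‖wp2EulerProd24 q‖) (Metric.closedBall (0 : ℂ) r) :=
    (wp2_continuousOn_eulerProd24.mono hsub).norm
  have hcomp : IsCompact (Metric.closedBall (0 : ℂ) r) := isCompact_closedBall 0 r
  have hne : (Metric.closedBall (0 : ℂ) r).Nonempty := ⟨0, by simpa using hr0⟩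
  obtain ⟨q₁, hq₁, hmin⟩ := hcomp.exists_isMinOn hne hcont
  obtain ⟨q₂, hq₂, hmax⟩ := hcomp.exists_isMaxOn hne hcont
  have hq₁' : ‖q₁‖ < 1 := by simpa using hsub hq₁
  have hq₂' : ‖q₂‖ < 1 := by simpa using hsub hq₂
  refine ⟨‖wp2EulerProd24 q₁‖, ‖wp2EulerProd24 q₂‖, norm_pos_iff.mpr (wp2_eulerProd24_ne_zero hq₁'),
    norm_pos_iff.mpr (wp2_eulerProd24_ne_zero hq₂'), fun q hq => ?_⟩
  have hqmem : q ∈ Metric.closedBall (0 : ℂ) r := by simpa using hq
  exact ⟨hmin hqmem, hmax hqmem⟩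

/-- Two-sided bounds `c·e^{-2π Im τ} ≤ ‖Δ τ‖ ≤ C·e^{-2π Im τ}` on the half plane `Im τ ≥ y₀`. -/
theorem exists_discriminant_bounds {y₀ : ℝ} (hy₀ : 0 < y₀) :
    ∃ c C : ℝ, 0 < c ∧ 0 < C ∧ ∀ τ : ℍ, y₀ ≤ τ.im →
      c * Real.exp (-2 * π * τ.im) ≤ ‖discriminant τ‖ ∧
        ‖discriminant τ‖ ≤ C * Real.exp (-2 * π * τ.im) := by
  have hr : Real.exp (-2 * π * y₀) < 1 := by
    rw [← Real.exp_zero, Real.exp_lt_exp]
    have := Real.pi_pos
    nlinarith
  obtain ⟨c, C, hc, hC, h⟩ := wp2_exists_eulerProd24_bounds hr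
  refine ⟨c, C, hc, hC, fun τ hτ => ?_⟩
  have hq : ‖Function.Periodic.qParam 1 (τ : ℂ)‖ ≤ Real.exp (-2 * π * y₀) := by
    rw [wp2_norm_qParam_one, Real.exp_le_exp]
    have := Real.pi_pos
    nlinarith
  obtain ⟨h1, h2⟩ := h _ hq
  rw [wp2_discriminant_eq_qParam_mul_eulerProd24, norm_mul, wp2_norm_qParam_one]
  have hpos : 0 < Real.exp (-2 * π * τ.im) := Real.exp_pos _
  constructor
  · rw [mul_comm]; exact mul_le_mul_of_nonneg_left h1 hpos.le
  · rw [mul_comm C]; exact mul_le_mul_of_nonneg_left h2 hpos.le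

end Fermat.Agent.S28
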