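/-
S28 (Igusa), work package WP1: Hermite decomposition `diag(δ,1) γ = σ (g b; 0 δ/g)` with
`g = gcd(δ, c)` and the resulting transformation formula for `τ ↦ Δ(δ τ)` under `SL(2,ℤ)`.
-/
import Fermat.Agent.S28.DeltaBounds
import Fermat.Prelude.Def_ModularForm_HeckeOperator

set_option autoImplicit false

namespace Fermat.Agent.S28

open UpperHalfPlane ModularForm Filter Complex
open scoped Real Topology MatrixGroups ModularForm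

/-- Integer Hermite decomposition `diag(δ,1) γ = σ (g b; 0 δ/g)` with `g = gcd(δ, γ 1 0)`. -/
lemma wp1_hermite_int (δ : ℕ) (hδ : δ ≠ 0) (γ : SL(2, ℤ)) :
    ∃ (σ : SL(2, ℤ)) (b : ℤ),
      (δ : ℤ) * γ 0 0 = σ 0 0 * (Int.gcd δ (γ 1 0) : ℤ) ∧
      (δ : ℤ) * γ 0 1 = σ 0 0 * b + σ 0 1 * ((δ / Int.gcd δ (γ 1 0) : ℕ) : ℤ) ∧
      γ 1 0 = σ 1 0 * (Int.gcd δ (γ 1 0) : ℤ) ∧
      γ 1 1 = σ 1 0 * b + σ 1 1 * ((δ / Int.gcd δ (γ 1 0) : ℕ) : ℤ) := by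
  have hdet : γ 0 0 * γ 1 1 - γ 0 1 * γ 1 0 = 1 := by
    have := γ.det_coe
    rw [Matrix.det_fin_two] at this
    exact this
  set a := γ 0 0 with ha
  set b := γ 0 1 with hb
  set c := γ 1 0 with hc
  set d := γ 1 1 with hd
  set h : ℕ := Int.gcd (δ : ℤ) c with hh
  have hhpos : 0 < h := Int.gcd_pos_of_ne_zero_left _ (by exact_mod_cast hδ)
  have hhδ : h ∣ δ := by
    have : (h : ℤ) ∣ (δ : ℤ) := Int.gcd_dvd_left _ _
    exact_mod_cast this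
  obtain ⟨D, hD⟩ := hhδ
  have hDdiv : δ / h = D := by rw [hD]; exact Nat.mul_div_cancel_left D hhpos
  obtain ⟨c₁, hc₁⟩ : (h : ℤ) ∣ c := Int.gcd_dvd_right _ _
  have hDZ : (δ : ℤ) = (h : ℤ) * (D : ℤ) := by exact_mod_cast hD
  have hcop : IsCoprime (D : ℤ) c₁ := by
    rw [Int.isCoprime_iff_gcd_eq_one]
    have h1 : Int.gcd ((h : ℤ) * D) ((h : ℤ) * c₁) = h := by rw [← hDZ, ← hc₁]
    rw [Int.gcd_mul_left] at h1
    simp only [Int.natAbs_natCast] at h1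
    have : h * Int.gcd (D : ℤ) c₁ = h * 1 := by rw [h1, mul_one]
    exact Nat.eq_of_mul_eq_mul_left hhpos this
  have hcop2 : IsCoprime a c₁ := ⟨d, -b * h, by rw [hc₁] at hdet; linear_combination hdet⟩
  obtain ⟨x, y, hxy⟩ : IsCoprime ((D : ℤ) * a) c₁ := IsCoprime.mul_left hcop hcop2
  refine ⟨⟨!![(D : ℤ) * a, -y; c₁, x], ?_⟩, x * δ * b + y * d, ?_, ?_, ?_, ?_⟩
  · rw [Matrix.det_fin_two_of]; linear_combination hxy
  · simp only [Matrix.of_apply, Matrix.cons_val', Matrix.cons_val_zero,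
      Matrix.cons_val_fin_one]
    rw [hDZ]; ring
  · simp only [Matrix.of_apply, Matrix.cons_val', Matrix.cons_val_zero,
      Matrix.cons_val_fin_one, Matrix.cons_val_one]
    rw [hDdiv, hDZ]
    rw [hc₁] at hdet
    linear_combination (-(D * b * h)) * hxy + (-(D * y)) * hdet
  · simp only [Matrix.of_apply, Matrix.cons_val', Matrix.cons_val_zero,
      Matrix.cons_val_fin_one, Matrix.cons_val_one]
    rw [hc₁]; ring
  · simp only [Matrix.of_apply, Matrix.cons_val', Matrix.cons_val_zero,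
      Matrix.cons_val_fin_one, Matrix.cons_val_one]
    rw [hDdiv, hDZ]
    rw [hc₁] at hdet
    linear_combination (-d) * hxy + (x * D) * hdet

end Fermat.Agent.S28

namespace Fermat.Agent.S28

open UpperHalfPlane ModularForm Filter Complex
open scoped Real Topology MatrixGroups ModularForm

/-- `g = gcd(δ, c)` for `γ = (a b; c d)`. -/
def wp1G (δ : ℕ) (γ : SL(2, ℤ)) : ℕ := Int.gcd (δ : ℤ) (γ 1 0)

/-- `e = δ / gcd(δ, c)`. -/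
def wp1E (δ : ℕ) (γ : SL(2, ℤ)) : ℕ := δ / wp1G δ γ

lemma wp1G_pos {δ : ℕ} (hδ : δ ≠ 0) (γ : SL(2, ℤ)) : 0 < wp1G δ γ :=
  Int.gcd_pos_of_ne_zero_left _ (by exact_mod_cast hδ)

lemma wp1G_dvd (δ : ℕ) (γ : SL(2, ℤ)) : wp1G δ γ ∣ δ := by
  have : ((wp1G δ γ : ℕ) : ℤ) ∣ (δ : ℤ) := Int.gcd_dvd_left _ _
  exact_mod_cast this

lemma wp1G_mul_wp1E (δ : ℕ) (γ : SL(2, ℤ)) : wp1G δ γ * wp1E δ γ = δ :=
  Nat.mul_div_cancel' (wp1G_dvd δ γ)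

lemma wp1E_pos {δ : ℕ} (hδ : δ ≠ 0) (γ : SL(2, ℤ)) : 0 < wp1E δ γ := by
  rcases Nat.eq_zero_or_pos (wp1E δ γ) with h | h
  · have := wp1G_mul_wp1E δ γ
    rw [h, mul_zero] at this
    exact absurd this.symm hδ
  · exact h

lemma wp1_ne {δ : ℕ} (hδ : δ ≠ 0) (γ : SL(2, ℤ)) :
    ((wp1G δ γ : ℕ) : ℝ) * ((wp1E δ γ : ℕ) : ℝ) ≠ 0 := by
  have h1 := wp1G_pos hδ γ
  have h2 := wp1E_pos hδ γ
  positivity

/-- Hermite decomposition in `GL(2,ℝ)`. -/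
lemma wp1_hermite_GL (δ : ℕ) (hδ : δ ≠ 0) (γ : SL(2, ℤ)) :
    ∃ (σ : SL(2, ℤ)) (b : ℤ),
      heckeDiagMatrix δ * (γ : GL (Fin 2) ℝ) =
        (σ : GL (Fin 2) ℝ) * upperTriangularGL (wp1G δ γ) b (wp1E δ γ) (wp1_ne hδ γ) := by
  obtain ⟨σ, b, e00, e01, e10, e11⟩ := wp1_hermite_int δ hδ γ
  refine ⟨σ, b, ?_⟩
  have r00 : (δ : ℝ) * (γ 0 0 : ℝ) = (σ 0 0 : ℝ) * (wp1G δ γ : ℝ) := by exact_mod_cast e00
  have r01 : (δ : ℝ) * (γ 0 1 : ℝ) = (σ 0 0 : ℝ) * b + (σ 0 1 : ℝ) * (wp1E δ γ : ℝ) := by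
    exact_mod_cast e01
  have r10 : (γ 1 0 : ℝ) = (σ 1 0 : ℝ) * (wp1G δ γ : ℝ) := by exact_mod_cast e10
  have r11 : (γ 1 1 : ℝ) = (σ 1 0 : ℝ) * b + (σ 1 1 : ℝ) * (wp1E δ γ : ℝ) := by
    exact_mod_cast e11
  apply Matrix.GeneralLinearGroup.ext
  intro i j
  fin_cases i <;> fin_cases j <;>
    simp [Matrix.mul_apply, Fin.sum_univ_two, val_heckeDiagMatrix hδ, r00, r01, r10, r11]

end Fermat.Agent.S28
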