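/-
S28 (Igusa), WP3a: definitions for general "Δ-quotients" `f(τ) = ∏_{δ ∈ S} Δ(δ τ)^{m δ}`.
-/
import Fermat.Agent.S28.Hermite

set_option autoImplicit false

namespace Fermat.Agent.S28

open UpperHalfPlane ModularForm Filter Complex
open scoped Real Topology MatrixGroups ModularForm

/-- `τ ↦ Δ(δ τ)`. -/
noncomputable def dDelta (δ : ℕ) : ℍ → ℂ := fun τ => discriminant (heckeDiagMatrix δ • τ)

/-- The Δ-quotient `τ ↦ ∏_{δ ∈ S} Δ(δ τ)^{m δ}`. -/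
noncomputable def deltaQuot (S : Finset ℕ) (m : ℕ → ℤ) : ℍ → ℂ :=
  fun τ => ∏ δ ∈ S, dDelta δ τ ^ m δ

/-- The weight `12 · Σ_{δ ∈ S} m δ` of a Δ-quotient. -/
def deltaQuotWeight (S : Finset ℕ) (m : ℕ → ℤ) : ℤ := 12 * ∑ δ ∈ S, m δ

/-- The order `Σ_{δ ∈ S} m δ · gcd(δ,c)² / δ` of a Δ-quotient at the cusp `γ∞`, `c = γ 1 0`. -/
noncomputable def deltaQuotOrd (S : Finset ℕ) (m : ℕ → ℤ) (γ : SL(2, ℤ)) : ℝ :=
  ∑ δ ∈ S, (m δ : ℝ) * ((wp1G δ γ : ℝ) ^ 2 / (δ : ℝ))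

lemma dDelta_ne_zero (δ : ℕ) (τ : ℍ) : dDelta δ τ ≠ 0 := discriminant_ne_zero _

lemma deltaQuot_ne_zero (S : Finset ℕ) (m : ℕ → ℤ) (τ : ℍ) : deltaQuot S m τ ≠ 0 :=
  Finset.prod_ne_zero_iff.mpr fun δ _ => zpow_ne_zero _ (dDelta_ne_zero δ τ)

end Fermat.Agent.S28

namespace Fermat.Agent.S28

open UpperHalfPlane ModularForm Filter Complex
open scoped Real Topology MatrixGroups ModularForm

variable {ι : Type*}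

/-- General-index Δ-quotient `τ ↦ ∏_{i ∈ S} Δ(δ_i τ)^{m_i}`. -/
noncomputable def dqFun (S : Finset ι) (δ : ι → ℕ) (m : ι → ℤ) : ℍ → ℂ :=
  fun τ => ∏ i ∈ S, dDelta (δ i) τ ^ m i

/-- The weight `12 · Σ_{i ∈ S} m_i`. -/
def dqWeight (S : Finset ι) (m : ι → ℤ) : ℤ := 12 * ∑ i ∈ S, m i

/-- The order `Σ_{i ∈ S} m_i · gcd(δ_i,c)² / δ_i` at the cusp `γ∞`, `c = γ 1 0`. -/
noncomputable def dqOrd (S : Finset ι) (δ : ι → ℕ) (m : ι → ℤ) (γ : SL(2, ℤ)) : ℝ :=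
  ∑ i ∈ S, (m i : ℝ) * ((wp1G (δ i) γ : ℝ) ^ 2 / (δ i : ℝ))

lemma dqFun_ne_zero (S : Finset ι) (δ : ι → ℕ) (m : ι → ℤ) (τ : ℍ) : dqFun S δ m τ ≠ 0 :=
  Finset.prod_ne_zero_iff.mpr fun i _ => zpow_ne_zero _ (dDelta_ne_zero (δ i) τ)

lemma deltaQuot_eq_dqFun (S : Finset ℕ) (m : ℕ → ℤ) : deltaQuot S m = dqFun S id m := rfl

lemma deltaQuotWeight_eq_dqWeight (S : Finset ℕ) (m : ℕ → ℤ) :
    deltaQuotWeight S m = dqWeight S m := rfl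

lemma deltaQuotOrd_eq_dqOrd (S : Finset ℕ) (m : ℕ → ℤ) (γ : SL(2, ℤ)) :
    deltaQuotOrd S m γ = dqOrd S id m γ := rfl

end Fermat.Agent.S28
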