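/-
S28 (Igusa), work package WP4, part 2: division-free polynomial forms.
A level one form of weight `12 m` is `Σ_{k ≤ m} p_k E₄^{3k} Δ^{m-k}` (as a function and on
q-expansions); this applies to the elementary symmetric functions and to the power sums (traces)
of the `SL(2,ℤ)`-translates of forms on `Γ₀(N)`.
Owner: helper78.
-/
import Fermat.Agent.S28.LevelOnePoly

set_option autoImplicit false

namespace Fermat.Agent.S28

open UpperHalfPlane ModularForm MatrixGroups EisensteinSeries Polynomial SlashInvariantForm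
open Fermat.Agent.S23

/-- The function `Σ_{k ≤ m} P_k E₄^{3k} Δ^{m-k}`. -/
noncomputable def wp4SumFun (m : ℕ) (P : Polynomial ℂ) : ℍ → ℂ :=
  ∑ k ∈ Finset.range (m + 1),
    P.coeff k • ((E₄ : ℍ → ℂ) ^ (3 * k) * (discriminant : ℍ → ℂ) ^ (m - k))

lemma wp4SumFun_apply (m : ℕ) (P : Polynomial ℂ) (τ : ℍ) :
    wp4SumFun m P τ =
      ∑ k ∈ Finset.range (m + 1), P.coeff k * (E₄ τ ^ (3 * k) * discriminant τ ^ (m - k)) := by
  simp [wp4SumFun, Finset.sum_apply]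

/-- `Δ ^ m · P(J) = Σ_{k ≤ m} P_k E₄^{3k} Δ^{m-k}` when `deg P ≤ m`. -/
lemma wp4_delta_pow_mul_eval (m : ℕ) (P : Polynomial ℂ) (hP : P.natDegree ≤ m) (τ : ℍ) :
    discriminant τ ^ m * P.eval (wp4J τ) = wp4SumFun m P τ := by
  rw [wp4SumFun_apply, eval_eq_sum_range' (Nat.lt_succ_of_le hP), Finset.mul_sum]
  refine Finset.sum_congr rfl fun k hk => ?_
  have hk' : k ≤ m := Nat.lt_succ_iff.mp (Finset.mem_range.mp hk)
  have hΔ := discriminant_ne_zero τ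
  rw [wp4J, div_pow, ← pow_mul]
  have : discriminant τ ^ m = discriminant τ ^ (m - k) * discriminant τ ^ k := by
    rw [← pow_add, Nat.sub_add_cancel hk']
  rw [this]
  field_simp

/-- **WP4 (a), division-free**: a level one form of weight `12 m` equals
`Σ_{k ≤ m} P_k E₄^{3k} Δ^{m-k}` for a polynomial `P` of degree `≤ m`. -/
theorem wp4_isMF_eq_sumFun {k : ℤ} (m : ℕ) (hk : k = 12 * (m : ℤ)) {g : ℍ → ℂ}
    (hg : IsMF 𝒮ℒ k g) :
    ∃ P : Polynomial ℂ, P.natDegree ≤ m ∧ g = wp4SumFun m P ∧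
      ∀ τ : ℍ, g τ = discriminant τ ^ m * P.eval (wp4J τ) := by
  obtain ⟨P, hP, hPe⟩ := wp4_isDeltaPoly_of_isMF m hk hg
  refine ⟨P, hP, ?_, hPe⟩
  funext τ
  rw [hPe, wp4_delta_pow_mul_eval m P hP]

lemma wp4_qa_E4 : QA (E₄ : ℍ → ℂ) := (IsMF.of E₄).qa Fermat.Agent.S23.one_mem_strictPeriods_SL

lemma wp4_qa_discriminant : QA (discriminant : ℍ → ℂ) :=
  (IsCF.of CuspForm.discriminant).isMF.qa Fermat.Agent.S23.one_mem_strictPeriods_SL

lemma wp4_qa_sumFun (m : ℕ) (P : Polynomial ℂ) : QA (wp4SumFun m P) :=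
  QA.sum _ _ fun _ _ => ((wp4_qa_E4.pow _).mul (wp4_qa_discriminant.pow _)).smul _

/-- The q-expansion of `Σ_{k ≤ m} P_k E₄^{3k} Δ^{m-k}`. -/
theorem wp4_qExpansion_sumFun (m : ℕ) (P : Polynomial ℂ) :
    qExpansion 1 (wp4SumFun m P) =
      ∑ k ∈ Finset.range (m + 1),
        P.coeff k • (qExpansion 1 (E₄ : ℍ → ℂ) ^ (3 * k) *
          qExpansion 1 (discriminant : ℍ → ℂ) ^ (m - k)) := by
  unfold wp4SumFun
  rw [QA.qExpansion_sum _ _ fun _ _ =>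
    ((wp4_qa_E4.pow _).mul (wp4_qa_discriminant.pow _)).smul _]
  refine Finset.sum_congr rfl fun k _ => ?_
  rw [QA.qExpansion_smul _ ((wp4_qa_E4.pow _).mul (wp4_qa_discriminant.pow _)),
    QA.qExpansion_mul (wp4_qa_E4.pow _) (wp4_qa_discriminant.pow _),
    QA.qExpansion_pow wp4_qa_E4, QA.qExpansion_pow wp4_qa_discriminant]

/-- **WP4 (a), q-expansion form**. -/
theorem wp4_isMF_qExpansion_eq {k : ℤ} (m : ℕ) (hk : k = 12 * (m : ℤ)) {g : ℍ → ℂ}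
    (hg : IsMF 𝒮ℒ k g) :
    ∃ P : Polynomial ℂ, P.natDegree ≤ m ∧ g = wp4SumFun m P ∧
      qExpansion 1 g = ∑ k ∈ Finset.range (m + 1),
        P.coeff k • (qExpansion 1 (E₄ : ℍ → ℂ) ^ (3 * k) *
          qExpansion 1 (discriminant : ℍ → ℂ) ^ (m - k)) := by
  obtain ⟨P, hP, hPe, -⟩ := wp4_isMF_eq_sumFun m hk hg
  exact ⟨P, hP, hPe, by rw [hPe, wp4_qExpansion_sumFun]⟩

/-- **WP4 (b), division-free**: elementary symmetric functions of the translates. -/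
theorem wp4_esymmFun_eq_sumFun (N : ℕ) [NeZero N] {k : ℤ} (M : ℕ) (hk : k = 12 * (M : ℤ))
    (F : ModularForm (G0 N) k) (i : ℕ) :
    ∃ P : Polynomial ℂ, P.natDegree ≤ M * i ∧ esymmFun N F i = wp4SumFun (M * i) P :=
  let ⟨P, hP, hPe, _⟩ := wp4_isMF_eq_sumFun (M * i) (by rw [hk]; push_cast; ring)
    (isMF_esymmFun N F i)
  ⟨P, hP, hPe⟩

/-! ### Power sums (traces) -/

theorem wp4_slash_mul_pow (γ : SL(2, ℤ)) (f t : ℍ → ℂ) (k₁ k₂ : ℤ) (r : ℕ) :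
    (f * t ^ r) ∣[k₁ + k₂ * r] γ = (f ∣[k₁] γ) * (t ∣[k₂] γ) ^ r := by
  induction r with
  | zero => simp
  | succ r ih =>
    have h1 : f * t ^ (r + 1) = (f * t ^ r) * t := by rw [pow_succ, mul_assoc]
    have h2 : k₁ + k₂ * ((r + 1 : ℕ) : ℤ) = (k₁ + k₂ * r) + k₂ := by push_cast; ring
    rw [h1, h2, ModularForm.mul_slash_SL2, ih, pow_succ, mul_assoc]

theorem wp4_quotientFunc_mul_pow {N : ℕ} [NeZero N] {k₁ k₂ : ℤ}
    {F G H : Type*} [FunLike F ℍ ℂ] [FunLike G ℍ ℂ] [FunLike H ℍ ℂ]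
    (r : ℕ) [SlashInvariantFormClass F (G0 N) k₁] [SlashInvariantFormClass G (G0 N) k₂]
    [SlashInvariantFormClass H (G0 N) (k₁ + k₂ * r)]
    (f : F) (t : G) (h : H) (hh : (h : ℍ → ℂ) = f * (t : ℍ → ℂ) ^ r) (q : Q N) :
    quotientFunc h q = quotientFunc f q * quotientFunc t q ^ r := by
  induction q using Quotient.inductionOn with
  | h g =>
    change (h : ℍ → ℂ) ∣[k₁ + k₂ * r] (g : GL (Fin 2) ℝ)⁻¹ =
      (f : ℍ → ℂ) ∣[k₁] (g : GL (Fin 2) ℝ)⁻¹ * ((t : ℍ → ℂ) ∣[k₂] (g : GL (Fin 2) ℝ)⁻¹) ^ r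
    obtain ⟨γ, hγ⟩ := g.2
    have : ((g : GL (Fin 2) ℝ))⁻¹ = Matrix.SpecialLinearGroup.mapGL ℝ γ⁻¹ := by
      rw [map_inv, hγ]
    rw [hh, this]
    have := wp4_slash_mul_pow γ⁻¹ (f : ℍ → ℂ) (t : ℍ → ℂ) k₁ k₂ r
    simp only [ModularForm.SL_slash] at this
    exact this

/-- The power sums `Σ_q f_q t_q^r` of the translates are level one modular forms. -/
theorem wp4_isMF_powerSum {N : ℕ} [NeZero N] {k₁ k₂ : ℤ} (f : ModularForm (G0 N) k₁)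
    (t : ModularForm (G0 N) k₂) (r : ℕ) :
    IsMF 𝒮ℒ (k₁ + k₂ * r) (∑ q : Q N, quotientFunc f q * quotientFunc t q ^ r) := by
  obtain ⟨G, hG⟩ : IsMF (G0 N) (k₁ + k₂ * r) ((f : ℍ → ℂ) * (t : ℍ → ℂ) ^ r) :=
    (IsMF.of f).mul ((IsMF.of t).pow r)
  refine ⟨ModularForm.trace 𝒮ℒ G, ?_⟩
  rw [ModularForm.coe_trace]
  refine Finset.sum_congr rfl fun q _ => ?_
  exact wp4_quotientFunc_mul_pow r f t G hG q

/-- **WP4, traces, division-free**: for `f` of weight `12 d` and `t` of weight `12 M` on `Γ₀(N)`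
the power sum `Σ_q f_q t_q^r` is `Σ_{k ≤ d + M r} P_k E₄^{3k} Δ^{d + M r - k}`. -/
theorem wp4_powerSum_eq_sumFun (N : ℕ) [NeZero N] {k₁ k₂ : ℤ} (d M : ℕ)
    (hk₁ : k₁ = 12 * (d : ℤ)) (hk₂ : k₂ = 12 * (M : ℤ))
    (f : ModularForm (G0 N) k₁) (t : ModularForm (G0 N) k₂) (r : ℕ) :
    ∃ P : Polynomial ℂ, P.natDegree ≤ d + M * r ∧
      (∑ q : Q N, quotientFunc f q * quotientFunc t q ^ r) = wp4SumFun (d + M * r) P :=
  let ⟨P, hP, hPe, _⟩ := wp4_isMF_eq_sumFun (d + M * r) (by rw [hk₁, hk₂]; push_cast; ring)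
    (wp4_isMF_powerSum f t r)
  ⟨P, hP, hPe⟩

/-- **WP4, trace of a single form, division-free**. -/
theorem wp4_trace_eq_sumFun (N : ℕ) [NeZero N] {k : ℤ} (m : ℕ) (hk : k = 12 * (m : ℤ))
    (G : ModularForm (G0 N) k) :
    ∃ P : Polynomial ℂ, P.natDegree ≤ m ∧ (ModularForm.trace 𝒮ℒ G : ℍ → ℂ) = wp4SumFun m P :=
  let ⟨P, hP, hPe, _⟩ := wp4_isMF_eq_sumFun m hk (IsMF.of (ModularForm.trace 𝒮ℒ G))
  ⟨P, hP, hPe⟩

end Fermat.Agent.S28
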