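/-
S28 (Igusa), work package WP11: function-level certificates.
For `F` of weight `12 M` and `G` of weight `12 d` on `Γ₀(N)`:
* the characteristic polynomial `χ ∈ ℂ[Y][X]` of `F / Δ ^ M` over `ℂ[J]`
  (monic of degree `n = [SL(2,ℤ) : Γ₀(N)]`, `deg_Y χ_i + M i ≤ M n`),
* the Lagrange–Euler certificate `(G / Δ ^ d) · χ'(J, F / Δ ^ M) = A(J, F / Δ ^ M)`.
Owner: helper78.
-/
import Fermat.Agent.S28.LevelOneSum

set_option autoImplicit false

namespace Fermat.Agent.S28

open UpperHalfPlane ModularForm MatrixGroups EisensteinSeries Polynomial SlashInvariantForm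
open Fermat.Agent.S23

/-- The bivariate polynomial `Σ_{i ≤ n} c_i(Y) X^i`. -/
noncomputable def wp11Poly (n : ℕ) (c : ℕ → Polynomial ℂ) : Polynomial (Polynomial ℂ) :=
  ∑ i ∈ Finset.range (n + 1), C (c i) * X ^ i

lemma wp11Poly_coeff (n : ℕ) (c : ℕ → Polynomial ℂ) (i : ℕ) :
    (wp11Poly n c).coeff i = if i ≤ n then c i else 0 := by
  unfold wp11Poly
  rw [finsetSum_coeff]
  simp only [coeff_C_mul_X_pow]
  rw [Finset.sum_ite_eq (Finset.range (n + 1)) i c]
  simp

lemma wp11Poly_natDegree_le (n : ℕ) (c : ℕ → Polynomial ℂ) : (wp11Poly n c).natDegree ≤ n := by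
  rw [natDegree_le_iff_coeff_eq_zero]
  intro i hi
  rw [wp11Poly_coeff, if_neg (by omega)]

lemma wp11Poly_monic (n : ℕ) (c : ℕ → Polynomial ℂ) (hc : c n = 1) : (wp11Poly n c).Monic := by
  have h1 : (wp11Poly n c).coeff n = 1 := by rw [wp11Poly_coeff, if_pos le_rfl, hc]
  exact monic_of_natDegree_le_of_coeff_eq_one n (wp11Poly_natDegree_le n c) h1

lemma wp11Poly_natDegree (n : ℕ) (c : ℕ → Polynomial ℂ) (hc : c n = 1) :
    (wp11Poly n c).natDegree = n := by
  refine le_antisymm (wp11Poly_natDegree_le n c) ?_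
  refine le_natDegree_of_ne_zero ?_
  rw [wp11Poly_coeff, if_pos le_rfl, hc]
  exact one_ne_zero

lemma wp11Poly_map_eval (n : ℕ) (c : ℕ → Polynomial ℂ) (y x : ℂ) :
    ((wp11Poly n c).map (evalRingHom y)).eval x =
      ∑ i ∈ Finset.range (n + 1), (c i).eval y * x ^ i := by
  unfold wp11Poly
  simp [Polynomial.map_sum, eval_finsetSum]

/-- Specialising `Y ↦ J τ` in `χ` gives the polynomial `∏_q (X - F_q(τ) / Δ(τ) ^ M)`. -/
lemma wp11Poly_map_eq_rootPoly {ι : Type*} [Fintype ι] [DecidableEq ι] (t : ι → ℂ)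
    (c : ℕ → Polynomial ℂ) (y : ℂ)
    (hc : ∀ j, j ≤ Fintype.card ι → (rootPoly t).coeff j = (c j).eval y) :
    (wp11Poly (Fintype.card ι) c).map (evalRingHom y) = rootPoly t := by
  ext i
  rw [coeff_map, wp11Poly_coeff]
  by_cases hi : i ≤ Fintype.card ι
  · rw [if_pos hi, coe_evalRingHom, ← hc i hi]
  · rw [if_neg hi, map_zero, coeff_eq_zero_of_natDegree_lt]
    rw [rootPoly_natDegree]
    omega

lemma wp11_rootPoly_coeff_zero {ι : Type*} [Fintype ι] [DecidableEq ι] (t : ι → ℂ) :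
    (rootPoly t).coeff 0 = (-1) ^ Fintype.card ι * ∏ q, t q := by
  rw [coeff_zero_eq_eval_zero]
  unfold rootPoly
  rw [eval_prod]
  simp only [eval_sub, eval_X, eval_C, zero_sub]
  rw [Finset.prod_neg, Finset.card_univ]

/-- Lagrange–Euler certificate for `G / Δ ^ d`, for a given coefficient family `c` of the
characteristic polynomial of `F / Δ ^ M`. -/
theorem wp11_exists_certificate_of_coeffs (N : ℕ) [NeZero N] (M d : ℕ)
    (F : ModularForm (G0 N) (12 * (M : ℤ))) (G : ModularForm (G0 N) (12 * (d : ℤ)))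
    (c : ℕ → Polynomial ℂ)
    (hc : ∀ τ : ℍ, ∀ j, j ≤ Fintype.card (Q N) →
        (rootPoly (fun q : Q N =>
          SlashInvariantForm.quotientFunc F q τ / discriminant τ ^ M)).coeff j =
          (c j).eval (wp4J τ)) :
    ∃ A : Polynomial (Polynomial ℂ),
      ∀ τ : ℍ, (G τ / discriminant τ ^ d) *
            ((Polynomial.derivative (wp11Poly (Fintype.card (Q N)) c)).map
              (Polynomial.evalRingHom (wp4J τ))).eval (F τ / discriminant τ ^ M)
          = (A.map (Polynomial.evalRingHom (wp4J τ))).eval (F τ / discriminant τ ^ M) := by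
  classical
  set n := Fintype.card (Q N) with hn
  -- the power sums
  choose P _ hPeval using fun r : ℕ =>
    wp4_isDeltaPoly_of_isMF (d + M * r) (by push_cast; ring) (wp4_isMF_powerSum G F r)
  set i₀ : Q N := QuotientGroup.mk 1 with hi₀
  have ht0 : ∀ τ : ℍ, quotientFunc F i₀ τ = F τ := fun τ =>
    congrFun (quotientFunc_one (N := N) F) τ
  have hu0 : ∀ τ : ℍ, quotientFunc G i₀ τ = G τ := fun τ =>
    congrFun (quotientFunc_one (N := N) G) τ
  have hmap : ∀ τ : ℍ, (wp11Poly n c).map (evalRingHom (wp4J τ)) =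
      rootPoly (fun q : Q N => quotientFunc F q τ / discriminant τ ^ M) := fun τ =>
    wp11Poly_map_eq_rootPoly _ c (wp4J τ) (hc τ)
  refine ⟨wp11Poly (n - 1) (fun m => ∑ i ∈ Finset.Ioc m n, c i * P (i - 1 - m)), fun τ => ?_⟩
  rw [← derivative_map, hmap τ, wp11Poly_map_eval]
  have hL := lagrange_euler (fun q : Q N => quotientFunc F q τ / discriminant τ ^ M)
    (fun q : Q N => quotientFunc G q τ / discriminant τ ^ d) i₀
  simp only [ht0, hu0] at hL
  rw [← hL]
  have hnpos : 0 < n := card_Q_pos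
  rw [Nat.sub_add_cancel hnpos]
  refine Finset.sum_congr rfl fun m hm => ?_
  congr 1
  rw [eval_finsetSum]
  refine Finset.sum_congr rfl fun i hi => ?_
  rw [eval_mul, hc τ i (Finset.mem_Ioc.mp hi).2]
  congr 1
  -- the power sum
  have h1 := hPeval (i - 1 - m) τ
  have hΔ : discriminant τ ^ (d + M * (i - 1 - m)) ≠ 0 :=
    pow_ne_zero _ (discriminant_ne_zero τ)
  rw [← mul_right_inj' hΔ, ← h1, Finset.sum_apply, Finset.mul_sum]
  refine Finset.sum_congr rfl fun q _ => ?_
  rw [Pi.mul_apply, Pi.pow_apply, div_pow, ← pow_mul, pow_add]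
  have hΔ1 : discriminant τ ^ d ≠ 0 := pow_ne_zero _ (discriminant_ne_zero τ)
  have hΔ2 : discriminant τ ^ (M * (i - 1 - m)) ≠ 0 := pow_ne_zero _ (discriminant_ne_zero τ)
  field_simp

/-- **WP11, uniform version**: ONE characteristic polynomial `χ` of `F / Δ ^ M` over `ℂ[J]`
which has a Lagrange–Euler certificate for EVERY `G / Δ ^ d`. -/
theorem wp11_exists_charPoly_certificate_all (N : ℕ) [NeZero N] (M : ℕ)
    (F : ModularForm (G0 N) (12 * (M : ℤ))) :
    ∃ χ : Polynomial (Polynomial ℂ),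
      χ.Monic ∧ χ.natDegree = Fintype.card (Q N) ∧
      (∀ i, i < Fintype.card (Q N) →
        (χ.coeff i).natDegree + M * i ≤ M * Fintype.card (Q N)) ∧
      (∀ τ : ℍ, (χ.coeff 0).eval (wp4J τ) =
          (-1) ^ Fintype.card (Q N) *
            ∏ q : Q N, (SlashInvariantForm.quotientFunc F q τ / discriminant τ ^ M)) ∧
      (∀ τ : ℍ, (χ.map (Polynomial.evalRingHom (wp4J τ))).eval
          (F τ / discriminant τ ^ M) = 0) ∧
      ∀ (d : ℕ) (G : ModularForm (G0 N) (12 * (d : ℤ))), ∃ A : Polynomial (Polynomial ℂ),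
        ∀ τ : ℍ, (G τ / discriminant τ ^ d) *
            ((Polynomial.derivative χ).map (Polynomial.evalRingHom (wp4J τ))).eval
              (F τ / discriminant τ ^ M)
          = (A.map (Polynomial.evalRingHom (wp4J τ))).eval (F τ / discriminant τ ^ M) := by
  classical
  set n := Fintype.card (Q N) with hn
  obtain ⟨c, hdeg, hone, hc⟩ := wp4_exists_charPoly N M F
  set i₀ : Q N := QuotientGroup.mk 1 with hi₀
  have ht0 : ∀ τ : ℍ, quotientFunc F i₀ τ = F τ := fun τ =>
    congrFun (quotientFunc_one (N := N) F) τ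
  have hmap : ∀ τ : ℍ, (wp11Poly n c).map (evalRingHom (wp4J τ)) =
      rootPoly (fun q : Q N => quotientFunc F q τ / discriminant τ ^ M) := fun τ =>
    wp11Poly_map_eq_rootPoly _ c (wp4J τ) (hc τ)
  refine ⟨wp11Poly n c, wp11Poly_monic n c hone, wp11Poly_natDegree n c hone, ?_, ?_, ?_,
    fun d G => wp11_exists_certificate_of_coeffs N M d F G c hc⟩
  · intro i hi
    rw [wp11Poly_coeff, if_pos hi.le]
    have h1 : (c i).natDegree ≤ M * (n - i) := hdeg i hi.le
    have h2 : M * (n - i) + M * i = M * n := by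
      rw [← Nat.mul_add, Nat.sub_add_cancel hi.le]
    calc (c i).natDegree + M * i ≤ M * (n - i) + M * i := Nat.add_le_add_right h1 _
      _ = M * n := h2
  · intro τ
    rw [wp11Poly_coeff, if_pos (Nat.zero_le _), ← hc τ 0 (Nat.zero_le _),
      wp11_rootPoly_coeff_zero]
  · intro τ
    rw [hmap τ]
    have := rootPoly_eval_root (fun q : Q N => quotientFunc F q τ / discriminant τ ^ M) i₀
    simpa only [ht0] using this

/-- **WP11**: characteristic polynomial of `F / Δ ^ M` over `ℂ[J]` together with the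
Lagrange–Euler certificate for `G / Δ ^ d`. -/
theorem wp11_exists_charPoly_certificate (N : ℕ) [NeZero N] (M d : ℕ)
    (F : ModularForm (G0 N) (12 * (M : ℤ))) (G : ModularForm (G0 N) (12 * (d : ℤ))) :
    ∃ (χ A : Polynomial (Polynomial ℂ)),
      χ.Monic ∧ χ.natDegree = Fintype.card (Q N) ∧
      (∀ i, i < Fintype.card (Q N) →
        (χ.coeff i).natDegree + M * i ≤ M * Fintype.card (Q N)) ∧
      (∀ τ : ℍ, (χ.coeff 0).eval (wp4J τ) =
          (-1) ^ Fintype.card (Q N) *
            ∏ q : Q N, (SlashInvariantForm.quotientFunc F q τ / discriminant τ ^ M)) ∧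
      (∀ τ : ℍ, (χ.map (Polynomial.evalRingHom (wp4J τ))).eval
          (F τ / discriminant τ ^ M) = 0) ∧
      (∀ τ : ℍ, (G τ / discriminant τ ^ d) *
            ((Polynomial.derivative χ).map (Polynomial.evalRingHom (wp4J τ))).eval
              (F τ / discriminant τ ^ M)
          = (A.map (Polynomial.evalRingHom (wp4J τ))).eval (F τ / discriminant τ ^ M)) := by
  obtain ⟨χ, h1, h2, h3, h4, h5, h6⟩ := wp11_exists_charPoly_certificate_all N M F
  obtain ⟨A, hA⟩ := h6 d G
  exact ⟨χ, A, h1, h2, h3, h4, h5, hA⟩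

end Fermat.Agent.S28
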