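/-
S28 (Igusa), work package WP5, part 1 (helper94): Taylor series at `q = 0` and the two BRIDGES
between Mathlib's analytic `q`-expansions and the Prelude's formal power series:

* `qExpansion_discriminant : qExpansion 1 Δ = X * (dedekindEtaUnit).map (Int.castRingHom ℂ)`
  (`dedekindEtaUnit = etaProd ^ 24`, `etaProd = ∏' (1 - X^(n+1))` in the Pi topology);
* `qExpansion_E4 : qExpansion 1 E₄ = eisenstein4.map (Int.castRingHom ℂ)`.

Also: `taylor0` (the Taylor power series at `0`), its multiplicativity, its value on polynomials,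
`taylor0_comp_pow` (substitution `q ↦ q^d`), and continuity of Taylor coefficients under locally
uniform limits (`tendsto_coeff_taylor0`).  Only Mathlib and the Prelude are imported.
-/
import Mathlib
import Fermat.Prelude.Def_ModularCurve_X0

set_option autoImplicit false

namespace Fermat.Agent.S28.QExp

open UpperHalfPlane ModularForm Filter Complex Function
open scoped Real Topology
open scoped PowerSeries.WithPiTopology

/-- Taylor power series at `0` of a function `ℂ → ℂ`. -/
noncomputable def taylor0 (c : ℂ → ℂ) : PowerSeries ℂ :=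
  .mk fun m => ((m.factorial : ℂ))⁻¹ * iteratedDeriv m c 0

lemma coeff_taylor0 (c : ℂ → ℂ) (m : ℕ) :
    (taylor0 c).coeff m = ((m.factorial : ℂ))⁻¹ * iteratedDeriv m c 0 := by
  simp [taylor0]

lemma hasFPowerSeriesAt_taylor0 {c : ℂ → ℂ} (hc : AnalyticAt ℂ c 0) :
    HasFPowerSeriesAt c (FormalMultilinearSeries.ofScalars ℂ fun n => (taylor0 c).coeff n) 0 := by
  have := hc.hasFPowerSeriesAt
  simpa [coeff_taylor0, div_eq_inv_mul] using this

lemma taylor0_eq_of_hasFPowerSeriesAt {c : ℂ → ℂ} {a : ℕ → ℂ}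
    (h : HasFPowerSeriesAt c (FormalMultilinearSeries.ofScalars ℂ a) 0) :
    taylor0 c = PowerSeries.mk a := by
  have h2 := hasFPowerSeriesAt_taylor0 h.analyticAt
  have h3 := h.eq_formalMultilinearSeries h2
  ext n
  have := congr_arg (FormalMultilinearSeries.coeff · n) h3
  simp only [FormalMultilinearSeries.coeff_ofScalars] at this
  rw [PowerSeries.coeff_mk, this]

/-- A power series expansion near `0` from pointwise sums. -/
lemma hasFPowerSeriesAt_of_hasSum {c : ℂ → ℂ} {a : ℕ → ℂ} {r : ℝ} (hr : 0 < r)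
    (h : ∀ q : ℂ, ‖q‖ < r → HasSum (fun n => a n * q ^ n) (c q)) :
    HasFPowerSeriesAt c (FormalMultilinearSeries.ofScalars ℂ a) 0 := by
  refine ⟨ENNReal.ofReal r, ?_, ?_, ?_⟩
  · refine le_of_forall_lt_imp_le_of_dense fun s hs => ?_
    lift s to NNReal using hs.ne_top
    apply FormalMultilinearSeries.le_radius_of_summable
    have hs' : (s : ℝ) < r := by
      have := (ENNReal.coe_lt_coe (r := s) (q := r.toNNReal)).mp (by simpa [ENNReal.ofReal] using hs)
      simpa using (NNReal.coe_lt_coe.mpr this).trans_le (by simp [hr.le])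
    have := (h (s : ℂ) (by simpa using hs')).summable.norm
    simpa [FormalMultilinearSeries.ofScalars_norm, norm_mul, norm_pow] using this
  · simpa using hr
  · intro y hy
    have hy' : ‖y‖ < r := by
      rw [Metric.mem_eball, edist_zero_right, ← ofReal_norm] at hy
      exact (ENNReal.ofReal_lt_ofReal_iff hr).mp hy
    simpa [FormalMultilinearSeries.ofScalars_apply_eq, mul_comm] using h y hy'

/-- Taylor series of a polynomial function. -/
lemma taylor0_polynomial (P : Polynomial ℂ) :
    taylor0 (fun q => P.eval q) = (P : PowerSeries ℂ) := by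
  have h : HasFPowerSeriesAt (fun q => P.eval q)
      (FormalMultilinearSeries.ofScalars ℂ fun n => P.coeff n) 0 := by
    refine hasFPowerSeriesAt_of_hasSum one_pos fun q _ => ?_
    rw [Polynomial.eval_eq_sum_range]
    refine hasSum_sum_of_ne_finset_zero fun n hn => ?_
    rw [Polynomial.coeff_eq_zero_of_natDegree_lt, zero_mul]
    simpa [Nat.lt_succ_iff] using hn
  rw [taylor0_eq_of_hasFPowerSeriesAt h]
  ext n
  simp

/-- Taylor coefficients pass to locally uniform limits of holomorphic functions. -/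
lemma tendsto_coeff_taylor0 {ι : Type*} {φ : Filter ι} {F : ι → ℂ → ℂ} {f : ℂ → ℂ}
    {U : Set ℂ} (hU : IsOpen U) (h0 : (0 : ℂ) ∈ U) (hf : TendstoLocallyUniformlyOn F f φ U)
    (hF : ∀ᶠ n in φ, DifferentiableOn ℂ (F n) U) (m : ℕ) :
    Tendsto (fun n => (taylor0 (F n)).coeff m) φ (𝓝 ((taylor0 f).coeff m)) := by
  have key : ∀ m : ℕ, TendstoLocallyUniformlyOn (fun n => iteratedDeriv m (F n))
      (iteratedDeriv m f) φ U ∧ ∀ᶠ n in φ, DifferentiableOn ℂ (iteratedDeriv m (F n)) U := by
    intro m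
    induction m with
    | zero => simpa using ⟨hf, hF⟩
    | succ m ih =>
      refine ⟨?_, ih.2.mono fun n hn => ?_⟩
      · have := ih.1.deriv ih.2 hU
        simpa [Function.comp_def, iteratedDeriv_succ] using this
      · rw [iteratedDeriv_succ]
        exact hn.deriv hU
  simp only [coeff_taylor0]
  exact ((key m).1.tendsto_at h0).const_mul _

open ModularCurve in
/-- The Taylor series of the Euler product is the Prelude's formal `etaProd`. -/
theorem taylor0_eulerProd :
    taylor0 (fun q : ℂ => ∏' n : ℕ, (1 - q ^ (n + 1))) =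
      PowerSeries.map (Int.castRingHom ℂ) etaProd := by
  ext m
  -- analytic side
  have hloc := multipliableLocallyUniformlyOn_one_sub_pow.hasProdLocallyUniformlyOn
  rw [hasProdLocallyUniformlyOn_iff_tendstoLocallyUniformlyOn] at hloc
  have h1 := tendsto_coeff_taylor0 Metric.isOpen_ball (Metric.mem_ball_self one_pos) hloc
    (.of_forall fun s => by
      have : (fun q : ℂ => ∏ i ∈ s, (1 - q ^ (i + 1))) =
          fun q => (∏ i ∈ s, (1 - Polynomial.X ^ (i + 1) : Polynomial ℂ)).eval q := by
        funext q; simp [Polynomial.eval_prod]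
      simp only [this]
      exact (Polynomial.differentiable _).differentiableOn) m
  -- formal side
  have h2 := (PowerSeries.WithPiTopology.multipliable_one_sub_X_pow ℤ).hasProd
  have h3 : Tendsto (fun s : Finset ℕ => (((∏ i ∈ s, (1 - PowerSeries.X ^ (i + 1) :
      PowerSeries ℤ)).coeff m : ℤ) : ℂ)) atTop (𝓝 ((etaProd.coeff m : ℤ) : ℂ)) := by
    have hc : Continuous (fun p : PowerSeries ℤ => ((p.coeff m : ℤ) : ℂ)) :=
      continuous_of_discreteTopology.comp (PowerSeries.WithPiTopology.continuous_coeff ℤ m)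
    exact (hc.tendsto _).comp h2
  rw [PowerSeries.coeff_map]
  refine tendsto_nhds_unique h1 (h3.congr fun s => ?_)
  have : (fun q : ℂ => ∏ i ∈ s, (1 - q ^ (i + 1))) =
      fun q => (∏ i ∈ s, (1 - Polynomial.X ^ (i + 1) : Polynomial ℂ)).eval q := by
    funext q; simp [Polynomial.eval_prod]
  rw [this, taylor0_polynomial]
  have h4 : ((∏ i ∈ s, (1 - Polynomial.X ^ (i + 1) : Polynomial ℂ) : Polynomial ℂ) :
      PowerSeries ℂ) = PowerSeries.map (Int.castRingHom ℂ)
        (∏ i ∈ s, (1 - PowerSeries.X ^ (i + 1) : PowerSeries ℤ)) := by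
    rw [← Polynomial.coeToPowerSeries.ringHom_apply, map_prod, map_prod]
    refine Finset.prod_congr rfl fun i _ => ?_
    simp
  rw [h4, PowerSeries.coeff_map]
  rfl


lemma exists_hasSum_of_analyticAt {c : ℂ → ℂ} (hc : AnalyticAt ℂ c 0) :
    ∃ r : ℝ, 0 < r ∧ r ≤ 1 ∧
      ∀ q : ℂ, ‖q‖ < r → HasSum (fun n => (taylor0 c).coeff n * q ^ n) (c q) := by
  obtain ⟨R, hR⟩ := hasFPowerSeriesAt_taylor0 hc
  have hRpos := hR.r_pos
  obtain ⟨ρ, hρ0, hρR⟩ := ENNReal.lt_iff_exists_real_btwn.mp hRpos
  refine ⟨min ρ 1, lt_min (by simpa using hρR.1) one_pos, min_le_right _ _, fun q hq => ?_⟩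
  have hq' : q ∈ Metric.eball (0 : ℂ) R := by
    rw [Metric.mem_eball, edist_zero_right, ← ofReal_norm]
    exact lt_of_le_of_lt (ENNReal.ofReal_le_ofReal (hq.le.trans (min_le_left _ _))) hρR.2
  have := hR.hasSum hq'
  simpa [FormalMultilinearSeries.ofScalars_apply_eq, mul_comm] using this

/-- The power series `p(X^d)`. -/
noncomputable def psExpand (d : ℕ) (p : PowerSeries ℂ) : PowerSeries ℂ :=
  PowerSeries.mk fun m => if d ∣ m then p.coeff (m / d) else 0

lemma coeff_psExpand (d : ℕ) (p : PowerSeries ℂ) (m : ℕ) :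
    (psExpand d p).coeff m = if d ∣ m then p.coeff (m / d) else 0 := by
  simp [psExpand]

/-- Taylor expansion of `q ↦ c (q ^ d)`. -/
lemma taylor0_comp_pow {c : ℂ → ℂ} (hc : AnalyticAt ℂ c 0) {d : ℕ} (hd : 0 < d) :
    AnalyticAt ℂ (fun q => c (q ^ d)) 0 ∧
      taylor0 (fun q => c (q ^ d)) = psExpand d (taylor0 c) := by
  obtain ⟨r, hr0, hr1, hsum⟩ := exists_hasSum_of_analyticAt hc
  have key : HasFPowerSeriesAt (fun q => c (q ^ d)) (FormalMultilinearSeries.ofScalars ℂ
      (fun m => if d ∣ m then (taylor0 c).coeff (m / d) else 0)) 0 := by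
    refine hasFPowerSeriesAt_of_hasSum hr0 fun q hq => ?_
    have hq1 : ‖q‖ < 1 := hq.trans_le hr1
    have hqd : ‖q ^ d‖ < r := by
      rw [norm_pow]
      exact lt_of_le_of_lt (pow_le_of_le_one (norm_nonneg _) hq1.le hd.ne') hq
    have h1 := hsum (q ^ d) hqd
    have hinj : Function.Injective (fun n : ℕ => d * n) := fun a b hab =>
      Nat.eq_of_mul_eq_mul_left hd hab
    rw [← hinj.hasSum_iff]
    · convert h1 using 1
      funext n
      simp [pow_mul, Nat.mul_div_cancel_left _ hd]
    · intro m hm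
      have : ¬ d ∣ m := fun ⟨k, hk⟩ => hm ⟨k, hk.symm⟩
      simp [this]
  exact ⟨key.analyticAt, taylor0_eq_of_hasFPowerSeriesAt key⟩

lemma qExpansion_eq_taylor0 (f : ℍ → ℂ) : qExpansion 1 f = taylor0 (cuspFunction 1 f) := rfl

lemma taylor0_congr {c c' : ℂ → ℂ} (h : c =ᶠ[𝓝 0] c') : taylor0 c = taylor0 c' := by
  ext m
  rw [coeff_taylor0, coeff_taylor0, h.iteratedDeriv_eq]

lemma taylor0_mul {c c' : ℂ → ℂ} (hc : AnalyticAt ℂ c 0) (hc' : AnalyticAt ℂ c' 0) :
    taylor0 (c * c') = taylor0 c * taylor0 c' := by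
  ext
  simp only [coeff_taylor0, iteratedDeriv_mul hc.contDiffAt hc'.contDiffAt, Finset.mul_sum,
    PowerSeries.coeff_mul, Finset.Nat.sum_antidiagonal_eq_sum_range_succ_mk, Nat.succ_eq_add_one]
  refine Finset.sum_congr rfl fun i hi ↦ ?_
  rw [Nat.cast_choose _ (by grind)]
  field_simp [Nat.factorial_ne_zero]

lemma taylor0_one : taylor0 (1 : ℂ → ℂ) = 1 := by
  have := taylor0_polynomial 1
  simpa [Pi.one_def] using this

lemma taylor0_id : taylor0 (fun q : ℂ => q) = PowerSeries.X := by
  have := taylor0_polynomial Polynomial.X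
  simpa using this

lemma taylor0_pow {c : ℂ → ℂ} (hc : AnalyticAt ℂ c 0) (n : ℕ) :
    taylor0 (c ^ n) = taylor0 c ^ n := by
  induction n with
  | zero => simpa using taylor0_one
  | succ n ih => rw [pow_succ, taylor0_mul (hc.pow n) hc, ih, pow_succ]

/-- The Euler product is analytic at `0`. -/
lemma analyticAt_eulerProd : AnalyticAt ℂ (fun q : ℂ => ∏' n : ℕ, (1 - q ^ (n + 1))) 0 :=
  differentiableOn_tprod_one_sub_pow.analyticAt (Metric.ball_mem_nhds 0 one_pos)

open ModularCurve in
/-- **Bridge**: the `q`-expansion of the analytic `Δ` is the Prelude's formal `q ∏ (1 - qⁿ)²⁴`. -/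
theorem qExpansion_discriminant :
    qExpansion 1 ModularForm.discriminant =
      PowerSeries.X * PowerSeries.map (Int.castRingHom ℂ) dedekindEtaUnit := by
  have h1 : cuspFunction 1 ModularForm.discriminant =ᶠ[𝓝 0]
      ((fun q : ℂ => q) * (fun q : ℂ => ∏' n : ℕ, (1 - q ^ (n + 1))) ^ 24) := by
    filter_upwards [Metric.ball_mem_nhds (0 : ℂ) one_pos] with q hq
    rw [discriminant_cuspFunction_eqOn hq]
    simp only [Pi.mul_apply, Pi.pow_apply]
    rw [(multipliable_one_sub_pow (by simpa using hq)).tprod_pow 24]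
  show taylor0 (cuspFunction 1 ModularForm.discriminant) = _
  rw [taylor0_congr h1, taylor0_mul (c := fun q : ℂ => q) analyticAt_id
      (analyticAt_eulerProd.pow 24), taylor0_id,
    taylor0_pow analyticAt_eulerProd, taylor0_eulerProd, dedekindEtaUnit, map_pow]

open ModularCurve EisensteinSeries in
/-- **Bridge**: the `q`-expansion of the analytic `E₄` is the Prelude's formal `eisenstein4`. -/
theorem qExpansion_E4 :
    qExpansion 1 E₄ = PowerSeries.map (Int.castRingHom ℂ) eisenstein4 := by
  ext n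
  rw [E_qExpansion_coeff _ ⟨2, rfl⟩, PowerSeries.coeff_map, eisenstein4, PowerSeries.coeff_mk]
  by_cases h : n = 0
  · simp [h]
  · simp only [h, if_false]
    rw [ArithmeticFunction.sigma_apply]
    norm_num [show bernoulli 4 = -1 / 30 by decide +kernel]

end Fermat.Agent.S28.QExp
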