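/-
S28 (Igusa), work package WP5, part 2 (helper94): `q`-expansions of functions on the upper half
plane that are meromorphic at the cusp `i∞`.

* `HasQ f s` : `f : ℍ → ℂ` is `1`-periodic and, for some `m`, `f · q^m` has an analytic cusp
  function at `q = 0` with Taylor series `X^m · s`, `s : LaurentSeries ℂ`.
* `HasQ` is compatible with `+`, `*`, constants, powers, finite sums and products, and the
  expansion is unique (`HasQ.unique`); so every polynomial identity between such functions is an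
  identity between their expansions.
* `HasQ.comp_mulUH` : the expansion of `τ ↦ f (d τ)` is `qExpand d` of the expansion of `f`.
* bridges to the Prelude's formal series: `hasQ_E4`, `hasQ_discriminant`,
  `hasQ_inv_discriminant`, `hasQ_jFun` (`j = E₄³ / Δ` has expansion `jqModC ℂ`).
-/
import Fermat.Agent.S23.MF
import Fermat.Agent.S28.QBridge
import Fermat.Prelude.Def_ModularCurve_JqCoeff

set_option autoImplicit false

namespace Fermat.Agent.S28.QExp

open UpperHalfPlane ModularForm Filter Complex Function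
open scoped Real Topology MatrixGroups
open Fermat.Agent.S23 (QA IsMF G0)

/-! ### The function `q` and periodic functions -/

/-- The function `q = exp(2πiτ)` on the upper half plane. -/
noncomputable def qFun : ℍ → ℂ := fun τ => Function.Periodic.qParam 1 (τ : ℂ)

lemma qFun_ne_zero (τ : ℍ) : qFun τ ≠ 0 := Function.Periodic.qParam_ne_zero _

lemma norm_qFun_lt_one (τ : ℍ) : ‖qFun τ‖ < 1 :=
  Function.Periodic.norm_qParam_lt_one one_pos τ.im_pos

/-- `f` is invariant under `τ ↦ τ + 1`. -/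
def IsPer (f : ℍ → ℂ) : Prop := Function.Periodic (f ∘ UpperHalfPlane.ofComplex) 1

lemma isPer_iff {f : ℍ → ℂ} : IsPer f ↔ ∀ τ : ℍ, f ((1 : ℝ) +ᵥ τ) = f τ := by
  constructor
  · intro h τ
    have := h (τ : ℂ)
    simp only [comp_apply, ofComplex_apply] at this
    rw [← this]
    congr 1
    have him : 0 < ((τ : ℂ) + 1).im := by simpa using τ.im_pos
    rw [ofComplex_apply_of_im_pos him]
    ext
    simp [add_comm]
  · intro h w
    by_cases! hw : 0 < im w
    · have : 0 < im (w + 1) := by simpa using hw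
      simp only [comp_apply, ofComplex_apply_of_im_pos this, ofComplex_apply_of_im_pos hw]
      rw [← h ⟨w, hw⟩]
      congr 1
      ext
      simp [add_comm]
    · have : im (w + 1) ≤ 0 := by simpa using hw
      simp [ofComplex_apply_of_im_nonpos this, ofComplex_apply_of_im_nonpos hw]

lemma IsPer.add {f g : ℍ → ℂ} (hf : IsPer f) (hg : IsPer g) : IsPer (f + g) := by
  rw [isPer_iff] at *
  intro τ; simp [hf τ, hg τ]

lemma IsPer.mul {f g : ℍ → ℂ} (hf : IsPer f) (hg : IsPer g) : IsPer (f * g) := by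
  rw [isPer_iff] at *
  intro τ; simp [hf τ, hg τ]

lemma IsPer.neg {f : ℍ → ℂ} (hf : IsPer f) : IsPer (-f) := by
  rw [isPer_iff] at *
  intro τ; simp [hf τ]

lemma IsPer.inv {f : ℍ → ℂ} (hf : IsPer f) : IsPer f⁻¹ := by
  rw [isPer_iff] at *
  intro τ; simp [hf τ]

lemma isPer_const (c : ℂ) : IsPer (fun _ => c) := by
  rw [isPer_iff]; intro τ; rfl

lemma isPer_one : IsPer 1 := isPer_const 1

lemma IsPer.pow {f : ℍ → ℂ} (hf : IsPer f) (n : ℕ) : IsPer (f ^ n) := by
  rw [isPer_iff] at *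
  intro τ; simp [hf τ]

lemma isPer_qFun : IsPer qFun := by
  rw [isPer_iff]
  intro τ
  simp only [qFun, Function.Periodic.qParam, coe_vadd, ofReal_one, div_one]
  rw [mul_add, Complex.exp_add, mul_one, Complex.exp_two_pi_mul_I, one_mul]

lemma isPer_of_isMF {N : ℕ} {k : ℤ} {f : ℍ → ℂ} (hf : IsMF (G0 N) k f) : IsPer f := by
  obtain ⟨F, rfl⟩ := hf
  exact SlashInvariantFormClass.periodic_comp_ofComplex F (Fermat.Agent.S23.one_mem_strictPeriods_G0 N)

/-! ### Cusp functions -/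

/-- for `0 < ‖q‖ < 1` the cusp function is a value of `f`. -/
lemma cuspFunction_eq_apply (f : ℍ → ℂ) {q : ℂ} (hq : ‖q‖ < 1) (hq0 : q ≠ 0) :
    ∃ τ : ℍ, qFun τ = q ∧ cuspFunction 1 f q = f τ := by
  have him := Function.Periodic.im_invQParam_pos_of_norm_lt_one one_pos hq hq0
  refine ⟨⟨_, him⟩, Function.Periodic.qParam_right_inv one_ne_zero hq0, ?_⟩
  simp [cuspFunction, Function.Periodic.cuspFunction_eq_of_nonzero 1 _ hq0,
    ofComplex_apply_of_im_pos him]

/-- If the values of `f` are given by a function `c` of `q` near the cusp, and `c` is continuous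
at `0`, then the cusp function of `f` agrees with `c` near `0`. -/
lemma cuspFunction_eventuallyEq {f : ℍ → ℂ} {c : ℂ → ℂ} {r : ℝ} (hr : 0 < r)
    (hc : ContinuousAt c 0) (h : ∀ τ : ℍ, ‖qFun τ‖ < r → f τ = c (qFun τ)) :
    cuspFunction 1 f =ᶠ[𝓝 0] c := by
  have hpunct : ∀ q : ℂ, ‖q‖ < min r 1 → q ≠ 0 → cuspFunction 1 f q = c q := by
    intro q hq hq0
    obtain ⟨τ, hτ, hval⟩ := cuspFunction_eq_apply f (hq.trans_le (min_le_right _ _)) hq0
    rw [hval, h τ (by rw [hτ]; exact hq.trans_le (min_le_left _ _)), hτ]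
  have hball : Metric.ball (0 : ℂ) (min r 1) ∈ 𝓝 (0 : ℂ) :=
    Metric.ball_mem_nhds _ (lt_min hr one_pos)
  have hzero : cuspFunction 1 f 0 = c 0 := by
    have h1 : cuspFunction 1 f 0 = limUnder (𝓝[≠] 0) (cuspFunction 1 f) :=
      Function.Periodic.cuspFunction_zero_eq_limUnder_nhds_ne 1 _
    rw [h1]
    refine Tendsto.limUnder_eq ?_
    have h2 : Tendsto c (𝓝[≠] 0) (𝓝 (c 0)) := hc.tendsto.mono_left nhdsWithin_le_nhds
    refine h2.congr' ?_
    have : ∀ᶠ q in 𝓝[≠] (0 : ℂ), q ∈ Metric.ball (0 : ℂ) (min r 1) ∧ q ≠ 0 :=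
      (eventually_nhdsWithin_of_eventually_nhds hball).and self_mem_nhdsWithin
    filter_upwards [this] with q hq
    exact (hpunct q (by simpa using hq.1) hq.2).symm
  filter_upwards [hball] with q hq
  rcases eq_or_ne q 0 with rfl | hq0
  · exact hzero
  · exact hpunct q (by simpa using hq) hq0

/-- `QA` and the `q`-expansion from a local description of `f` as an analytic function of `q`. -/
lemma qa_of_eq {f : ℍ → ℂ} {c : ℂ → ℂ} {r : ℝ} (hr : 0 < r)
    (hc : AnalyticAt ℂ c 0) (h : ∀ τ : ℍ, ‖qFun τ‖ < r → f τ = c (qFun τ)) :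
    QA f ∧ qExpansion 1 f = taylor0 c := by
  have h1 := cuspFunction_eventuallyEq hr hc.continuousAt h
  exact ⟨hc.congr h1.symm, taylor0_congr h1⟩

lemma qa_qFun : QA qFun := (qa_of_eq one_pos analyticAt_id fun _ _ => rfl).1

lemma qExpansion_qFun : qExpansion 1 qFun = PowerSeries.X := by
  rw [(qa_of_eq (f := qFun) (c := fun q => q) one_pos analyticAt_id fun _ _ => rfl).2, taylor0_id]

lemma qa_qFun_pow (n : ℕ) : QA (qFun ^ n) := qa_qFun.pow n

lemma qExpansion_qFun_pow (n : ℕ) : qExpansion 1 (qFun ^ n) = PowerSeries.X ^ n := by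
  rw [qa_qFun.qExpansion_pow, qExpansion_qFun]


/-! ### `HasQ` -/

/-- `f` is `1`-periodic and meromorphic at `i∞`, with Laurent expansion `s` in `q`. -/
def HasQ (f : ℍ → ℂ) (s : LaurentSeries ℂ) : Prop :=
  IsPer f ∧ ∃ m : ℕ, QA (f * qFun ^ m) ∧
    HahnSeries.ofPowerSeries ℤ ℂ (qExpansion 1 (f * qFun ^ m)) = HahnSeries.single (m : ℤ) 1 * s

lemma single_mul_single_one (a b : ℤ) :
    (HahnSeries.single a (1 : ℂ) : LaurentSeries ℂ) * HahnSeries.single b 1 =
      HahnSeries.single (a + b) 1 := by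
  rw [HahnSeries.single_mul_single, one_mul]

lemma single_one_mul_cancel {m : ℤ} {s t : LaurentSeries ℂ}
    (h : (HahnSeries.single m (1 : ℂ) : LaurentSeries ℂ) * s = HahnSeries.single m 1 * t) :
    s = t := by
  have h1 : (HahnSeries.single (-m) (1 : ℂ) : LaurentSeries ℂ) * HahnSeries.single m 1 = 1 := by
    rw [single_mul_single_one, neg_add_cancel]; rfl
  calc s = (HahnSeries.single (-m) (1 : ℂ) * HahnSeries.single m 1) * s := by rw [h1, one_mul]
    _ = (HahnSeries.single (-m) (1 : ℂ) * HahnSeries.single m 1) * t := by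
        rw [mul_assoc, h, ← mul_assoc]
    _ = t := by rw [h1, one_mul]

lemma ofPowerSeries_X_pow' (n : ℕ) :
    HahnSeries.ofPowerSeries ℤ ℂ (PowerSeries.X ^ n) = HahnSeries.single (n : ℤ) 1 := by
  rw [HahnSeries.ofPowerSeries_X_pow]

/-- The witness exponent in `HasQ` can be increased. -/
lemma hasQ_shift {f : ℍ → ℂ} {s : LaurentSeries ℂ} {m : ℕ} (h1 : QA (f * qFun ^ m))
    (h2 : HahnSeries.ofPowerSeries ℤ ℂ (qExpansion 1 (f * qFun ^ m)) =
      HahnSeries.single (m : ℤ) 1 * s) (k : ℕ) :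
    QA (f * qFun ^ (m + k)) ∧
      HahnSeries.ofPowerSeries ℤ ℂ (qExpansion 1 (f * qFun ^ (m + k))) =
        HahnSeries.single ((m + k : ℕ) : ℤ) 1 * s := by
  have e : f * qFun ^ (m + k) = (f * qFun ^ m) * qFun ^ k := by rw [pow_add, mul_assoc]
  rw [e]
  refine ⟨h1.mul (qa_qFun_pow k), ?_⟩
  rw [h1.qExpansion_mul (qa_qFun_pow k), map_mul, h2, qExpansion_qFun_pow, ofPowerSeries_X_pow',
    mul_right_comm, single_mul_single_one]
  push_cast
  rfl

/-- `HasQ` with any large enough witness exponent. -/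
lemma HasQ.exists_forall_ge {f : ℍ → ℂ} {s : LaurentSeries ℂ} (h : HasQ f s) :
    ∃ m : ℕ, ∀ n : ℕ, m ≤ n → QA (f * qFun ^ n) ∧
      HahnSeries.ofPowerSeries ℤ ℂ (qExpansion 1 (f * qFun ^ n)) =
        HahnSeries.single (n : ℤ) 1 * s := by
  obtain ⟨-, m, h1, h2⟩ := h
  refine ⟨m, fun n hn => ?_⟩
  obtain ⟨k, rfl⟩ := Nat.exists_eq_add_of_le hn
  exact hasQ_shift h1 h2 k

lemma HasQ.isPer {f : ℍ → ℂ} {s : LaurentSeries ℂ} (h : HasQ f s) : IsPer f := h.1

/-- The expansion is unique. -/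
theorem HasQ.unique {f : ℍ → ℂ} {s t : LaurentSeries ℂ} (hs : HasQ f s) (ht : HasQ f t) :
    s = t := by
  obtain ⟨m, hm⟩ := hs.exists_forall_ge
  obtain ⟨m', hm'⟩ := ht.exists_forall_ge
  have h1 := (hm (max m m') (le_max_left _ _)).2
  have h2 := (hm' (max m m') (le_max_right _ _)).2
  exact single_one_mul_cancel (h1.symm.trans h2)

lemma HasQ.congr {f g : ℍ → ℂ} {s : LaurentSeries ℂ} (h : HasQ f s) (hfg : ∀ τ, f τ = g τ) :
    HasQ g s := by
  have : f = g := funext hfg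
  rwa [← this]

/-- A function with analytic cusp function. -/
lemma HasQ.of_qa {f : ℍ → ℂ} (hper : IsPer f) (hf : QA f) :
    HasQ f (HahnSeries.ofPowerSeries ℤ ℂ (qExpansion 1 f)) := by
  refine ⟨hper, 0, by simpa using hf, ?_⟩
  simp only [pow_zero, mul_one, Nat.cast_zero]
  rw [show (HahnSeries.single (0 : ℤ) (1 : ℂ) : LaurentSeries ℂ) = 1 from rfl, one_mul]

/-- Modular forms for `Γ₀(N)`. -/
lemma HasQ.of_isMF {N : ℕ} {k : ℤ} {f : ℍ → ℂ} (hf : IsMF (G0 N) k f) :
    HasQ f (HahnSeries.ofPowerSeries ℤ ℂ (qExpansion 1 f)) :=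
  HasQ.of_qa (isPer_of_isMF hf) (hf.qa (Fermat.Agent.S23.one_mem_strictPeriods_G0 N))

lemma HasQ.of_modularForm {N : ℕ} {k : ℤ} (F : ModularForm (G0 N) k) :
    HasQ F (HahnSeries.ofPowerSeries ℤ ℂ (qExpansion 1 F)) :=
  HasQ.of_isMF (IsMF.of F)

theorem HasQ.add {f g : ℍ → ℂ} {s t : LaurentSeries ℂ} (hf : HasQ f s) (hg : HasQ g t) :
    HasQ (f + g) (s + t) := by
  obtain ⟨m, hm⟩ := hf.exists_forall_ge
  obtain ⟨m', hm'⟩ := hg.exists_forall_ge
  obtain ⟨h1, h2⟩ := hm (max m m') (le_max_left _ _)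
  obtain ⟨h1', h2'⟩ := hm' (max m m') (le_max_right _ _)
  refine ⟨hf.1.add hg.1, max m m', ?_, ?_⟩
  · rw [add_mul]; exact h1.add h1'
  · rw [add_mul, h1.qExpansion_add h1', map_add, h2, h2', mul_add]

theorem HasQ.mul {f g : ℍ → ℂ} {s t : LaurentSeries ℂ} (hf : HasQ f s) (hg : HasQ g t) :
    HasQ (f * g) (s * t) := by
  obtain ⟨hp, m, h1, h2⟩ := hf
  obtain ⟨hp', m', h1', h2'⟩ := hg
  have e : f * g * qFun ^ (m + m') = (f * qFun ^ m) * (g * qFun ^ m') := by
    rw [pow_add]; ring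
  refine ⟨hp.mul hp', m + m', ?_, ?_⟩
  · rw [e]; exact h1.mul h1'
  · rw [e, h1.qExpansion_mul h1', map_mul, h2, h2']
    push_cast
    rw [← single_mul_single_one]
    ring

theorem hasQ_const (c : ℂ) : HasQ (fun _ => c) (HahnSeries.C c) := by
  have h1 : (fun _ : ℍ => c) = c • (1 : ℍ → ℂ) := by
    funext τ; simp
  have hqa : QA (c • (1 : ℍ → ℂ)) := Fermat.Agent.S23.QA.one.smul c
  have := HasQ.of_qa (h1 ▸ isPer_const c) hqa
  rw [h1]
  convert this using 1
  rw [Fermat.Agent.S23.QA.one.qExpansion_smul, UpperHalfPlane.qExpansion_one]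
  simp [HahnSeries.ofPowerSeries_C, Algebra.smul_def]

theorem hasQ_one : HasQ 1 1 := by
  have := hasQ_const 1
  rwa [map_one] at this

theorem hasQ_zero : HasQ 0 0 := by
  have := hasQ_const 0
  rwa [map_zero] at this

theorem HasQ.const_mul {f : ℍ → ℂ} {s : LaurentSeries ℂ} (c : ℂ) (hf : HasQ f s) :
    HasQ (fun τ => c * f τ) (HahnSeries.C c * s) :=
  ((hasQ_const c).mul hf).congr fun _ => rfl

theorem HasQ.smul {f : ℍ → ℂ} {s : LaurentSeries ℂ} (c : ℂ) (hf : HasQ f s) :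
    HasQ (c • f) (c • s) := by
  have := (hasQ_const c).mul hf
  rw [HahnSeries.C_mul_eq_smul] at this
  exact this.congr fun _ => rfl

theorem HasQ.neg {f : ℍ → ℂ} {s : LaurentSeries ℂ} (hf : HasQ f s) : HasQ (-f) (-s) := by
  have := hf.smul (-1)
  rw [neg_one_smul] at this
  rwa [neg_one_smul ℂ s] at this

theorem HasQ.sub {f g : ℍ → ℂ} {s t : LaurentSeries ℂ} (hf : HasQ f s) (hg : HasQ g t) :
    HasQ (f - g) (s - t) := by
  rw [sub_eq_add_neg, sub_eq_add_neg]
  exact hf.add hg.neg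

theorem HasQ.pow {f : ℍ → ℂ} {s : LaurentSeries ℂ} (hf : HasQ f s) (n : ℕ) :
    HasQ (f ^ n) (s ^ n) := by
  induction n with
  | zero => simpa using hasQ_one
  | succ n ih => rw [pow_succ, pow_succ]; exact ih.mul hf

theorem HasQ.sum {ι : Type*} (S : Finset ι) {f : ι → ℍ → ℂ} {s : ι → LaurentSeries ℂ}
    (h : ∀ i ∈ S, HasQ (f i) (s i)) : HasQ (∑ i ∈ S, f i) (∑ i ∈ S, s i) := by
  classical
  induction S using Finset.induction_on with
  | empty => simpa using hasQ_zero
  | insert a S ha ih =>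
    rw [Finset.sum_insert ha, Finset.sum_insert ha]
    exact (h a (Finset.mem_insert_self a S)).add
      (ih fun i hi => h i (Finset.mem_insert_of_mem hi))

theorem HasQ.prod {ι : Type*} (S : Finset ι) {f : ι → ℍ → ℂ} {s : ι → LaurentSeries ℂ}
    (h : ∀ i ∈ S, HasQ (f i) (s i)) : HasQ (∏ i ∈ S, f i) (∏ i ∈ S, s i) := by
  classical
  induction S using Finset.induction_on with
  | empty => simpa using hasQ_one
  | insert a S ha ih =>
    rw [Finset.prod_insert ha, Finset.prod_insert ha]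
    exact (h a (Finset.mem_insert_self a S)).mul
      (ih fun i hi => h i (Finset.mem_insert_of_mem hi))

/-- If `f` and `g` are inverse to each other then so are their expansions. -/
theorem HasQ.mul_eq_one {f g : ℍ → ℂ} {s t : LaurentSeries ℂ} (hf : HasQ f s) (hg : HasQ g t)
    (h : ∀ τ, f τ * g τ = 1) : s * t = 1 :=
  ((hf.mul hg).congr (g := 1) h).unique hasQ_one

/-- A function that vanishes identically has expansion `0`. -/
theorem HasQ.eq_zero {f : ℍ → ℂ} {s : LaurentSeries ℂ} (hf : HasQ f s) (h : ∀ τ, f τ = 0) :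
    s = 0 :=
  (hf.congr (g := 0) h).unique hasQ_zero

/-- Two functions that agree have the same expansion. -/
theorem HasQ.eq_of_eq {f g : ℍ → ℂ} {s t : LaurentSeries ℂ} (hf : HasQ f s) (hg : HasQ g t)
    (h : ∀ τ, f τ = g τ) : s = t :=
  (hf.congr h).unique hg

/-- Integer powers, given the expansion of the inverse. -/
theorem HasQ.zpow {f : ℍ → ℂ} {s : LaurentSeries ℂ} (hf : HasQ f s) (hinv : HasQ f⁻¹ s⁻¹)
    (e : ℤ) : HasQ (fun τ => f τ ^ e) (s ^ e) := by
  rcases e with n | n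
  · rw [Int.ofNat_eq_natCast, zpow_natCast]
    exact (hf.pow n).congr fun τ => by simp
  · rw [zpow_negSucc, ← inv_pow]
    refine (hinv.pow (n + 1)).congr fun τ => ?_
    simp [zpow_negSucc, inv_pow]

/-- Polynomial expressions. -/
theorem HasQ.aeval {f : ℍ → ℂ} {s : LaurentSeries ℂ} (hf : HasQ f s) (P : Polynomial ℂ) :
    HasQ (fun τ => P.eval (f τ)) (P.eval₂ HahnSeries.C s) := by
  induction P using Polynomial.induction_on' with
  | add p q hp hq =>
    rw [Polynomial.eval₂_add]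
    exact (hp.add hq).congr fun τ => by simp
  | monomial n a =>
    rw [Polynomial.eval₂_monomial]
    exact ((hasQ_const a).mul (hf.pow n)).congr fun τ => by simp


/-- From an analytic cusp function of `f · q^m`. -/
lemma HasQ.of_qa_mul {f : ℍ → ℂ} (hper : IsPer f) (m : ℕ) (hf : QA (f * qFun ^ m)) :
    HasQ f (HahnSeries.single (-(m : ℤ)) 1 *
      HahnSeries.ofPowerSeries ℤ ℂ (qExpansion 1 (f * qFun ^ m))) := by
  refine ⟨hper, m, hf, ?_⟩
  rw [← mul_assoc, single_mul_single_one, add_neg_cancel]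
  rw [show (HahnSeries.single (0 : ℤ) (1 : ℂ) : LaurentSeries ℂ) = 1 from rfl, one_mul]

/-- Modular forms for any group containing the translation `τ ↦ τ + 1`. -/
lemma HasQ.of_isMF' {Γ : Subgroup (GL (Fin 2) ℝ)} (h1 : (1 : ℝ) ∈ Γ.strictPeriods) {k : ℤ}
    {f : ℍ → ℂ} (hf : IsMF Γ k f) :
    HasQ f (HahnSeries.ofPowerSeries ℤ ℂ (qExpansion 1 f)) := by
  refine HasQ.of_qa ?_ (hf.qa h1)
  obtain ⟨F, rfl⟩ := hf
  exact SlashInvariantFormClass.periodic_comp_ofComplex F h1

/-! ### The substitution `τ ↦ d τ` -/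

/-- `τ ↦ d τ` on the upper half plane. -/
noncomputable def mulUH (d : ℕ) [NeZero d] (τ : ℍ) : ℍ :=
  ⟨(d : ℂ) * τ, by
    have h1 := τ.im_pos
    have hd : (0 : ℝ) < d := by exact_mod_cast Nat.pos_of_ne_zero (NeZero.ne d)
    simpa using mul_pos hd h1⟩

@[simp] lemma coe_mulUH (d : ℕ) [NeZero d] (τ : ℍ) : ((mulUH d τ : ℍ) : ℂ) = (d : ℂ) * τ := rfl

lemma qFun_mulUH (d : ℕ) [NeZero d] (τ : ℍ) : qFun (mulUH d τ) = qFun τ ^ d := by
  simp only [qFun, Function.Periodic.qParam, coe_mulUH, ofReal_one, div_one]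
  rw [← Complex.exp_nat_mul]
  congr 1
  ring

lemma IsPer.natCast_vadd {f : ℍ → ℂ} (hf : IsPer f) (n : ℕ) (τ : ℍ) :
    f ((n : ℝ) +ᵥ τ) = f τ := by
  rw [isPer_iff] at hf
  induction n with
  | zero => congr 1; ext; simp
  | succ n ih =>
    rw [← ih, ← hf ((n : ℝ) +ᵥ τ)]
    congr 1
    ext
    simp
    ring

lemma IsPer.comp_mulUH {f : ℍ → ℂ} (hf : IsPer f) (d : ℕ) [NeZero d] :
    IsPer (fun τ => f (mulUH d τ)) := by
  rw [isPer_iff]
  intro τ
  rw [← hf.natCast_vadd d (mulUH d τ)]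
  congr 1
  ext
  simp
  ring

open ModularCurve in
lemma ofPowerSeries_psExpand (d : ℕ) [NeZero d] (p : PowerSeries ℂ) :
    HahnSeries.ofPowerSeries ℤ ℂ (psExpand d p) = qExpand ℂ d (HahnSeries.ofPowerSeries ℤ ℂ p) := by
  ext k
  by_cases hk : (d : ℤ) ∣ k
  · obtain ⟨j, rfl⟩ := hk
    rw [qExpand_coeff_mul]
    rcases le_or_gt 0 j with hj | hj
    · lift j to ℕ using hj
      rw [show (d : ℤ) * (j : ℤ) = ((d * j : ℕ) : ℤ) by push_cast; rfl,
        HahnSeries.ofPowerSeries_apply_coeff, HahnSeries.ofPowerSeries_apply_coeff,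
        coeff_psExpand, if_pos (dvd_mul_right d j),
        Nat.mul_div_cancel_left _ (Nat.pos_of_ne_zero (NeZero.ne d))]
    · have hd : (0 : ℤ) < d := by exact_mod_cast Nat.pos_of_ne_zero (NeZero.ne d)
      rw [ofPowerSeries_coeff_of_neg _ (mul_neg_of_pos_of_neg hd hj),
        ofPowerSeries_coeff_of_neg _ hj]
  · rw [qExpand_coeff_of_not_dvd _ _ hk]
    rcases le_or_gt 0 k with hk0 | hk0
    · lift k to ℕ using hk0
      rw [HahnSeries.ofPowerSeries_apply_coeff, coeff_psExpand, if_neg]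
      exact fun h => hk (by exact_mod_cast h)
    · exact ofPowerSeries_coeff_of_neg _ hk0

open ModularCurve in
/-- The expansion of `τ ↦ f (d τ)` is `qExpand d` of the expansion of `f`. -/
theorem HasQ.comp_mulUH {f : ℍ → ℂ} {s : LaurentSeries ℂ} (hf : HasQ f s) (d : ℕ) [NeZero d] :
    HasQ (fun τ => f (mulUH d τ)) (qExpand ℂ d s) := by
  obtain ⟨hper, m, h1, h2⟩ := hf
  have hperG : IsPer (f * qFun ^ m) := hper.mul (isPer_qFun.pow m)
  have hd : 0 < d := Nat.pos_of_ne_zero (NeZero.ne d)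
  obtain ⟨han, htay⟩ := taylor0_comp_pow (c := cuspFunction 1 (f * qFun ^ m)) h1 hd
  have e : (fun τ => f (mulUH d τ)) * qFun ^ (d * m) = fun τ => (f * qFun ^ m) (mulUH d τ) := by
    funext τ
    simp only [Pi.mul_apply, Pi.pow_apply, qFun_mulUH, pow_mul]
  have key := qa_of_eq (f := fun τ => (f * qFun ^ m) (mulUH d τ)) one_pos han (fun τ _ => by
    rw [← qFun_mulUH]
    exact (eq_cuspFunction (mulUH d τ) one_ne_zero hperG).symm)
  refine ⟨hper.comp_mulUH d, d * m, e ▸ key.1, ?_⟩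
  rw [e, key.2, htay, ofPowerSeries_psExpand, ← qExpansion_eq_taylor0, h2, map_mul,
    qExpand_single]
  push_cast
  rfl


/-! ### Bridges to the Prelude's formal series -/

section Bridges

open ModularCurve EisensteinSeries

/-- The formal `Δ = q ∏ (1 - qⁿ)²⁴` with complex coefficients. -/
noncomputable def deltaC : LaurentSeries ℂ :=
  HahnSeries.single (1 : ℤ) 1 *
    HahnSeries.ofPowerSeries ℤ ℂ (PowerSeries.map (Int.castRingHom ℂ) dedekindEtaUnit)

/-- The formal `Δ⁻¹` with complex coefficients. -/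
noncomputable def deltaInvC : LaurentSeries ℂ :=
  HahnSeries.single (-1 : ℤ) 1 *
    HahnSeries.ofPowerSeries ℤ ℂ (PowerSeries.map (Int.castRingHom ℂ) dedekindEtaUnitInv)

/-- The formal `E₄` with complex coefficients. -/
noncomputable def e4C : LaurentSeries ℂ :=
  HahnSeries.ofPowerSeries ℤ ℂ (PowerSeries.map (Int.castRingHom ℂ) eisenstein4)

lemma deltaC_mul_deltaInvC : deltaC * deltaInvC = 1 := by
  unfold deltaC deltaInvC
  rw [mul_mul_mul_comm, single_mul_single_one, ← map_mul, ← map_mul, dedekindEtaUnit_mul_inv,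
    (PowerSeries.map (Int.castRingHom ℂ)).map_one, (HahnSeries.ofPowerSeries ℤ ℂ).map_one,
    mul_one]
  rfl

lemma deltaInvC_eq_inv : deltaInvC = deltaC⁻¹ :=
  eq_inv_of_mul_eq_one_right deltaC_mul_deltaInvC

lemma deltaC_ne_zero : deltaC ≠ 0 := left_ne_zero_of_mul_eq_one deltaC_mul_deltaInvC

lemma e4C_pow_mul_deltaInvC : e4C ^ 3 * deltaInvC = jqModC ℂ := by
  unfold e4C deltaInvC jqModC jNum
  rw [map_mul, map_mul, map_pow, map_pow]
  ring

theorem hasQ_E4 : HasQ E₄ e4C := by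
  have := HasQ.of_isMF' (Γ := 𝒮ℒ) (by simp) (IsMF.of E₄)
  rwa [qExpansion_E4] at this

theorem hasQ_discriminant : HasQ ModularForm.discriminant deltaC := by
  have := HasQ.of_isMF' (Γ := 𝒮ℒ) (by simp)
    (IsMF.of (ModularFormClass.modularForm CuspForm.discriminant))
  have e : (⇑(ModularFormClass.modularForm CuspForm.discriminant) : ℍ → ℂ) =
      ModularForm.discriminant := rfl
  rw [e, qExpansion_discriminant, map_mul, HahnSeries.ofPowerSeries_X] at this
  exact this

lemma discriminant_eq_qFun_mul (τ : ℍ) :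
    ModularForm.discriminant τ = qFun τ * (∏' n : ℕ, (1 - qFun τ ^ (n + 1))) ^ 24 := by
  rw [discriminant_eq_q_prod, ← (multipliable_one_sub_pow (norm_qFun_lt_one τ)).tprod_pow 24]
  simp only [qFun, eta_q_eq_pow]

theorem hasQ_inv_discriminant : HasQ (ModularForm.discriminant)⁻¹ deltaInvC := by
  have hper : IsPer (ModularForm.discriminant)⁻¹ := hasQ_discriminant.isPer.inv
  have hE0 : (fun q : ℂ => (∏' n : ℕ, (1 - q ^ (n + 1))) ^ 24) 0 ≠ 0 := by
    simp
  have han : AnalyticAt ℂ (fun q : ℂ => ((∏' n : ℕ, (1 - q ^ (n + 1))) ^ 24)⁻¹) 0 :=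
    (analyticAt_eulerProd.pow 24).inv hE0
  have hqa := (qa_of_eq (f := (ModularForm.discriminant)⁻¹ * qFun ^ 1) one_pos han (fun τ _ => by
    simp only [Pi.mul_apply, Pi.inv_apply, pow_one]
    rw [discriminant_eq_qFun_mul, mul_inv, mul_right_comm, inv_mul_cancel₀ (qFun_ne_zero τ),
      one_mul])).1
  have h1 := HasQ.of_qa_mul hper 1 hqa
  have h2 := hasQ_discriminant.mul_eq_one h1 (fun τ => by
    simp only [Pi.inv_apply]
    exact mul_inv_cancel₀ (discriminant_ne_zero τ))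
  rw [deltaInvC_eq_inv, ← eq_inv_of_mul_eq_one_right h2]
  exact h1

/-- The analytic `j`-function. -/
noncomputable def jFun : ℍ → ℂ := fun τ => E₄ τ ^ 3 / ModularForm.discriminant τ

/-- **Bridge**: the `q`-expansion of `j = E₄³ / Δ` is the Prelude's `jq` (over `ℂ`). -/
theorem hasQ_jFun : HasQ jFun (jqModC ℂ) := by
  rw [← e4C_pow_mul_deltaInvC]
  exact ((hasQ_E4.pow 3).mul hasQ_inv_discriminant).congr fun τ => by
    simp [jFun, div_eq_mul_inv]

/-- `j(dτ)`. -/
theorem hasQ_jFun_comp (d : ℕ) [NeZero d] :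
    HasQ (fun τ => jFun (mulUH d τ)) (jqNModC ℂ d) :=
  hasQ_jFun.comp_mulUH d

/-- `Δ(dτ)` and its inverse. -/
theorem hasQ_discriminant_comp (d : ℕ) [NeZero d] :
    HasQ (fun τ => ModularForm.discriminant (mulUH d τ)) (qExpand ℂ d deltaC) :=
  hasQ_discriminant.comp_mulUH d

theorem hasQ_inv_discriminant_comp (d : ℕ) [NeZero d] :
    HasQ (fun τ => ModularForm.discriminant (mulUH d τ))⁻¹ (qExpand ℂ d deltaC)⁻¹ := by
  have := hasQ_inv_discriminant.comp_mulUH d
  rw [deltaInvC_eq_inv, map_inv₀] at this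
  exact this.congr fun τ => by simp

/-- Integer powers of `Δ(dτ)`. -/
theorem hasQ_discriminant_comp_zpow (d : ℕ) [NeZero d] (e : ℤ) :
    HasQ (fun τ => ModularForm.discriminant (mulUH d τ) ^ e) (qExpand ℂ d deltaC ^ e) :=
  (hasQ_discriminant_comp d).zpow (hasQ_inv_discriminant_comp d) e

end Bridges

end Fermat.Agent.S28.QExp
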