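/-
S28 (Igusa): Theorem A, core assembly (helper78).
From the function-level certificate (WP11, `Certificate.lean`) and the `q`-expansion calculus
`HasQ` (WP5, `QExp.lean`) we derive the formal statement `ThmAStatement N` of `IntOver.lean`,
given the modular unit `W` (weight `12 φ` on `Γ₀(N)`), its formal expansion `u`, the norm identity
and the forms `v_d`.
-/
import Fermat.Agent.S28.Certificate
import Fermat.Agent.S28.QExp
import Fermat.Agent.S28.IntOver
import Fermat.Agent.S28.Eval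
import Fermat.Agent.S28.UnitArith
import Fermat.Prelude.Def_ModularForm_HeckeOperator
import Fermat.Prelude.Def_ModularCurve_X0ModL
import Fermat.Prelude.Thm_ModularCurve_coeffMap_qExpand

set_option autoImplicit false

namespace Fermat.Agent.S28

open UpperHalfPlane ModularForm MatrixGroups EisensteinSeries Polynomial SlashInvariantForm
open Fermat.Agent.S23 ModularCurve
open Fermat.Agent.S28.QExp

/-- The two `j`-functions agree. -/
lemma thmA_wp4J_eq_jFun : wp4J = jFun := rfl

/-- `toC jq` is the Prelude's `jq` with complex coefficients. -/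
lemma thmA_toC_jq : toC jq = jqModC ℂ := by
  rw [← jqModC_rat]
  exact coeffMap_jqModC (algebraMap ℚ ℂ)

/-- `toC (j(q^d))`. -/
lemma thmA_toC_qExpand_jq (d : ℕ) [NeZero d] : toC (qExpand ℚ d jq) = jqNModC ℂ d := by
  show coeffMap (algebraMap ℚ ℂ) (qExpand ℚ d jq) = _
  rw [coeffMap_qExpand, jqNModC]
  congr 1
  exact thmA_toC_jq

/-- `j` has expansion `toC jq`. -/
theorem thmA_hasQ_wp4J : HasQ wp4J (toC jq) := by
  rw [thmA_toC_jq, thmA_wp4J_eq_jFun]
  exact hasQ_jFun

/-- `heckeDiagMatrix d • τ = d τ`. -/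
lemma thmA_heckeDiag_smul (d : ℕ) [NeZero d] (τ : ℍ) : heckeDiagMatrix d • τ = mulUH d τ := by
  apply UpperHalfPlane.ext
  rw [coe_heckeDiagMatrix_smul (NeZero.ne d), coe_mulUH]

/-- `j(dτ)` has expansion `toC (j(q^d))`. -/
theorem thmA_hasQ_jd (d : ℕ) [NeZero d] :
    HasQ (fun τ => wp4J (heckeDiagMatrix d • τ)) (toC (qExpand ℚ d jq)) := by
  rw [thmA_toC_qExpand_jq]
  exact (hasQ_jFun_comp d).congr fun τ => by rw [thmA_heckeDiag_smul]; rfl

/-- Univariate polynomial evaluation, in terms of `evJ`. -/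
theorem thmA_hasQ_evJ {J : ℍ → ℂ} {j : LaurentSeries ℂ} (hJ : HasQ J j) (p : Polynomial ℂ) :
    HasQ (fun τ => p.eval (J τ)) (evJ j p) := by
  have h := hJ.aeval p
  rwa [← pev1_apply, pev1_eq_evJ] at h

/-- Bivariate polynomial evaluation: `P(J τ, U τ)` has expansion `P(j, u)`. -/
theorem thmA_hasQ_biv {J U : ℍ → ℂ} {j u : LaurentSeries ℂ} (hJ : HasQ J j) (hU : HasQ U u)
    (P : Polynomial (Polynomial ℂ)) :
    HasQ (fun τ => (P.map (evalRingHom (J τ))).eval (U τ)) (P.eval₂ (evJ j) u) := by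
  induction P using Polynomial.induction_on' with
  | add p q hp hq =>
    rw [Polynomial.eval₂_add]
    exact (hp.add hq).congr fun τ => by simp
  | monomial n a =>
    rw [Polynomial.eval₂_monomial]
    exact ((thmA_hasQ_evJ hJ a).mul (hU.pow n)).congr fun τ => by simp

/-- The order of `toC jq`. -/
lemma thmA_ordV_toC_jq : ordV ℂ (toC jq) = ((-1 : ℤ) : WithTop ℤ) := by
  rw [HahnSeries.addVal_apply]
  refine HahnSeries.orderTop_eq_of_le ?_ fun g hg => ?_
  · rw [HahnSeries.mem_support]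
    simp [toC, coeffMap_coeff]
  · by_contra hlt
    rw [not_le] at hlt
    rw [HahnSeries.mem_support] at hg
    apply hg
    show (toC jq).coeff g = 0
    rw [toC, coeffMap_coeff, coeff_jq_of_lt hlt, map_zero]

/-- **Theorem A, conditional form.**  Inputs: the modular unit `W` with its formal expansion `u`,
the norm identity and the forms `v_d`. -/
theorem thmA_of_inputs (N : ℕ) [NeZero N] (φ : ℕ) (hφ : 0 < φ)
    (W : ModularForm (G0 N) (12 * (φ : ℤ)))
    (u : LaurentSeries ℚ)
    (hu : IsMonicUnitSeries u (((φ * (Fintype.card (Q N) - 1) : ℕ) : ℤ)))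
    (hWu : HasQ (fun τ => W τ / discriminant τ ^ φ) (toC u))
    (hmain : ∃ C : ℂ, IsNUnit N ‖C‖ ∧ ∀ τ : ℍ,
      ∏ q : Q N, quotientFunc W q τ = C * discriminant τ ^ (φ * Fintype.card (Q N)))
    (hvd : ∀ d : ℕ, d ∣ N → ∃ v : ModularForm (G0 N) (12 * (d : ℤ)), ∀ τ : ℍ,
      v τ = E₄ (heckeDiagMatrix d • τ) ^ 3 * discriminant τ ^ d /
        discriminant (heckeDiagMatrix d • τ)) :
    ThmAStatement N := by
  classical
  set n := Fintype.card (Q N) with hn
  obtain ⟨χ, hmonic, hdeg, hbound, hconst, hroot, hcert⟩ :=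
    wp11_exists_charPoly_certificate_all N φ W
  obtain ⟨C, hC, hnorm⟩ := hmain
  obtain ⟨a, b, ha, hb, hpa, hpb, hab⟩ := hC
  have hJ := thmA_hasQ_wp4J
  -- the constant term
  have hc0 : ∀ τ : ℍ, (χ.coeff 0).eval (wp4J τ) = (-1) ^ n * C := by
    intro τ
    rw [hconst τ, Finset.prod_div_distrib, hnorm τ, Finset.prod_const, Finset.card_univ,
      ← pow_mul, ← hn, mul_div_assoc, div_self (pow_ne_zero _ (discriminant_ne_zero τ)),
      mul_one]
  have hcoeff0 : χ.coeff 0 = Polynomial.C ((-1) ^ n * C) := by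
    have h1 := thmA_hasQ_evJ hJ (χ.coeff 0 - Polynomial.C ((-1) ^ n * C))
    have h2 := h1.eq_zero fun τ => by
      rw [eval_sub, eval_C, hc0 τ, sub_self]
    have h3 := evJ_injective (toC jq) thmA_ordV_toC_jq (h2.trans (map_zero _).symm)
    exact sub_eq_zero.mp h3
  refine ⟨n, φ, u, χ, (-1) ^ n * C, a, b, hφ, hu, hmonic, hdeg, hbound, ?_, hcoeff0, ha, hb,
    ?_, ?_, ?_⟩
  · -- the root
    exact (thmA_hasQ_biv hJ hWu χ).eq_zero hroot
  · intro p hp hpab
    rcases (Nat.Prime.dvd_mul hp).mp hpab with h | h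
    exacts [hpa p hp h, hpb p hp h]
  · rw [norm_mul, norm_pow, norm_neg, norm_one, one_pow, one_mul, hab]
    have hb0 : (b : ℝ) ≠ 0 := by positivity
    field_simp
  · -- the certificates
    intro d hd0 hdN
    obtain ⟨v, hv⟩ := hvd d hdN
    obtain ⟨A, hA⟩ := hcert d v
    refine ⟨A, ?_⟩
    have hL := (thmA_hasQ_jd d).mul (thmA_hasQ_biv hJ hWu (derivative χ))
    have hR := thmA_hasQ_biv hJ hWu A
    refine hL.eq_of_eq hR fun τ => ?_
    rw [Pi.mul_apply, ← hA τ]
    congr 1
    rw [hv τ, wp4J]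
    have h1 := discriminant_ne_zero τ
    have h2 := discriminant_ne_zero (heckeDiagMatrix d • τ)
    field_simp

end Fermat.Agent.S28
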