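/-
S28 (Igusa): Theorem A, the `q`-expansion of Δ-quotients (helper78).
`HasQ (deltaQuot S m) (∏ δ ∈ S, deltaAt δ ^ m δ)` where `deltaAt δ = Δ(q^δ)` (formal, over `ℂ`).
-/
import Fermat.Agent.S28.ThmACore
import Fermat.Agent.S28.DeltaQuotDefs

set_option autoImplicit false

namespace Fermat.Agent.S28

open UpperHalfPlane ModularForm MatrixGroups Polynomial
open Fermat.Agent.S23 ModularCurve
open Fermat.Agent.S28.QExp

/-- The formal `Δ(q^δ)` over `ℂ`, made total in `δ` (value `1` for `δ = 0`). -/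
noncomputable def thmA_deltaAt (δ : ℕ) : LaurentSeries ℂ :=
  if h : δ = 0 then 1 else haveI : NeZero δ := ⟨h⟩; qExpand ℂ δ deltaC

lemma thmA_deltaAt_of_ne_zero (δ : ℕ) [NeZero δ] : thmA_deltaAt δ = qExpand ℂ δ deltaC := by
  unfold thmA_deltaAt
  rw [dif_neg (NeZero.ne δ)]

lemma thmA_deltaAt_one : thmA_deltaAt 1 = deltaC := by
  rw [thmA_deltaAt_of_ne_zero, qExpand_one_apply]

/-- `Δ(δτ)^e` has expansion `Δ(q^δ)^e`. -/
theorem thmA_hasQ_dDelta_zpow {δ : ℕ} (hδ : δ ≠ 0) (e : ℤ) :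
    HasQ (fun τ => dDelta δ τ ^ e) (thmA_deltaAt δ ^ e) := by
  have : NeZero δ := ⟨hδ⟩
  rw [thmA_deltaAt_of_ne_zero]
  exact (hasQ_discriminant_comp_zpow δ e).congr fun τ => by
    rw [dDelta, thmA_heckeDiag_smul]

/-- A Δ-quotient `∏_{δ ∈ S} Δ(δτ)^{m δ}` has expansion `∏_{δ ∈ S} Δ(q^δ)^{m δ}`. -/
theorem thmA_hasQ_deltaQuot (S : Finset ℕ) (m : ℕ → ℤ) (hS : ∀ δ ∈ S, δ ≠ 0) :
    HasQ (deltaQuot S m) (∏ δ ∈ S, thmA_deltaAt δ ^ m δ) := by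
  have h := HasQ.prod S (f := fun δ τ => dDelta δ τ ^ m δ) (s := fun δ => thmA_deltaAt δ ^ m δ)
    fun δ hδ => thmA_hasQ_dDelta_zpow (hS δ hδ) (m δ)
  refine h.congr fun τ => ?_
  simp [deltaQuot, Finset.prod_apply]

/-- `f / Δ^φ`. -/
theorem thmA_hasQ_div_discriminant_pow {f : ℍ → ℂ} {s : LaurentSeries ℂ} (hf : HasQ f s)
    (φ : ℕ) : HasQ (fun τ => f τ / discriminant τ ^ φ) (s * deltaInvC ^ φ) := by
  refine (hf.mul (hasQ_inv_discriminant.pow φ)).congr fun τ => ?_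
  simp [div_eq_mul_inv]

/-- The expansion of `W / Δ^φ` for a form `W` whose underlying function is a Δ-quotient. -/
theorem thmA_hasQ_unit (S : Finset ℕ) (m : ℕ → ℤ) (hS : ∀ δ ∈ S, δ ≠ 0) (φ : ℕ)
    {W : ℍ → ℂ} (hW : W = deltaQuot S m) :
    HasQ (fun τ => W τ / discriminant τ ^ φ)
      ((∏ δ ∈ S, thmA_deltaAt δ ^ m δ) * deltaInvC ^ φ) := by
  subst hW
  exact thmA_hasQ_div_discriminant_pow (thmA_hasQ_deltaQuot S m hS) φ

end Fermat.Agent.S28
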