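/-
S28 (Igusa): Theorem A, the formal unit `u` (helper78).
`u = (∏_{δ} Δ(q^δ)^{m_δ}) · Δ^{-φ} ∈ ℚ((q))`, `u = q^{E - φ}(1 + …)` with integer coefficients,
and `toC u` is the expansion of `w_N / Δ^φ`.
-/
import Fermat.Agent.S28.ThmAUnit
import Fermat.Agent.S28.UnitOrd

set_option autoImplicit false

namespace Fermat.Agent.S28

open Polynomial
open Fermat.Agent.S23 ModularCurve
open Fermat.Agent.S28.QExp

/-! ### Closure properties of `IsMonicUnitSeries` -/

lemma thmA_single_mul_single (a b : ℤ) :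
    (HahnSeries.single a (1 : ℚ) : LaurentSeries ℚ) * HahnSeries.single b 1 =
      HahnSeries.single (a + b) 1 := by
  rw [HahnSeries.single_mul_single, one_mul]

lemma thmA_single_zero_one : (HahnSeries.single (0 : ℤ) (1 : ℚ) : LaurentSeries ℚ) = 1 := rfl

lemma isMonicUnitSeries_one : IsMonicUnitSeries 1 0 :=
  ⟨1, by simp, by simp⟩

lemma IsMonicUnitSeries.mul {x y : LaurentSeries ℚ} {a b : ℤ} (hx : IsMonicUnitSeries x a)
    (hy : IsMonicUnitSeries y b) : IsMonicUnitSeries (x * y) (a + b) := by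
  obtain ⟨E, hE, rfl⟩ := hx
  obtain ⟨F, hF, rfl⟩ := hy
  refine ⟨E * F, by rw [map_mul, hE, hF, mul_one], ?_⟩
  rw [map_mul, map_mul, ← thmA_single_mul_single]
  ring

lemma IsMonicUnitSeries.inv {x : LaurentSeries ℚ} {a : ℤ} (hx : IsMonicUnitSeries x a) :
    IsMonicUnitSeries x⁻¹ (-a) := by
  obtain ⟨E, hE, rfl⟩ := hx
  refine ⟨E.invOfUnit 1, by rw [PowerSeries.constantCoeff_invOfUnit]; simp, ?_⟩
  refine inv_eq_of_mul_eq_one_right ?_
  have h1 : E * E.invOfUnit 1 = 1 := PowerSeries.mul_invOfUnit E 1 (by rw [hE]; rfl)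
  rw [mul_mul_mul_comm, thmA_single_mul_single, add_neg_cancel, ← map_mul, ← map_mul, h1,
    (PowerSeries.map (Int.castRingHom ℚ)).map_one, (HahnSeries.ofPowerSeries ℤ ℚ).map_one,
    mul_one]
  rfl

lemma IsMonicUnitSeries.pow {x : LaurentSeries ℚ} {a : ℤ} (hx : IsMonicUnitSeries x a) (n : ℕ) :
    IsMonicUnitSeries (x ^ n) (n * a) := by
  induction n with
  | zero => simpa using isMonicUnitSeries_one
  | succ n ih =>
    rw [pow_succ]
    have := ih.mul hx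
    convert this using 1
    push_cast
    ring

lemma IsMonicUnitSeries.zpow {x : LaurentSeries ℚ} {a : ℤ} (hx : IsMonicUnitSeries x a) (n : ℤ) :
    IsMonicUnitSeries (x ^ n) (n * a) := by
  obtain ⟨k, rfl | rfl⟩ := Int.eq_nat_or_neg n
  · rw [zpow_natCast]
    exact hx.pow k
  · rw [zpow_neg, zpow_natCast]
    have := (hx.pow k).inv
    convert this using 1
    ring

lemma IsMonicUnitSeries.prod {ι : Type*} (s : Finset ι) (x : ι → LaurentSeries ℚ) (a : ι → ℤ)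
    (h : ∀ i ∈ s, IsMonicUnitSeries (x i) (a i)) :
    IsMonicUnitSeries (∏ i ∈ s, x i) (∑ i ∈ s, a i) := by
  classical
  induction s using Finset.induction_on with
  | empty => simpa using isMonicUnitSeries_one
  | insert i s hi ih =>
    rw [Finset.prod_insert hi, Finset.sum_insert hi]
    exact (h i (Finset.mem_insert_self i s)).mul
      (ih fun j hj => h j (Finset.mem_insert_of_mem hj))

/-- The power series `E(X^d)` over `ℤ`. -/
noncomputable def thmA_psExpandZ (d : ℕ) (E : PowerSeries ℤ) : PowerSeries ℤ :=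
  PowerSeries.mk fun m => if d ∣ m then E.coeff (m / d) else 0

lemma thmA_constantCoeff_psExpandZ (d : ℕ) (E : PowerSeries ℤ) :
    PowerSeries.constantCoeff (thmA_psExpandZ d E) = PowerSeries.constantCoeff E := by
  rw [← PowerSeries.coeff_zero_eq_constantCoeff_apply, thmA_psExpandZ, PowerSeries.coeff_mk,
    if_pos (dvd_zero d), Nat.zero_div, PowerSeries.coeff_zero_eq_constantCoeff_apply]

lemma thmA_ofPowerSeries_psExpandZ (d : ℕ) [NeZero d] (E : PowerSeries ℤ) :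
    HahnSeries.ofPowerSeries ℤ ℚ ((thmA_psExpandZ d E).map (Int.castRingHom ℚ)) =
      qExpand ℚ d (HahnSeries.ofPowerSeries ℤ ℚ (E.map (Int.castRingHom ℚ))) := by
  ext k
  by_cases hk : (d : ℤ) ∣ k
  · obtain ⟨j, rfl⟩ := hk
    rw [qExpand_coeff_mul]
    rcases le_or_gt 0 j with hj | hj
    · lift j to ℕ using hj
      rw [show (d : ℤ) * (j : ℤ) = ((d * j : ℕ) : ℤ) by push_cast; rfl,
        HahnSeries.ofPowerSeries_apply_coeff, HahnSeries.ofPowerSeries_apply_coeff,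
        PowerSeries.coeff_map, PowerSeries.coeff_map, thmA_psExpandZ, PowerSeries.coeff_mk,
        if_pos (dvd_mul_right d j),
        Nat.mul_div_cancel_left _ (Nat.pos_of_ne_zero (NeZero.ne d))]
    · have hd : (0 : ℤ) < d := by exact_mod_cast Nat.pos_of_ne_zero (NeZero.ne d)
      rw [ofPowerSeries_coeff_of_neg _ (mul_neg_of_pos_of_neg hd hj),
        ofPowerSeries_coeff_of_neg _ hj]
  · rw [qExpand_coeff_of_not_dvd _ _ hk]
    rcases le_or_gt 0 k with hk0 | hk0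
    · lift k to ℕ using hk0
      rw [HahnSeries.ofPowerSeries_apply_coeff, PowerSeries.coeff_map, thmA_psExpandZ,
        PowerSeries.coeff_mk, if_neg, map_zero]
      exact fun h => hk (by exact_mod_cast h)
    · exact ofPowerSeries_coeff_of_neg _ hk0

lemma IsMonicUnitSeries.qExpand {x : LaurentSeries ℚ} {a : ℤ} (hx : IsMonicUnitSeries x a)
    (d : ℕ) [NeZero d] : IsMonicUnitSeries (qExpand ℚ d x) ((d : ℤ) * a) := by
  obtain ⟨E, hE, rfl⟩ := hx
  refine ⟨thmA_psExpandZ d E, by rw [thmA_constantCoeff_psExpandZ, hE], ?_⟩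
  rw [map_mul, qExpand_single, thmA_ofPowerSeries_psExpandZ]

/-! ### The formal `Δ` over `ℚ` -/

/-- The formal `Δ = q ∏ (1 - qⁿ)²⁴` over `ℚ`. -/
noncomputable def thmA_deltaQ : LaurentSeries ℚ :=
  HahnSeries.single (1 : ℤ) 1 *
    HahnSeries.ofPowerSeries ℤ ℚ (PowerSeries.map (Int.castRingHom ℚ) dedekindEtaUnit)

lemma isMonicUnitSeries_deltaQ : IsMonicUnitSeries thmA_deltaQ 1 :=
  ⟨dedekindEtaUnit, constantCoeff_dedekindEtaUnit, rfl⟩

lemma thmA_toC_deltaQ : toC thmA_deltaQ = deltaC := by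
  unfold thmA_deltaQ deltaC
  rw [map_mul]
  show coeffMap (algebraMap ℚ ℂ) _ * coeffMap (algebraMap ℚ ℂ) _ = _
  rw [coeffMap_single, map_one, coeffMap_ofPowerSeries,
    ← RingHom.comp_apply (PowerSeries.map (algebraMap ℚ ℂ)) (PowerSeries.map (Int.castRingHom ℚ)),
    ← PowerSeries.map_comp,
    RingHom.ext_int ((algebraMap ℚ ℂ).comp (Int.castRingHom ℚ)) (Int.castRingHom ℂ)]

/-- The formal `Δ(q^δ)` over `ℚ`, total in `δ`. -/
noncomputable def thmA_deltaAtQ (δ : ℕ) : LaurentSeries ℚ :=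
  if h : δ = 0 then 1 else haveI : NeZero δ := ⟨h⟩; qExpand ℚ δ thmA_deltaQ

lemma thmA_deltaAtQ_of_ne_zero (δ : ℕ) [NeZero δ] :
    thmA_deltaAtQ δ = qExpand ℚ δ thmA_deltaQ := by
  unfold thmA_deltaAtQ
  rw [dif_neg (NeZero.ne δ)]

lemma isMonicUnitSeries_deltaAtQ {δ : ℕ} (hδ : δ ≠ 0) :
    IsMonicUnitSeries (thmA_deltaAtQ δ) (δ : ℤ) := by
  have : NeZero δ := ⟨hδ⟩
  rw [thmA_deltaAtQ_of_ne_zero]
  simpa using isMonicUnitSeries_deltaQ.qExpand δ

lemma thmA_toC_deltaAtQ (δ : ℕ) : toC (thmA_deltaAtQ δ) = thmA_deltaAt δ := by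
  by_cases hδ : δ = 0
  · subst hδ
    simp [thmA_deltaAtQ, thmA_deltaAt]
  · have : NeZero δ := ⟨hδ⟩
    rw [thmA_deltaAtQ_of_ne_zero, thmA_deltaAt_of_ne_zero]
    show coeffMap (algebraMap ℚ ℂ) (qExpand ℚ δ thmA_deltaQ) = _
    rw [coeffMap_qExpand]
    congr 1
    exact thmA_toC_deltaQ

/-! ### The formal unit -/

/-- The formal Δ-quotient `(∏_{δ ∈ S} Δ(q^δ)^{m δ}) · Δ^{-φ}` over `ℚ`. -/
noncomputable def thmA_formalQuot (S : Finset ℕ) (m : ℕ → ℤ) (φ : ℕ) : LaurentSeries ℚ :=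
  (∏ δ ∈ S, thmA_deltaAtQ δ ^ m δ) * (thmA_deltaQ⁻¹) ^ φ

lemma thmA_toC_formalQuot (S : Finset ℕ) (m : ℕ → ℤ) (φ : ℕ) :
    toC (thmA_formalQuot S m φ) = (∏ δ ∈ S, thmA_deltaAt δ ^ m δ) * deltaInvC ^ φ := by
  unfold thmA_formalQuot
  rw [map_mul, map_prod, map_pow, map_inv₀, thmA_toC_deltaQ, deltaInvC_eq_inv]
  congr 1
  refine Finset.prod_congr rfl fun δ _ => ?_
  rw [map_zpow₀, thmA_toC_deltaAtQ]

lemma isMonicUnitSeries_formalQuot (S : Finset ℕ) (m : ℕ → ℤ) (φ : ℕ) (hS : ∀ δ ∈ S, δ ≠ 0) :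
    IsMonicUnitSeries (thmA_formalQuot S m φ) ((∑ δ ∈ S, m δ * (δ : ℤ)) - φ) := by
  unfold thmA_formalQuot
  have h1 := IsMonicUnitSeries.prod S (fun δ => thmA_deltaAtQ δ ^ m δ) (fun δ => m δ * (δ : ℤ))
    fun δ hδ => (isMonicUnitSeries_deltaAtQ (hS δ hδ)).zpow (m δ)
  have h2 := (isMonicUnitSeries_deltaQ.inv).pow φ
  have := h1.mul h2
  convert this using 1
  ring

/-- The formal canonical unit `u_N`. -/
noncomputable def thmA_formalU (N : ℕ) : LaurentSeries ℚ :=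
  thmA_formalQuot (unitSet N) (unitM N) (unitPhi N)

lemma isMonicUnitSeries_formalU (N : ℕ) (hN : N ≠ 0) :
    IsMonicUnitSeries (thmA_formalU N) (unitE N - unitPhi N) :=
  isMonicUnitSeries_formalQuot _ _ _ fun _ hδ => wp3b_ne_zero_of_mem_unitSet hN hδ

end Fermat.Agent.S28
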