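import Mathlib
import Fermat.Agent.S23.ThetaDef

/-!
# S28, WP3b (helper31): a level-one modular form without zeros is a constant times a power of `Δ`
-/

set_option autoImplicit false

namespace Fermat.Agent.S28

open UpperHalfPlane ModularForm MatrixGroups Filter Topology OnePoint SlashInvariantForm
open scoped Manifold

/-- The inverse of a nowhere vanishing level-one modular form with non-zero constant term,
as a modular form of weight `-k`. -/
noncomputable def wp3bInvForm {k : ℤ} (f : ModularForm 𝒮ℒ k) (hf : ∀ τ, f τ ≠ 0)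
    (h0 : (qExpansion 1 f).coeff 0 ≠ 0) : ModularForm 𝒮ℒ (0 - k) where
  toFun := (1 : ℍ → ℂ) / ⇑f
  slash_action_eq' := by
    rintro _ ⟨γ, rfl⟩
    have hγ : (γ : GL (Fin 2) ℝ) ∈ 𝒮ℒ := ⟨γ, rfl⟩
    have h1 := div_slash_SL2 0 k γ (1 : ℍ → ℂ) ⇑f
    rw [SL_slash] at h1
    rw [show (Matrix.SpecialLinearGroup.mapGL ℝ) γ = (γ : GL (Fin 2) ℝ) from rfl, h1]
    congr 1
    · rw [SL_slash]; exact ModularForm.is_invariant_one γ
    · rw [SL_slash]; exact slash_action_eqn f _ hγ
  holo' := by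
    have h1 : MDifferentiable 𝓘(ℂ) 𝓘(ℂ) (1 : ℍ → ℂ) := mdifferentiable_const
    exact h1.div f.holo' hf
  bdd_at_cusps' {c} hc := by
    rw [Subgroup.IsArithmetic.isCusp_iff_isCusp_SL2Z] at hc
    rw [isBoundedAt_iff_forall_SL2Z hc]
    intro γ _
    have hγ : (γ : GL (Fin 2) ℝ) ∈ 𝒮ℒ := ⟨γ, rfl⟩
    have h1 := div_slash_SL2 0 k γ (1 : ℍ → ℂ) ⇑f
    have h2 : ((1 : ℍ → ℂ) / ⇑f) ∣[0 - k] γ = (1 : ℍ → ℂ) / ⇑f := by
      rw [h1]
      congr 1
      · exact ModularForm.is_invariant_one γ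
      · rw [SL_slash]; exact slash_action_eqn f _ hγ
    rw [h2, IsBoundedAtImInfty, BoundedAtFilter]
    have h3 := Fermat.Agent.S23.Theta.tendsto_atImInfty_coeff_zero f one_mem_strictPeriods_SL
    have h4 : Tendsto ((1 : ℍ → ℂ) / ⇑f) atImInfty (𝓝 (1 / (qExpansion 1 f).coeff 0)) :=
      Tendsto.div tendsto_const_nhds h3 h0
    exact h4.isBigO_one ℝ

/-- A nowhere vanishing level-one modular form of positive weight is a cusp form. -/
theorem wp3b_coeff_zero_eq_zero {k : ℤ} (hk : 0 < k) (f : ModularForm 𝒮ℒ k)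
    (hf : ∀ τ, f τ ≠ 0) : (qExpansion 1 f).coeff 0 = 0 := by
  by_contra h0
  have h1 : ⇑(wp3bInvForm f hf h0) = 0 :=
    ModularFormClass.levelOne_neg_weight_eq_zero (by omega) (wp3bInvForm f hf h0)
  have h2 := congrFun h1 UpperHalfPlane.I
  change (1 : ℂ) / f UpperHalfPlane.I = 0 at h2
  exact one_div_ne_zero (hf _) h2

/-- A level-one modular form of weight `12 m` without zeros on `ℍ` is `C · Δ^m`. -/
theorem wp3b_eq_const_mul_discriminant_pow (m : ℕ) :
    ∀ (k : ℤ), k = 12 * (m : ℤ) → ∀ f : ModularForm 𝒮ℒ k, (∀ τ, f τ ≠ 0) →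
      ∃ C : ℂ, C ≠ 0 ∧ ∀ τ, f τ = C * discriminant τ ^ m := by
  induction m with
  | zero =>
    intro k hk f hf
    have hk0 : k = 0 := by simpa using hk
    subst hk0
    obtain ⟨c, hc⟩ := ModularFormClass.levelOne_weight_zero_const f
    refine ⟨c, ?_, fun τ => ?_⟩
    · have := hf UpperHalfPlane.I
      rwa [hc] at this
    · rw [hc]; simp
  | succ m ih =>
    intro k hk f hf
    have hkpos : 0 < k := by rw [hk]; positivity
    have hcusp := wp3b_coeff_zero_eq_zero hkpos f hf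
    set g : ModularForm 𝒮ℒ (k - 12) := CuspForm.discriminantEquiv (toCuspForm f hcusp) with hg
    have hgz : ∀ τ, g τ = f τ / discriminant τ := fun τ => by
      rw [hg, CuspForm.discriminantEquiv_apply, toCuspForm_apply]
    have hg0 : ∀ τ, g τ ≠ 0 := fun τ => by
      rw [hgz]; exact div_ne_zero (hf τ) (discriminant_ne_zero τ)
    obtain ⟨C, hC, hCg⟩ := ih (k - 12) (by rw [hk]; push_cast; ring) g hg0
    refine ⟨C, hC, fun τ => ?_⟩
    have h1 := hCg τ
    rw [hgz, div_eq_iff (discriminant_ne_zero τ)] at h1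
    rw [h1, pow_succ]; ring

end Fermat.Agent.S28
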