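import Fermat.Agent.S28.DeltaQuotMF
import Fermat.Agent.S28.UnitOrd
import Fermat.Agent.S28.LevelOneUnit
import Fermat.Agent.S23.Esymm

/-!
# S28, WP3b (helper31): the canonical modular unit `w_N` on `Γ₀(N)`

* `wN N : ModularForm (G0 N) (12 · φ(rad N))`, `wN N τ = ∏_δ Δ(δ τ)^{m δ}`, nowhere zero;
* `exists_SL_of_coset` : each translate `quotientFunc (wN N) q` is `w_N ∣ γ`, and `q = 1 ↔ N ∣ γ 1 0`;
* `unit_main` : `∏_q quotientFunc (wN N) q = C · Δ^{φ n}` with `‖C‖` an `N`-unit, and `E = φ · n`.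
-/

set_option autoImplicit false

namespace Fermat.Agent.S28

open UpperHalfPlane hiding I
open ModularForm Filter Complex MatrixGroups Topology SlashInvariantForm
open scoped Real

/-- The canonical modular unit `w_N(τ) = ∏_δ Δ(δ τ)^{m δ}` as a function. -/
noncomputable def wNFun (N : ℕ) : ℍ → ℂ := deltaQuot (unitSet N) (unitM N)

lemma wNFun_ne_zero (N : ℕ) (τ : ℍ) : wNFun N τ ≠ 0 := deltaQuot_ne_zero _ _ τ

theorem isMF_wNFun (N : ℕ) [NeZero N] :
    S23.IsMF (S23.G0 N) (12 * (unitPhi N : ℤ)) (wNFun N) := by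
  have h := isMF_deltaQuot_of_nonneg N (unitSet N) (fun δ hδ => wp3b_dvd_of_mem_unitSet hδ) (unitM N)
    (deltaQuotOrd_unit_nonneg N (NeZero.ne N))
  rwa [deltaQuotWeight_unit N (NeZero.ne N)] at h

/-- The canonical modular unit as a modular form of weight `12 φ(rad N)` on `Γ₀(N)`. -/
noncomputable def wN (N : ℕ) [NeZero N] : ModularForm (S23.G0 N) (12 * (unitPhi N : ℤ)) :=
  (isMF_wNFun N).choose

theorem coe_wN (N : ℕ) [NeZero N] : ⇑(wN N) = wNFun N := (isMF_wNFun N).choose_spec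

theorem wN_ne_zero (N : ℕ) [NeZero N] (τ : ℍ) : wN N τ ≠ 0 := by
  rw [coe_wN]; exact wNFun_ne_zero N τ

/-- Membership in `Γ₀(N)` (as a subgroup of `GL(2,ℝ)`) of the image of `γ ∈ SL(2,ℤ)`. -/
lemma mapGL_mem_G0_iff (N : ℕ) (γ : SL(2, ℤ)) :
    (Matrix.SpecialLinearGroup.mapGL ℝ γ : GL (Fin 2) ℝ) ∈ S23.G0 N ↔ (N : ℤ) ∣ γ 1 0 := by
  rw [S23.G0, Subgroup.mem_map]
  constructor
  · rintro ⟨g, hg, hgγ⟩
    have : g = γ := Matrix.SpecialLinearGroup.mapGL_injective hgγ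
    subst this
    rw [CongruenceSubgroup.Gamma0_mem] at hg
    exact (ZMod.intCast_zmod_eq_zero_iff_dvd _ N).mp hg
  · intro h
    refine ⟨γ, ?_, rfl⟩
    rw [CongruenceSubgroup.Gamma0_mem]
    exact (ZMod.intCast_zmod_eq_zero_iff_dvd _ N).mpr h

/-- Every translate of `w_N` is `w_N ∣ γ` for some `γ ∈ SL(2,ℤ)`; the trivial coset corresponds
to `N ∣ γ 1 0`. -/
theorem exists_SL_of_coset (N : ℕ) [NeZero N] (q : S23.EsymmQ N) :
    ∃ γ : SL(2, ℤ), quotientFunc (wN N) q = wNFun N ∣[12 * (unitPhi N : ℤ)] γ ∧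
      (q = QuotientGroup.mk 1 ↔ (N : ℤ) ∣ γ 1 0) := by
  induction q using Quotient.inductionOn with
  | h r =>
    obtain ⟨γ, hγ⟩ := (r⁻¹).2
    refine ⟨γ, ?_, ?_⟩
    · rw [quotientFunc_mk, coe_wN, SL_slash]
      congr 1
      rw [← Subgroup.coe_inv]
      exact hγ.symm
    · have h1 : (Quotient.mk _ r : S23.EsymmQ N) = QuotientGroup.mk r := rfl
      rw [h1, QuotientGroup.eq, Subgroup.mem_subgroupOf, ← mapGL_mem_G0_iff, hγ]
      simp

/-- The norm of the limit in `(G1)` is an `N`-unit. -/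
lemma isNUnit_prod_wp1E (N : ℕ) (hN : N ≠ 0) (γ : SL(2, ℤ)) :
    IsNUnit N (∏ δ ∈ unitSet N, ((wp1E δ γ : ℝ) ^ (12 * unitM N δ))⁻¹) := by
  refine isNUnit_prod _ _ fun δ hδ => ?_
  have h1 : wp1E δ γ ∣ N :=
    (Dvd.intro_left _ (wp1G_mul_wp1E δ γ)).trans (wp3b_dvd_of_mem_unitSet hδ)
  exact ((isNUnit_natCast hN h1).zpow _).inv

/-- The exponent of `q(τ)` in the leading term of the translate indexed by `q`. -/
noncomputable def cosetOrd (N : ℕ) [NeZero N] (q : S23.EsymmQ N) : ℝ :=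
  open Classical in if q = QuotientGroup.mk 1 then (unitE N : ℝ) else 0

/-- Asymptotics of the translates of `w_N`. -/
theorem exists_tendsto_quotientFunc (N : ℕ) [NeZero N] (q : S23.EsymmQ N) :
    ∃ κ : ℂ, IsNUnit N ‖κ‖ ∧
      Tendsto (fun τ : ℍ => quotientFunc (wN N) q τ *
        cexp (-(2 * π * I * (cosetOrd N q : ℂ) * (τ : ℂ)))) atImInfty (𝓝 κ) := by
  have hN : N ≠ 0 := NeZero.ne N
  obtain ⟨γ, hγ, hq⟩ := exists_SL_of_coset N q
  obtain ⟨κ, hκ, hlim⟩ := exists_tendsto_deltaQuot_slash (unitSet N)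
    (fun δ hδ => wp3b_ne_zero_of_mem_unitSet hN hδ) (unitM N) γ
  refine ⟨κ, hκ ▸ isNUnit_prod_wp1E N hN γ, ?_⟩
  rw [deltaQuotWeight_unit N hN] at hlim
  have hord : deltaQuotOrd (unitSet N) (unitM N) γ = cosetOrd N q := by
    unfold cosetOrd
    by_cases h : (N : ℤ) ∣ γ 1 0
    · rw [if_pos (hq.mpr h), deltaQuotOrd_unit_of_dvd N hN γ h]
    · rw [if_neg (fun h' => h (hq.mp h')), deltaQuotOrd_unit_of_not_dvd N hN γ h]
  rw [hord] at hlim
  rw [hγ]
  exact hlim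

/-- Asymptotics of the product of all translates of `w_N`. -/
theorem exists_tendsto_prod_quotientFunc (N : ℕ) [NeZero N] [Fintype (S23.EsymmQ N)] :
    ∃ κ : ℂ, IsNUnit N ‖κ‖ ∧
      Tendsto (fun τ : ℍ => (∏ q : S23.EsymmQ N, quotientFunc (wN N) q τ) *
        cexp (-(2 * π * I * (unitE N : ℂ) * (τ : ℂ)))) atImInfty (𝓝 κ) := by
  classical
  choose κ hκ hlim using exists_tendsto_quotientFunc N
  refine ⟨∏ q, κ q, ?_, ?_⟩
  · rw [norm_prod]
    exact isNUnit_prod _ _ fun q _ => hκ q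
  · have h1 := tendsto_finsetProd (Finset.univ : Finset (S23.EsymmQ N)) fun q _ => hlim q
    refine h1.congr fun τ => ?_
    rw [Finset.prod_mul_distrib]
    congr 1
    rw [Finset.prod_eq_single (QuotientGroup.mk 1 : S23.EsymmQ N)]
    · simp [cosetOrd]
    · intro q _ hq
      simp [cosetOrd, hq]
    · intro h; exact absurd (Finset.mem_univ _) h

lemma wp3b_tendsto_im : Tendsto (fun τ : ℍ => τ.im) atImInfty atTop := tendsto_comap

/-- `exp(a · Im τ)` has a finite non-zero limit at `i∞` only if `a = 0`. -/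
lemma wp3b_exp_im_limit {a L : ℝ} (hL : L ≠ 0)
    (h : Tendsto (fun τ : ℍ => Real.exp (a * τ.im)) atImInfty (𝓝 L)) : a = 0 := by
  rcases lt_trichotomy a 0 with ha | ha | ha
  · exfalso
    have h1 : Tendsto (fun τ : ℍ => a * τ.im) atImInfty atBot :=
      (tendsto_const_mul_atBot_of_neg ha).mpr wp3b_tendsto_im
    have h2 : Tendsto (fun τ : ℍ => Real.exp (a * τ.im)) atImInfty (𝓝 0) :=
      Real.tendsto_exp_atBot.comp h1
    exact hL (tendsto_nhds_unique h h2)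
  · exact ha
  · exfalso
    have h1 : Tendsto (fun τ : ℍ => a * τ.im) atImInfty atTop :=
      (tendsto_const_mul_atTop_of_pos ha).mpr wp3b_tendsto_im
    have h2 : Tendsto (fun τ : ℍ => Real.exp (a * τ.im)) atImInfty atTop :=
      Real.tendsto_exp_atTop.comp h1
    exact not_tendsto_nhds_of_tendsto_atTop h2 L h

/-- Exponent matching: if `C Δ^M e^{-2πi E τ}` has a non-zero limit `κ` at `i∞`, then `E = M` and
`C = κ`. -/
lemma wp3b_exp_match {C κ : ℂ} (hC : C ≠ 0) (hκ : κ ≠ 0) (M : ℕ) (E : ℤ)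
    (h : Tendsto (fun τ : ℍ => C * discriminant τ ^ M *
      cexp (-(2 * π * I * (E : ℂ) * (τ : ℂ)))) atImInfty (𝓝 κ)) :
    E = (M : ℤ) ∧ C = κ := by
  have hq : ∀ τ : ℍ, Function.Periodic.qParam 1 (τ : ℂ) = cexp (2 * π * I * (τ : ℂ)) := by
    intro τ; simp [Function.Periodic.qParam]
  -- `g = Δ / q → 1`
  have hg : Tendsto (fun τ : ℍ => C * (discriminant τ / Function.Periodic.qParam 1 (τ : ℂ)) ^ M)
      atImInfty (𝓝 C) := by
    have := (tendsto_discriminant_div_qParam.pow M).const_mul C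
    simpa using this
  have hquot : Tendsto (fun τ : ℍ => cexp (2 * π * I * (((M : ℤ) - E : ℤ) : ℂ) * (τ : ℂ)))
      atImInfty (𝓝 (κ / C)) := by
    refine (h.div hg hC).congr fun τ => ?_
    simp only [Pi.div_apply]
    have hq0 : Function.Periodic.qParam 1 (τ : ℂ) ≠ 0 := wp2_qParam_one_ne_zero τ
    have hd0 : discriminant τ ≠ 0 := discriminant_ne_zero τ
    rw [div_pow, hq τ, ← Complex.exp_nat_mul]
    rw [div_eq_iff (mul_ne_zero hC (div_ne_zero (pow_ne_zero M hd0) (Complex.exp_ne_zero _)))]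
    rw [show cexp (2 * π * I * (((M : ℤ) - E : ℤ) : ℂ) * (τ : ℂ)) *
        (C * (discriminant τ ^ M / cexp ((M : ℂ) * (2 * π * I * (τ : ℂ))))) =
        C * discriminant τ ^ M * (cexp (2 * π * I * (((M : ℤ) - E : ℤ) : ℂ) * (τ : ℂ)) /
          cexp ((M : ℂ) * (2 * π * I * (τ : ℂ)))) by ring]
    rw [← Complex.exp_sub]
    congr 2
    push_cast
    ring
  have hnorm : Tendsto (fun τ : ℍ => Real.exp ((-(2 * π * (((M : ℤ) - E : ℤ) : ℝ))) * τ.im))
      atImInfty (𝓝 ‖κ / C‖) := by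
    refine (hquot.norm).congr fun τ => ?_
    rw [Complex.norm_exp]
    congr 1
    simp
  have hD : -(2 * π * (((M : ℤ) - E : ℤ) : ℝ)) = 0 :=
    wp3b_exp_im_limit (norm_ne_zero_iff.mpr (div_ne_zero hκ hC)) hnorm
  have hD' : ((M : ℤ) - E : ℤ) = 0 := by
    have h1 : (((M : ℤ) - E : ℤ) : ℝ) = 0 := by
      have hpi : (2 * π : ℝ) ≠ 0 := by positivity
      have := neg_eq_zero.mp hD
      exact (mul_eq_zero.mp this).resolve_left hpi
    exact_mod_cast h1
  refine ⟨by omega, ?_⟩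
  rw [hD'] at hquot
  simp only [Int.cast_zero, mul_zero, zero_mul, Complex.exp_zero] at hquot
  have h1 : (1 : ℂ) = κ / C := tendsto_nhds_unique tendsto_const_nhds hquot
  rw [eq_div_iff hC, one_mul] at h1
  exact h1


/-- Each translate of `w_N` is nowhere zero. -/
lemma quotientFunc_wN_ne_zero (N : ℕ) [NeZero N] (q : S23.EsymmQ N) (τ : ℍ) :
    quotientFunc (wN N) q τ ≠ 0 := by
  obtain ⟨γ, hγ, -⟩ := exists_SL_of_coset N q
  rw [hγ, SL_slash_apply]
  exact mul_ne_zero (wNFun_ne_zero N _) (zpow_ne_zero _ (denom_ne_zero _ _))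

/-- **Main theorem on the canonical unit**: the product of all `SL(2,ℤ)`-translates of `w_N` is
`C · Δ^{φ n}` with `‖C‖` an `N`-unit, and the order `E = Σ_δ m_δ δ` of `w_N` at `i∞` is `φ · n`
(`n = [SL(2,ℤ) : Γ₀(N)]`, `φ = φ(rad N)`). -/
theorem unit_main (N : ℕ) [NeZero N] [Fintype (S23.EsymmQ N)] :
    unitE N = (unitPhi N : ℤ) * (Fintype.card (S23.EsymmQ N) : ℤ) ∧
    ∃ C : ℂ, IsNUnit N ‖C‖ ∧ ∀ τ : ℍ,
      ∏ q : S23.EsymmQ N, quotientFunc (wN N) q τ =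
        C * discriminant τ ^ (unitPhi N * Fintype.card (S23.EsymmQ N)) := by
  classical
  set n := Fintype.card (S23.EsymmQ N) with hn
  -- the norm form
  set F : ModularForm 𝒮ℒ (12 * (unitPhi N : ℤ) * Nat.card (S23.EsymmQ N)) :=
    ModularForm.norm 𝒮ℒ (wN N) with hF
  have hFcoe : ∀ τ, F τ = ∏ q : S23.EsymmQ N, quotientFunc (wN N) q τ := by
    intro τ
    rw [hF, ModularForm.coe_norm, Finset.prod_apply]
    refine Finset.prod_congr ?_ fun _ _ => rfl
    ext q; simp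
  have hF0 : ∀ τ, F τ ≠ 0 := fun τ => by
    rw [hFcoe]
    exact Finset.prod_ne_zero_iff.mpr fun q _ => quotientFunc_wN_ne_zero N q τ
  have hk : (12 * (unitPhi N : ℤ) * Nat.card (S23.EsymmQ N) : ℤ) =
      12 * ((unitPhi N * n : ℕ) : ℤ) := by
    rw [Nat.card_eq_fintype_card]; push_cast; ring
  obtain ⟨C, hC, hCF⟩ := wp3b_eq_const_mul_discriminant_pow (unitPhi N * n) _ hk F hF0
  obtain ⟨κ, hκ, hlim⟩ := exists_tendsto_prod_quotientFunc N
  have hκ0 : κ ≠ 0 := norm_ne_zero_iff.mp hκ.pos.ne'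
  have hlim' : Tendsto (fun τ : ℍ => C * discriminant τ ^ (unitPhi N * n) *
      cexp (-(2 * π * I * (unitE N : ℂ) * (τ : ℂ)))) atImInfty (𝓝 κ) := by
    refine hlim.congr fun τ => ?_
    rw [← hFcoe, hCF]
  obtain ⟨hE, hCκ⟩ := wp3b_exp_match hC hκ0 (unitPhi N * n) (unitE N) hlim'
  refine ⟨by rw [hE]; push_cast; ring, C, hCκ ▸ hκ, fun τ => ?_⟩
  rw [← hFcoe, hCF]

end Fermat.Agent.S28
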