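import Fermat.Agent.S28.DeltaQuotMF
import Fermat.Agent.S23.ThetaDef

/-!
# S28, WP3b (helper31): the forms `v_d = E₄(dτ)³ Δ(τ)^d / Δ(dτ)` on `Γ₀(N)`, `d ∣ N`

`j(dτ) = v_d / Δ^d`, so `v_d` is the numerator of `j_d` with denominator a power of `Δ`.
-/

set_option autoImplicit false

namespace Fermat.Agent.S28

open UpperHalfPlane hiding I
open ModularForm Filter Complex MatrixGroups Topology SlashInvariantForm
open scoped Real

/-- The index set `{1, d}` of the Δ-quotient `Δ(τ)^d / Δ(dτ)`. -/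
def vdSet (d : ℕ) : Finset ℕ := {1, d}

/-- The exponents of the Δ-quotient `Δ(τ)^d / Δ(dτ)`. -/
def vdM (d : ℕ) (δ : ℕ) : ℤ := (if δ = 1 then (d : ℤ) else 0) + (if δ = d then -1 else 0)

lemma heckeDiagMatrix_one_smul (τ : ℍ) : heckeDiagMatrix 1 • τ = τ := by
  have : heckeDiagMatrix 1 = 1 := by
    apply Matrix.GeneralLinearGroup.ext
    intro i j
    fin_cases i <;> fin_cases j <;> simp
  rw [this, one_smul]

lemma dDelta_one (τ : ℍ) : dDelta 1 τ = discriminant τ := by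
  rw [dDelta, heckeDiagMatrix_one_smul]

lemma deltaQuotWeight_vd (d : ℕ) : deltaQuotWeight (vdSet d) (vdM d) = 12 * ((d : ℤ) - 1) := by
  unfold deltaQuotWeight vdSet vdM
  by_cases hd : d = 1
  · subst hd; simp
  · rw [Finset.sum_pair (Ne.symm hd)]
    simp [hd, Ne.symm hd]
    ring

lemma deltaQuot_vd (d : ℕ) (τ : ℍ) :
    deltaQuot (vdSet d) (vdM d) τ = discriminant τ ^ d / dDelta d τ := by
  unfold deltaQuot vdSet vdM
  by_cases hd : d = 1
  · subst hd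
    simp [dDelta_one, discriminant_ne_zero]
  · rw [Finset.prod_pair (Ne.symm hd)]
    simp [hd, Ne.symm hd, dDelta_one, div_eq_mul_inv]

lemma deltaQuotOrd_vd_nonneg (d : ℕ) (hd0 : d ≠ 0) (γ : SL(2, ℤ)) :
    0 ≤ deltaQuotOrd (vdSet d) (vdM d) γ := by
  unfold deltaQuotOrd vdSet vdM
  by_cases hd : d = 1
  · subst hd; simp
  · rw [Finset.sum_pair (Ne.symm hd)]
    have hG1 : wp1G 1 γ = 1 := Nat.dvd_one.mp (wp1G_dvd 1 γ)
    have hGd : (wp1G d γ : ℝ) ≤ d := by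
      exact_mod_cast Nat.le_of_dvd (Nat.pos_of_ne_zero hd0) (wp1G_dvd d γ)
    have hGd0 : (0 : ℝ) ≤ wp1G d γ := by positivity
    have hdpos : (0 : ℝ) < d := by exact_mod_cast Nat.pos_of_ne_zero hd0
    simp only [hd, Ne.symm hd, if_true, if_false, hG1]
    have h1 : (wp1G d γ : ℝ) ^ 2 / d ≤ d := by
      rw [div_le_iff₀ hdpos]; nlinarith
    push_cast
    simp only [add_zero, one_pow, div_one, mul_one]
    linarith

/-- `Δ(τ)^d / Δ(dτ)` is a modular form of weight `12 (d - 1)` on `Γ₀(N)` for `d ∣ N`. -/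
theorem isMF_vdQuot (N d : ℕ) [NeZero N] (hd : d ∣ N) :
    S23.IsMF (S23.G0 N) (12 * ((d : ℤ) - 1)) (fun τ => discriminant τ ^ d / dDelta d τ) := by
  have hd0 : d ≠ 0 := fun h => NeZero.ne N (by rw [h] at hd; exact Nat.eq_zero_of_zero_dvd hd)
  have h := isMF_deltaQuot_of_nonneg N (vdSet d) (fun δ hδ => by
    rcases Finset.mem_insert.mp hδ with h | h
    · rw [h]; exact one_dvd N
    · rw [Finset.mem_singleton.mp h]; exact hd) (vdM d) (deltaQuotOrd_vd_nonneg d hd0)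
  rw [deltaQuotWeight_vd] at h
  convert h using 1
  funext τ
  exact (deltaQuot_vd d τ).symm

/-- `τ ↦ E₄(dτ)` as a modular form of weight `4` on `Γ₀(N)`, `d ∣ N`. -/
noncomputable def thetaAt (N d : ℕ) [NeZero N] [NeZero d] (hd : d ∣ N) :
    ModularForm (S23.G0 N) 4 where
  toFun := ⇑(S23.Theta.theta d)
  slash_action_eq' γ hγ := (S23.Theta.theta d).slash_action_eq' γ (wp3b_G0_le_of_dvd hd hγ)
  holo' := (S23.Theta.theta d).holo'
  bdd_at_cusps' hc := (S23.Theta.theta d).bdd_at_cusps' (hc.mono (wp3b_G0_le_of_dvd hd))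

lemma thetaAt_apply (N d : ℕ) [NeZero N] [NeZero d] (hd : d ∣ N) (τ : ℍ) :
    thetaAt N d hd τ = E₄ (heckeDiagMatrix d • τ) :=
  S23.Theta.theta_apply d τ

/-- The form `v_d(τ) = E₄(dτ)³ Δ(τ)^d / Δ(dτ)` of weight `12 d` on `Γ₀(N)`, `d ∣ N`. -/
theorem exists_vd (N d : ℕ) [NeZero N] (hd : d ∣ N) :
    ∃ v : ModularForm (S23.G0 N) (12 * (d : ℤ)), ∀ τ : ℍ,
      v τ = E₄ (heckeDiagMatrix d • τ) ^ 3 * discriminant τ ^ d /
        discriminant (heckeDiagMatrix d • τ) := by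
  have hd0 : d ≠ 0 := fun h => NeZero.ne N (by rw [h] at hd; exact Nat.eq_zero_of_zero_dvd hd)
  have : NeZero d := ⟨hd0⟩
  obtain ⟨Q, hQ⟩ := isMF_vdQuot N d hd
  set θ := thetaAt N d hd
  refine ⟨ModularForm.mcast (by ring) (((θ.mul θ).mul θ).mul Q), fun τ => ?_⟩
  change θ τ * θ τ * θ τ * Q τ = _
  rw [hQ, thetaAt_apply]
  simp only [dDelta]
  ring

end Fermat.Agent.S28
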