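/-
S28 (Igusa): **Theorem A** (helper78): `thmA N : ThmAStatement N`.
Assembly of: the canonical unit `w_N` and the forms `v_d` (helper31, `UnitMain`, `UnitVd`),
the `q`-expansion calculus `HasQ` (helper94, `QExp`), the function-level certificate
(`Certificate`), the formal unit (`ThmAFormal`) and the core assembly (`ThmACore`).
-/
import Fermat.Agent.S28.ThmAFormal
import Fermat.Agent.S28.UnitMain
import Fermat.Agent.S28.UnitVd

set_option autoImplicit false

namespace Fermat.Agent.S28

open UpperHalfPlane ModularForm MatrixGroups Polynomial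
open Fermat.Agent.S23 ModularCurve
open Fermat.Agent.S28.QExp

/-- **Theorem A.** -/
theorem thmA (N : ℕ) [NeZero N] : ThmAStatement N := by
  have hN : N ≠ 0 := NeZero.ne N
  obtain ⟨hE, hmain⟩ := @unit_main N _ (instFintypeQ (N := N))
  refine thmA_of_inputs N (unitPhi N) (unitPhi_pos N) (wN N) (thmA_formalU N) ?_ ?_ hmain
    (fun d hd => exists_vd N d hd)
  · have h := isMonicUnitSeries_formalU N hN
    have hn : 0 < Fintype.card (Q N) := card_Q_pos
    have e : unitE N - (unitPhi N : ℤ) = ((unitPhi N * (Fintype.card (Q N) - 1) : ℕ) : ℤ) := by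
      rw [hE, Nat.cast_mul, Nat.cast_sub hn]
      push_cast
      ring
    rwa [e] at h
  · rw [thmA_formalU, thmA_toC_formalQuot]
    exact thmA_hasQ_unit (unitSet N) (unitM N)
      (fun δ hδ => wp3b_ne_zero_of_mem_unitSet hN hδ) (unitPhi N) (coe_wN N)

end Fermat.Agent.S28
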