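import Mathlib
import Fermat.Prelude.Def_ModularCurve_JqCoeff
import Fermat.Prelude.Def_ModularCurve_LaurentCoeff
import Fermat.Prelude.Thm_ModularCurve_coeffMap_qExpand
import Fermat.Agent.S28.OrderLemma
import Fermat.Agent.S28.UnitArith
import Fermat.Agent.S28.IntOver

/-!
# S28, WP10 (helper48): the formal modular unit

Pure formal Laurent series.  `wp10_mk R a E = q^a · E` for `E ∈ ℤ⟦q⟧`; a *monic unit* of exponent
`a` is a series `q^a · E` with `E(0) = 1`.  Monic units are closed under products, integer powers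
(over a field), `qExpand` and change of coefficients.

The formal unit is
`u = (∏ δ ∈ unitSet N, Δ(q^δ)^(unitM N δ)) · Δ^(-unitPhi N)`
(indexed exactly as in `UnitArith.lean`); it is a monic unit of exponent
`∑ δ, unitM N δ · δ - unitPhi N`, given by one explicit `wp10_formalE N ∈ ℤ⟦q⟧` over every field.
-/

set_option autoImplicit false

open HahnSeries ModularCurve

noncomputable section

namespace Fermat.Agent.S28

variable (R : Type*) [CommRing R]

/-- The Laurent series `q^a · E` over `R`, for `E ∈ ℤ⟦q⟧`. -/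
def wp10_mk (a : ℤ) (E : PowerSeries ℤ) : LaurentSeries R :=
  HahnSeries.single a (1 : R) * HahnSeries.ofPowerSeries ℤ R (E.map (Int.castRingHom R))

variable {R}

theorem wp10_mk_mul (a b : ℤ) (E E' : PowerSeries ℤ) :
    wp10_mk R a E * wp10_mk R b E' = wp10_mk R (a + b) (E * E') := by
  unfold wp10_mk
  rw [map_mul, map_mul, mul_mul_mul_comm, HahnSeries.single_mul_single, mul_one]

theorem wp10_single_zero_one : (HahnSeries.single (0 : ℤ) (1 : R) : LaurentSeries R) = 1 := rfl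

theorem wp10_mk_zero (E : PowerSeries ℤ) :
    wp10_mk R 0 E = HahnSeries.ofPowerSeries ℤ R (E.map (Int.castRingHom R)) := by
  unfold wp10_mk
  rw [wp10_single_zero_one, one_mul]

theorem wp10_mk_zero_one : wp10_mk R 0 1 = 1 := by
  rw [wp10_mk_zero, map_one, map_one]

/-- Coefficients of `wp10_mk`. -/
theorem wp10_mk_coeff (a : ℤ) (E : PowerSeries ℤ) (n : ℕ) :
    (wp10_mk R a E).coeff (a + n) = ((PowerSeries.coeff n E : ℤ) : R) := by
  unfold wp10_mk
  rw [HahnSeries.coeff_single_mul, one_mul, add_sub_cancel_left,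
    HahnSeries.ofPowerSeries_apply_coeff, PowerSeries.coeff_map]
  rfl

theorem wp10_mk_coeff_of_lt (a : ℤ) (E : PowerSeries ℤ) {k : ℤ} (hk : k < a) :
    (wp10_mk R a E).coeff k = 0 := by
  unfold wp10_mk
  rw [HahnSeries.coeff_single_mul, one_mul]
  exact ModularCurve.ofPowerSeries_coeff_of_neg _ (by omega)

theorem wp10_mk_coeff_self (a : ℤ) {E : PowerSeries ℤ} (hE : PowerSeries.constantCoeff E = 1) :
    (wp10_mk R a E).coeff a = 1 := by
  have h := wp10_mk_coeff (R := R) a E 0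
  rw [Nat.cast_zero, add_zero, PowerSeries.coeff_zero_eq_constantCoeff, hE] at h
  simpa using h

theorem wp10_mk_ne_zero [Nontrivial R] (a : ℤ) {E : PowerSeries ℤ}
    (hE : PowerSeries.constantCoeff E = 1) : wp10_mk R a E ≠ 0 := by
  intro h
  have := wp10_mk_coeff_self (R := R) a hE
  rw [h] at this
  simp at this

/-- `coeffMap` sends `q^a E` over `R` to `q^a E` over `S`. -/
theorem wp10_coeffMap_mk {S : Type*} [CommRing S] (f : R →+* S) (a : ℤ) (E : PowerSeries ℤ) :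
    coeffMap f (wp10_mk R a E) = wp10_mk S a E := by
  ext k
  rw [coeffMap_coeff]
  rcases lt_or_ge k a with hk | hk
  · rw [wp10_mk_coeff_of_lt a E hk, wp10_mk_coeff_of_lt a E hk, map_zero]
  · obtain ⟨n, rfl⟩ : ∃ n : ℕ, k = a + n := ⟨(k - a).toNat, by omega⟩
    rw [wp10_mk_coeff, wp10_mk_coeff, map_intCast]

/-- The order of `q^a E` is `a` when `E` has constant coefficient `1`. -/
theorem wp10_ordV_mk {K : Type*} [Field K] (a : ℤ) {E : PowerSeries ℤ}
    (hE : PowerSeries.constantCoeff E = 1) :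
    ordV K (wp10_mk K a E) = (a : WithTop ℤ) := by
  have hne := wp10_mk_ne_zero (R := K) a hE
  rw [ordV, HahnSeries.addVal_apply_of_ne hne]
  congr 1
  apply le_antisymm
  · exact HahnSeries.order_le_of_coeff_ne_zero (by rw [wp10_mk_coeff_self a hE]; exact one_ne_zero)
  · by_contra h
    rw [not_le] at h
    exact hne (HahnSeries.coeff_order_eq_zero.mp (wp10_mk_coeff_of_lt a E h))


/-! ### Monic units -/

variable (R) in
/-- `x = q^a · (1 + …)` with `ℤ`-coefficients. -/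
def wp10_IsMonicUnit (x : LaurentSeries R) (a : ℤ) : Prop :=
  ∃ E : PowerSeries ℤ, PowerSeries.constantCoeff E = 1 ∧ x = wp10_mk R a E

theorem wp10_isMonicUnit_mk (a : ℤ) {E : PowerSeries ℤ} (hE : PowerSeries.constantCoeff E = 1) :
    wp10_IsMonicUnit R (wp10_mk R a E) a := ⟨E, hE, rfl⟩

theorem wp10_IsMonicUnit.mul {x y : LaurentSeries R} {a b : ℤ} (hx : wp10_IsMonicUnit R x a)
    (hy : wp10_IsMonicUnit R y b) : wp10_IsMonicUnit R (x * y) (a + b) := by
  obtain ⟨E, hE, rfl⟩ := hx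
  obtain ⟨E', hE', rfl⟩ := hy
  exact ⟨E * E', by rw [map_mul, hE, hE', mul_one], wp10_mk_mul a b E E'⟩

theorem wp10_isMonicUnit_one : wp10_IsMonicUnit R (1 : LaurentSeries R) 0 :=
  ⟨1, map_one _, wp10_mk_zero_one.symm⟩

theorem wp10_IsMonicUnit.pow {x : LaurentSeries R} {a : ℤ} (hx : wp10_IsMonicUnit R x a) (n : ℕ) :
    wp10_IsMonicUnit R (x ^ n) (n * a) := by
  induction n with
  | zero => simpa using wp10_isMonicUnit_one (R := R)
  | succ n ih =>
    rw [pow_succ, show ((n + 1 : ℕ) : ℤ) * a = n * a + a by push_cast; ring]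
    exact ih.mul hx

theorem wp10_IsMonicUnit.prod {ι : Type*} (s : Finset ι) (x : ι → LaurentSeries R) (a : ι → ℤ)
    (h : ∀ i ∈ s, wp10_IsMonicUnit R (x i) (a i)) :
    wp10_IsMonicUnit R (∏ i ∈ s, x i) (∑ i ∈ s, a i) := by
  classical
  induction s using Finset.induction_on with
  | empty => simpa using wp10_isMonicUnit_one (R := R)
  | insert i s hi ih =>
    rw [Finset.prod_insert hi, Finset.sum_insert hi]
    exact (h i (Finset.mem_insert_self i s)).mul
      (ih fun j hj => h j (Finset.mem_insert_of_mem hj))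

theorem wp10_IsMonicUnit.ne_zero [Nontrivial R] {x : LaurentSeries R} {a : ℤ}
    (hx : wp10_IsMonicUnit R x a) : x ≠ 0 := by
  obtain ⟨E, hE, rfl⟩ := hx
  exact wp10_mk_ne_zero a hE

theorem wp10_IsMonicUnit.coeffMap {S : Type*} [CommRing S] (f : R →+* S) {x : LaurentSeries R}
    {a : ℤ} (hx : wp10_IsMonicUnit R x a) : wp10_IsMonicUnit S (coeffMap f x) a := by
  obtain ⟨E, hE, rfl⟩ := hx
  exact ⟨E, hE, wp10_coeffMap_mk f a E⟩


/-! ### `qExpand` -/

/-- `E(q^d)` for a power series `E`. -/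
def wp10_expand (d : ℕ) (E : PowerSeries ℤ) : PowerSeries ℤ :=
  PowerSeries.mk fun n => if d ∣ n then PowerSeries.coeff (n / d) E else 0

theorem wp10_coeff_expand (d : ℕ) (E : PowerSeries ℤ) (n : ℕ) :
    PowerSeries.coeff n (wp10_expand d E) = if d ∣ n then PowerSeries.coeff (n / d) E else 0 := by
  rw [wp10_expand, PowerSeries.coeff_mk]

theorem wp10_constantCoeff_expand (d : ℕ) (E : PowerSeries ℤ) :
    PowerSeries.constantCoeff (wp10_expand d E) = PowerSeries.constantCoeff E := by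
  rw [← PowerSeries.coeff_zero_eq_constantCoeff_apply, wp10_coeff_expand, if_pos (dvd_zero d),
    Nat.zero_div, PowerSeries.coeff_zero_eq_constantCoeff_apply]

theorem wp10_qExpand_mk (d : ℕ) [NeZero d] (a : ℤ) (E : PowerSeries ℤ) :
    qExpand R d (wp10_mk R a E) = wp10_mk R (d * a) (wp10_expand d E) := by
  have hd : (0 : ℤ) < d := by exact_mod_cast Nat.pos_of_ne_zero (NeZero.ne d)
  ext k
  by_cases hk : (d : ℤ) ∣ k
  · obtain ⟨m, rfl⟩ := hk
    rw [qExpand_coeff_mul]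
    rcases lt_or_ge m a with hm | hm
    · rw [wp10_mk_coeff_of_lt a E hm,
        wp10_mk_coeff_of_lt _ _ (mul_lt_mul_of_pos_left hm hd)]
    · obtain ⟨n, rfl⟩ : ∃ n : ℕ, m = a + n := ⟨(m - a).toNat, by omega⟩
      rw [wp10_mk_coeff, show (d : ℤ) * (a + n) = (d : ℤ) * a + ((d * n : ℕ) : ℤ) by
        push_cast; ring, wp10_mk_coeff, wp10_coeff_expand, if_pos (Nat.dvd_mul_right d n),
        Nat.mul_div_cancel_left n (Nat.pos_of_ne_zero (NeZero.ne d))]
  · rw [qExpand_coeff_of_not_dvd d _ hk]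
    rcases lt_or_ge k ((d : ℤ) * a) with hlt | hge
    · rw [wp10_mk_coeff_of_lt _ _ hlt]
    · obtain ⟨n, rfl⟩ : ∃ n : ℕ, k = (d : ℤ) * a + n := ⟨(k - d * a).toNat, by omega⟩
      rw [wp10_mk_coeff, wp10_coeff_expand, if_neg, Int.cast_zero]
      intro hdn
      apply hk
      exact dvd_add (dvd_mul_right _ _) (Int.natCast_dvd_natCast.mpr hdn)

variable (R) in
/-- Total version of `qExpand`: the identity for `d = 0`. -/
def wp10_qExp (d : ℕ) : LaurentSeries R →+* LaurentSeries R :=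
  if h : d = 0 then RingHom.id _ else @qExpand R _ d ⟨h⟩

theorem wp10_qExp_eq (d : ℕ) [NeZero d] : wp10_qExp R d = qExpand R d := by
  unfold wp10_qExp
  rw [dif_neg (NeZero.ne d)]

theorem wp10_qExp_apply (d : ℕ) [NeZero d] (x : LaurentSeries R) :
    wp10_qExp R d x = qExpand R d x := by
  rw [wp10_qExp_eq]

theorem wp10_qExp_mk {d : ℕ} (hd : d ≠ 0) (a : ℤ) (E : PowerSeries ℤ) :
    wp10_qExp R d (wp10_mk R a E) = wp10_mk R (d * a) (wp10_expand d E) := by
  have : NeZero d := ⟨hd⟩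
  rw [wp10_qExp_apply, wp10_qExpand_mk]

theorem wp10_coeffMap_qExp {S : Type*} [CommRing S] (f : R →+* S) (d : ℕ) (x : LaurentSeries R) :
    coeffMap f (wp10_qExp R d x) = wp10_qExp S d (coeffMap f x) := by
  by_cases hd : d = 0
  · subst hd
    simp [wp10_qExp]
  · have : NeZero d := ⟨hd⟩
    rw [wp10_qExp_apply, wp10_qExp_apply, coeffMap_qExpand]

theorem wp10_IsMonicUnit.qExp {x : LaurentSeries R} {a : ℤ} (hx : wp10_IsMonicUnit R x a)
    {d : ℕ} (hd : d ≠ 0) : wp10_IsMonicUnit R (wp10_qExp R d x) (d * a) := by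
  obtain ⟨E, hE, rfl⟩ := hx
  exact ⟨wp10_expand d E, by rw [wp10_constantCoeff_expand, hE], wp10_qExp_mk hd a E⟩

theorem wp10_IsMonicUnit.qExpand {x : LaurentSeries R} {a : ℤ} (hx : wp10_IsMonicUnit R x a)
    (d : ℕ) [NeZero d] : wp10_IsMonicUnit R (ModularCurve.qExpand R d x) (d * a) := by
  rw [← wp10_qExp_apply]
  exact hx.qExp (NeZero.ne d)

/-! ### Products and integer powers of `wp10_mk` -/

theorem wp10_mk_pow (a : ℤ) (E : PowerSeries ℤ) (n : ℕ) :
    (wp10_mk R a E) ^ n = wp10_mk R (n * a) (E ^ n) := by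
  induction n with
  | zero => simp [wp10_mk_zero_one]
  | succ n ih =>
    rw [pow_succ, ih, wp10_mk_mul, pow_succ]
    congr 1
    push_cast; ring

theorem wp10_prod_mk {ι : Type*} (s : Finset ι) (a : ι → ℤ) (E : ι → PowerSeries ℤ) :
    ∏ i ∈ s, wp10_mk R (a i) (E i) = wp10_mk R (∑ i ∈ s, a i) (∏ i ∈ s, E i) := by
  classical
  induction s using Finset.induction_on with
  | empty => simp [wp10_mk_zero_one]
  | insert i s hi ih =>
    rw [Finset.prod_insert hi, Finset.sum_insert hi, Finset.prod_insert hi, ih, wp10_mk_mul]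

/-- Integer powers of a power series with constant coefficient `1`. -/
def wp10_zpowE (E : PowerSeries ℤ) (n : ℤ) : PowerSeries ℤ :=
  if 0 ≤ n then E ^ n.toNat else (E.invOfUnit 1) ^ (-n).toNat

theorem wp10_constantCoeff_zpowE {E : PowerSeries ℤ} (hE : PowerSeries.constantCoeff E = 1)
    (n : ℤ) : PowerSeries.constantCoeff (wp10_zpowE E n) = 1 := by
  unfold wp10_zpowE
  split_ifs
  · rw [map_pow, hE, one_pow]
  · have h : PowerSeries.constantCoeff (E.invOfUnit 1) = 1 := by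
      have h := congrArg (PowerSeries.constantCoeff (R := ℤ))
        (PowerSeries.mul_invOfUnit E 1 (by rw [hE]; rfl))
      rwa [map_mul, hE, one_mul, map_one] at h
    rw [map_pow, h, one_pow]

section Field

variable {K : Type*} [Field K]

theorem wp10_mk_mul_mk_inv (a : ℤ) {E : PowerSeries ℤ} (hE : PowerSeries.constantCoeff E = 1) :
    wp10_mk K a E * wp10_mk K (-a) (E.invOfUnit 1) = 1 := by
  rw [wp10_mk_mul, add_neg_cancel, PowerSeries.mul_invOfUnit E 1 (by rw [hE]; rfl),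
    wp10_mk_zero_one]

theorem wp10_mk_inv (a : ℤ) {E : PowerSeries ℤ} (hE : PowerSeries.constantCoeff E = 1) :
    (wp10_mk K a E)⁻¹ = wp10_mk K (-a) (E.invOfUnit 1) :=
  inv_eq_of_mul_eq_one_right (wp10_mk_mul_mk_inv a hE)

theorem wp10_constantCoeff_invOfUnit {E : PowerSeries ℤ}
    (hE : PowerSeries.constantCoeff E = 1) :
    PowerSeries.constantCoeff (E.invOfUnit 1) = 1 := by
  have h := congrArg (PowerSeries.constantCoeff (R := ℤ))
    (PowerSeries.mul_invOfUnit E 1 (by rw [hE]; rfl))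
  rwa [map_mul, hE, one_mul, map_one] at h

theorem wp10_IsMonicUnit.inv {x : LaurentSeries K} {a : ℤ} (hx : wp10_IsMonicUnit K x a) :
    wp10_IsMonicUnit K x⁻¹ (-a) := by
  obtain ⟨E, hE, rfl⟩ := hx
  exact ⟨E.invOfUnit 1, wp10_constantCoeff_invOfUnit hE, wp10_mk_inv a hE⟩

theorem wp10_IsMonicUnit.zpow {x : LaurentSeries K} {a : ℤ} (hx : wp10_IsMonicUnit K x a)
    (n : ℤ) : wp10_IsMonicUnit K (x ^ n) (n * a) := by
  obtain ⟨m, rfl | rfl⟩ := n.eq_nat_or_neg
  · rw [zpow_natCast]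
    exact hx.pow m
  · rw [zpow_neg, zpow_natCast, neg_mul]
    exact (hx.pow m).inv

theorem wp10_IsMonicUnit.ordV {x : LaurentSeries K} {a : ℤ} (hx : wp10_IsMonicUnit K x a) :
    ordV K x = (a : WithTop ℤ) := by
  obtain ⟨E, hE, rfl⟩ := hx
  exact wp10_ordV_mk a hE

theorem wp10_mk_zpow (a : ℤ) {E : PowerSeries ℤ} (hE : PowerSeries.constantCoeff E = 1)
    (n : ℤ) : (wp10_mk K a E) ^ n = wp10_mk K (n * a) (wp10_zpowE E n) := by
  unfold wp10_zpowE
  split_ifs with h
  · obtain ⟨m, rfl⟩ := Int.eq_ofNat_of_zero_le h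
    rw [zpow_natCast, wp10_mk_pow, Int.toNat_natCast]
  · obtain ⟨m, rfl⟩ : ∃ m : ℕ, n = -(m : ℤ) := ⟨(-n).toNat, by omega⟩
    rw [zpow_neg, zpow_natCast, ← inv_pow, wp10_mk_inv a hE, wp10_mk_pow, neg_neg,
      Int.toNat_natCast]
    congr 1
    ring

end Field

/-! ### The formal `Δ` and `j` -/

variable (R) in
/-- The formal `Δ = q ∏ (1 - qⁿ)²⁴` over `R`. -/
def wp10_DeltaF : LaurentSeries R := wp10_mk R 1 dedekindEtaUnit

theorem wp10_DeltaF_eq : wp10_DeltaF R = HahnSeries.single (1 : ℤ) (1 : R) *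
    HahnSeries.ofPowerSeries ℤ R (PowerSeries.map (Int.castRingHom R) dedekindEtaUnit) := rfl

theorem wp10_isMonicUnit_DeltaF : wp10_IsMonicUnit R (wp10_DeltaF R) 1 :=
  ⟨dedekindEtaUnit, constantCoeff_dedekindEtaUnit, rfl⟩

theorem wp10_coeffMap_DeltaF {S : Type*} [CommRing S] (f : R →+* S) :
    coeffMap f (wp10_DeltaF R) = wp10_DeltaF S :=
  wp10_coeffMap_mk f 1 dedekindEtaUnit

theorem wp10_jqModC_eq : jqModC R = wp10_mk R (-1) jNum := rfl

theorem wp10_jq_eq : jq = wp10_mk ℚ (-1) jNum := rfl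

theorem wp10_isMonicUnit_jqModC : wp10_IsMonicUnit R (jqModC R) (-1) :=
  ⟨jNum, constantCoeff_jNum, rfl⟩

theorem wp10_isMonicUnit_jq : wp10_IsMonicUnit ℚ jq (-1) :=
  ⟨jNum, constantCoeff_jNum, rfl⟩

/-- `j · Δ = E₄³`. -/
theorem wp10_jqModC_mul_DeltaF :
    jqModC R * wp10_DeltaF R =
      HahnSeries.ofPowerSeries ℤ R (PowerSeries.map (Int.castRingHom R) (eisenstein4 ^ 3)) := by
  rw [wp10_jqModC_eq, wp10_DeltaF, wp10_mk_mul, neg_add_cancel, wp10_mk_zero, jNum, mul_assoc,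
    mul_comm dedekindEtaUnitInv, dedekindEtaUnit_mul_inv, mul_one]

theorem wp10_jq_mul_DeltaF :
    jq * wp10_DeltaF ℚ =
      HahnSeries.ofPowerSeries ℤ ℚ (PowerSeries.map (Int.castRingHom ℚ) (eisenstein4 ^ 3)) :=
  wp10_jqModC_mul_DeltaF

/-! ### The formal unit -/

section FormalUnit

variable (K : Type*) [Field K]

/-- The formal unit `u = (∏ δ ∈ unitSet N, Δ(q^δ)^(unitM N δ)) · Δ^(-unitPhi N)` over `K`. -/
def wp10_formalUK (N : ℕ) : LaurentSeries K :=
  (∏ δ ∈ unitSet N, (wp10_qExp K δ (wp10_DeltaF K)) ^ (unitM N δ)) *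
    (wp10_DeltaF K) ^ (-(unitPhi N : ℤ))

/-- The formal unit over `ℚ`. -/
def wp10_formalU (N : ℕ) : LaurentSeries ℚ := wp10_formalUK ℚ N

/-- The integral power series `E` with `u = q^e · E`. -/
def wp10_formalE (N : ℕ) : PowerSeries ℤ :=
  (∏ δ ∈ unitSet N, wp10_zpowE (wp10_expand δ dedekindEtaUnit) (unitM N δ)) *
    wp10_zpowE dedekindEtaUnit (-(unitPhi N : ℤ))

theorem wp10_constantCoeff_formalE (N : ℕ) :
    PowerSeries.constantCoeff (wp10_formalE N) = 1 := by
  unfold wp10_formalE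
  rw [map_mul, map_prod, wp10_constantCoeff_zpowE constantCoeff_dedekindEtaUnit, mul_one]
  refine Finset.prod_eq_one fun δ _ => ?_
  exact wp10_constantCoeff_zpowE
    (by rw [wp10_constantCoeff_expand, constantCoeff_dedekindEtaUnit]) _

variable {K}

/-- The formal unit is `q^e · E` with `e = ∑ δ, unitM N δ · δ - unitPhi N` and the explicit
integral `E = wp10_formalE N`, over every field. -/
theorem wp10_formalUK_eq_mk (N : ℕ) (hN : N ≠ 0) :
    wp10_formalUK K N =
      wp10_mk K (∑ δ ∈ unitSet N, unitM N δ * (δ : ℤ) - unitPhi N) (wp10_formalE N) := by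
  unfold wp10_formalUK wp10_formalE
  have h1 : ∀ δ ∈ unitSet N, (wp10_qExp K δ (wp10_DeltaF K)) ^ (unitM N δ) =
      wp10_mk K (unitM N δ * (δ : ℤ))
        (wp10_zpowE (wp10_expand δ dedekindEtaUnit) (unitM N δ)) := by
    intro δ hδ
    rw [wp10_DeltaF, wp10_qExp_mk (wp3b_ne_zero_of_mem_unitSet hN hδ), mul_one,
      wp10_mk_zpow _ (by rw [wp10_constantCoeff_expand, constantCoeff_dedekindEtaUnit])]
  rw [Finset.prod_congr rfl h1, wp10_prod_mk, wp10_DeltaF,
    wp10_mk_zpow _ constantCoeff_dedekindEtaUnit, wp10_mk_mul, mul_one, sub_eq_add_neg]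

theorem wp10_formalUK_isMonicUnit (N : ℕ) (hN : N ≠ 0) :
    wp10_IsMonicUnit K (wp10_formalUK K N)
      (∑ δ ∈ unitSet N, unitM N δ * (δ : ℤ) - unitPhi N) :=
  ⟨wp10_formalE N, wp10_constantCoeff_formalE N, wp10_formalUK_eq_mk N hN⟩

/-- Change of coefficients of the formal unit. -/
theorem wp10_coeffMap_formalUK {L : Type*} [Field L] (f : K →+* L) (N : ℕ) :
    coeffMap f (wp10_formalUK K N) = wp10_formalUK L N := by
  unfold wp10_formalUK
  rw [map_mul, map_prod, map_zpow₀, wp10_coeffMap_DeltaF]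
  congr 1
  refine Finset.prod_congr rfl fun δ _ => ?_
  rw [map_zpow₀, wp10_coeffMap_qExp, wp10_coeffMap_DeltaF]

theorem wp10_ordV_formalUK (N : ℕ) (hN : N ≠ 0) :
    ordV K (wp10_formalUK K N) =
      ((∑ δ ∈ unitSet N, unitM N δ * (δ : ℤ) - unitPhi N : ℤ) : WithTop ℤ) :=
  (wp10_formalUK_isMonicUnit N hN).ordV

theorem wp10_formalUK_ne_zero (N : ℕ) (hN : N ≠ 0) : wp10_formalUK K N ≠ 0 :=
  (wp10_formalUK_isMonicUnit N hN).ne_zero

end FormalUnit

/-! ### Interface with `IntOver.lean` / `QExp.lean` -/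

theorem wp10_isMonicUnit_iff (x : LaurentSeries ℚ) (a : ℤ) :
    wp10_IsMonicUnit ℚ x a ↔ IsMonicUnitSeries x a := Iff.rfl

/-- **(hu)** the formal unit is a monic unit series of exponent `unitE N - unitPhi N`
(`unitE N = ∑ δ ∈ unitSet N, unitM N δ * δ` in `UnitOrd.lean`). -/
theorem wp10_formalU_isMonicUnit (N : ℕ) (hN : N ≠ 0) :
    IsMonicUnitSeries (wp10_formalU N) (∑ δ ∈ unitSet N, unitM N δ * (δ : ℤ) - unitPhi N) :=
  wp10_formalUK_isMonicUnit N hN

/-- Variant with a free exponent. -/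
theorem wp10_formalU_isMonicUnit' (N : ℕ) (hN : N ≠ 0) {e : ℤ}
    (he : e + unitPhi N = ∑ δ ∈ unitSet N, unitM N δ * (δ : ℤ)) :
    IsMonicUnitSeries (wp10_formalU N) e := by
  have h := wp10_formalU_isMonicUnit N hN
  rwa [← he, add_sub_cancel_right] at h

/-- **(toC u)** the complex formal unit. -/
theorem wp10_toC_formalU (N : ℕ) :
    toC (wp10_formalU N) =
      (∏ δ ∈ unitSet N, (wp10_qExp ℂ δ (wp10_DeltaF ℂ)) ^ (unitM N δ)) *
        (wp10_DeltaF ℂ) ^ (-(unitPhi N : ℤ)) :=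
  wp10_coeffMap_formalUK (algebraMap ℚ ℂ) N

theorem wp10_ordV_formalU (N : ℕ) (hN : N ≠ 0) :
    ordV ℚ (wp10_formalU N) =
      ((∑ δ ∈ unitSet N, unitM N δ * (δ : ℤ) - unitPhi N : ℤ) : WithTop ℤ) :=
  wp10_ordV_formalUK N hN

/-- The reduction of the formal unit: the same integral series over any ring. -/
theorem wp10_formalU_eq_mk (N : ℕ) (hN : N ≠ 0) :
    wp10_formalU N =
      wp10_mk ℚ (∑ δ ∈ unitSet N, unitM N δ * (δ : ℤ) - unitPhi N) (wp10_formalE N) :=
  wp10_formalUK_eq_mk N hN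

end Fermat.Agent.S28
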