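import Mathlib
import Fermat.Agent.S28.Eval
import Fermat.Agent.S28.Residue

/-!
# S28: Gauss lemma at `ℓ` for minimal polynomials over `ℚ[t]`

If `y ∈ ℚ((q))` is integral over `ℚ[t]` (`t` transcendental) and is a root of some
`f ∈ Z_(ℓ)[Y][X]` (evaluated at `Y = t`) whose leading coefficient is `≢ 0 mod ℓ`, then `y` is a root of
a MONIC polynomial in `Z_(ℓ)[Y][X]`.
-/

set_option autoImplicit false

namespace Fermat.Agent.S28

open Polynomial ModularCurve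

noncomputable section

variable (ℓ : ℕ) [Fact ℓ.Prime]

theorem natCast_pow_ne_zero_ratLoc_poly2 (d : ℕ) :
    ((ℓ : (↥(GaloisRep.ratLocalizedAt ℓ))[X][X]) ^ d) ≠ 0 := by
  have hℓ : ((ℓ : ℕ) : ↥(GaloisRep.ratLocalizedAt ℓ)) ≠ 0 := by
    intro h
    have h1 := congrArg (GaloisRep.ratLocalizedAt ℓ).subtype h
    rw [map_natCast, map_zero] at h1
    exact (Fact.out : ℓ.Prime).ne_zero (by exact_mod_cast h1)
  have h1 : ((ℓ : ℕ) : (↥(GaloisRep.ratLocalizedAt ℓ))[X][X]) = C (C (ℓ : ↥(GaloisRep.ratLocalizedAt ℓ))) := by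
    simp
  rw [h1, ← C_pow, ← C_pow]
  intro h
  exact (pow_ne_zero d hℓ) (C_eq_zero.mp (C_eq_zero.mp h))

theorem map_res_natCast_pow_mul (d : ℕ) (P : (↥(GaloisRep.ratLocalizedAt ℓ))[X][X]) :
    (mapRingHom (mapRingHom (resR ℓ)))
      ((ℓ : (↥(GaloisRep.ratLocalizedAt ℓ))[X][X]) ^ (d + 1) * P) = 0 := by
  rw [map_mul, map_pow, (gaussTriple_poly2 ℓ).ell, zero_pow (Nat.succ_ne_zero d), zero_mul]

/-- Gauss lemma for products in `Z_(ℓ)[Y][X]`: if `ℓ^A f = ℓ^B m h` with `f, m, h` all nonzero mod `ℓ`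
then `f = m h`. -/
theorem eq_mul_of_pow_mul_eq {A B : ℕ} {f m h : (↥(GaloisRep.ratLocalizedAt ℓ))[X][X]}
    (hf : (mapRingHom (mapRingHom (resR ℓ))) f ≠ 0)
    (hm : (mapRingHom (mapRingHom (resR ℓ))) m ≠ 0)
    (hh : (mapRingHom (mapRingHom (resR ℓ))) h ≠ 0)
    (heq : (ℓ : (↥(GaloisRep.ratLocalizedAt ℓ))[X][X]) ^ A * f =
      (ℓ : (↥(GaloisRep.ratLocalizedAt ℓ))[X][X]) ^ B * (m * h)) : f = m * h := by
  have hmh : (mapRingHom (mapRingHom (resR ℓ))) (m * h) ≠ 0 := by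
    rw [map_mul]; exact mul_ne_zero hm hh
  rcases lt_trichotomy A B with hAB | hAB | hAB
  · exfalso
    obtain ⟨d, hd⟩ : ∃ d, B = A + (d + 1) := ⟨B - A - 1, by omega⟩
    rw [hd, pow_add, mul_assoc] at heq
    have h1 := mul_left_cancel₀ (natCast_pow_ne_zero_ratLoc_poly2 ℓ A) heq
    apply hf
    rw [h1]
    exact map_res_natCast_pow_mul ℓ d _
  · rw [hAB] at heq
    exact mul_left_cancel₀ (natCast_pow_ne_zero_ratLoc_poly2 ℓ B) heq
  · exfalso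
    obtain ⟨d, hd⟩ : ∃ d, A = B + (d + 1) := ⟨A - B - 1, by omega⟩
    rw [hd, pow_add, mul_assoc] at heq
    have h1 := mul_left_cancel₀ (natCast_pow_ne_zero_ratLoc_poly2 ℓ B) heq
    apply hmh
    rw [← h1]
    exact map_res_natCast_pow_mul ℓ d _

/-- **Gauss lemma at `ℓ`** for roots of polynomials over `ℚ[t]`. -/
theorem exists_monic_ratLoc_of_root (t y : LaurentSeries ℚ) (ht : Function.Injective (pev1 t))
    (g : ℚ[X][X]) (hg : g.Monic) (hgy : pev2 t y g = 0)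
    (fR : (↥(GaloisRep.ratLocalizedAt ℓ))[X][X])
    (hlead : fR.leadingCoeff.map (resR ℓ) ≠ 0)
    (hfy : pev2 t y ((mapRingHom (mapRingHom (GaloisRep.ratLocalizedAt ℓ).subtype)) fR) = 0) :
    ∃ mR : (↥(GaloisRep.ratLocalizedAt ℓ))[X][X], mR.Monic ∧
      pev2 t y ((mapRingHom (mapRingHom (GaloisRep.ratLocalizedAt ℓ).subtype)) mR) = 0 := by
  classical
  set ι := (GaloisRep.ratLocalizedAt ℓ).subtype with hι
  have hιinj : Function.Injective ι := Subtype.val_injective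
  have hι1 : Function.Injective (mapRingHom ι) := Polynomial.map_injective ι hιinj
  have hι2 : Function.Injective (mapRingHom (mapRingHom ι)) := Polynomial.map_injective _ hι1
  let alg : Algebra ℚ[X] (LaurentSeries ℚ) := (pev1 t).toAlgebra
  have halg : algebraMap ℚ[X] (LaurentSeries ℚ) = pev1 t := rfl
  have : Module.IsTorsionFree ℚ[X] (LaurentSeries ℚ) :=
    Module.isTorsionFree_iff_algebraMap_injective.mpr ht
  have hint : IsIntegral ℚ[X] y := ⟨g, hg, by rw [halg]; exact hgy⟩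
  set m := minpoly ℚ[X] y with hm
  have hm_monic : m.Monic := minpoly.monic hint
  have hm_y : pev2 t y m = 0 := by
    have := minpoly.aeval ℚ[X] y
    rwa [aeval_def, halg] at this
  set f : ℚ[X][X] := (mapRingHom (mapRingHom ι)) fR with hf
  have hfR0 : fR ≠ 0 := by
    intro h
    rw [h, leadingCoeff_zero, Polynomial.map_zero] at hlead
    exact hlead rfl
  have hf0 : f ≠ 0 := fun h => hfR0 (hι2 (by rw [← hf, h, map_zero]))
  have hdvd : m ∣ f := minpoly.isIntegrallyClosed_dvd hint (by rw [aeval_def, halg]; exact hfy)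
  obtain ⟨h, hh⟩ := hdvd
  have hh0 : h ≠ 0 := by
    rintro rfl
    rw [mul_zero] at hh
    exact hf0 hh
  obtain ⟨a₁, b₁, m₀, hm₀, hmeq⟩ := (gaussTriple_poly2 ℓ).nrm m hm_monic.ne_zero
  obtain ⟨a₂, b₂, h₀, hh₀, hheq⟩ := (gaussTriple_poly2 ℓ).nrm h hh0
  have hfres : (mapRingHom (mapRingHom (resR ℓ))) fR ≠ 0 := by
    intro h1
    apply hlead
    have h2 := congrArg (fun Q => Polynomial.coeff Q fR.natDegree) h1
    simpa using h2
  have hprod : (ℓ : (↥(GaloisRep.ratLocalizedAt ℓ))[X][X]) ^ (a₁ + a₂) * fR =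
      (ℓ : (↥(GaloisRep.ratLocalizedAt ℓ))[X][X]) ^ (b₁ + b₂) * (m₀ * h₀) := by
    apply hι2
    rw [map_mul, map_mul, map_mul, map_pow, map_pow, map_natCast, ← hf, hh]
    calc (ℓ : ℚ[X][X]) ^ (a₁ + a₂) * (m * h)
        = ((ℓ : ℚ[X][X]) ^ a₁ * m) * ((ℓ : ℚ[X][X]) ^ a₂ * h) := by rw [pow_add]; ring
      _ = ((ℓ : ℚ[X][X]) ^ b₁ * (mapRingHom (mapRingHom ι)) m₀) *
            ((ℓ : ℚ[X][X]) ^ b₂ * (mapRingHom (mapRingHom ι)) h₀) := by rw [hmeq, hheq]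
      _ = _ := by rw [pow_add]; ring
  have hfmh : fR = m₀ * h₀ := eq_mul_of_pow_mul_eq ℓ hfres hm₀ hh₀ hprod
  -- leading coefficient of `m₀` is nonzero mod ℓ
  have hlc : m₀.leadingCoeff.map (resR ℓ) ≠ 0 := by
    intro h1
    apply hlead
    rw [hfmh, leadingCoeff_mul, Polynomial.map_mul, h1, zero_mul]
  have hm₀0 : m₀ ≠ 0 := by
    rintro rfl
    exact hm₀ (map_zero _)
  -- compare leading coefficients in `ℓ^a₁ m = ℓ^b₁ m₀`
  have hℓC : ((ℓ : ℕ) : ℚ[X][X]) = C ((ℓ : ℕ) : ℚ[X]) := by simp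
  have hlead_eq : ((ℓ : ℕ) : ℚ[X]) ^ a₁ = ((ℓ : ℕ) : ℚ[X]) ^ b₁ * (mapRingHom ι) m₀.leadingCoeff := by
    have h1 := congrArg Polynomial.leadingCoeff hmeq
    rw [leadingCoeff_mul, leadingCoeff_mul, hm_monic.leadingCoeff, mul_one, hℓC, ← C_pow, ← C_pow,
      leadingCoeff_C, leadingCoeff_C] at h1
    rw [h1]
    congr 1
    show ((mapRingHom (mapRingHom ι)) m₀).leadingCoeff = _
    rw [coe_mapRingHom, leadingCoeff_map_of_injective hι1]
  have hℓR : ∀ d : ℕ, ((ℓ : (↥(GaloisRep.ratLocalizedAt ℓ))[X]) ^ d) ≠ 0 := by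
    intro d
    have hℓ : ((ℓ : ℕ) : ↥(GaloisRep.ratLocalizedAt ℓ)) ≠ 0 := by
      intro h
      have h1 := congrArg (GaloisRep.ratLocalizedAt ℓ).subtype h
      rw [map_natCast, map_zero] at h1
      exact (Fact.out : ℓ.Prime).ne_zero (by exact_mod_cast h1)
    have h1 : ((ℓ : ℕ) : (↥(GaloisRep.ratLocalizedAt ℓ))[X]) = C (ℓ : ↥(GaloisRep.ratLocalizedAt ℓ)) := by
      simp
    rw [h1, ← C_pow]
    intro h
    exact (pow_ne_zero d hℓ) (C_eq_zero.mp h)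
  have hlead_R : ((ℓ : ℕ) : (↥(GaloisRep.ratLocalizedAt ℓ))[X]) ^ a₁ =
      ((ℓ : ℕ) : (↥(GaloisRep.ratLocalizedAt ℓ))[X]) ^ b₁ * m₀.leadingCoeff := by
    apply hι1
    rw [map_mul, map_pow, map_pow, map_natCast]
    exact hlead_eq
  have hab : a₁ = b₁ := by
    rcases lt_trichotomy a₁ b₁ with hlt | heq | hgt
    · exfalso
      obtain ⟨d, hd⟩ : ∃ d, b₁ = a₁ + (d + 1) := ⟨b₁ - a₁ - 1, by omega⟩
      rw [hd, pow_add, mul_assoc] at hlead_R
      have h1 : (1 : (↥(GaloisRep.ratLocalizedAt ℓ))[X]) =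
          ((ℓ : ℕ) : (↥(GaloisRep.ratLocalizedAt ℓ))[X]) ^ (d + 1) * m₀.leadingCoeff :=
        mul_left_cancel₀ (hℓR a₁) (by rw [mul_one]; exact hlead_R)
      have h2 := congrArg (mapRingHom (resR ℓ)) h1
      rw [map_one, map_mul, map_pow, (gaussTriple_poly1 ℓ).ell, zero_pow (Nat.succ_ne_zero d),
        zero_mul] at h2
      exact one_ne_zero h2
    · exact heq
    · exfalso
      obtain ⟨d, hd⟩ : ∃ d, a₁ = b₁ + (d + 1) := ⟨a₁ - b₁ - 1, by omega⟩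
      rw [hd, pow_add] at hlead_R
      have h1 : ((ℓ : ℕ) : (↥(GaloisRep.ratLocalizedAt ℓ))[X]) ^ (d + 1) = m₀.leadingCoeff :=
        mul_left_cancel₀ (hℓR b₁) hlead_R
      apply hlc
      rw [← h1]
      have : Polynomial.map (resR ℓ) (((ℓ : ℕ) : (↥(GaloisRep.ratLocalizedAt ℓ))[X]) ^ (d + 1)) =
          (mapRingHom (resR ℓ)) (((ℓ : ℕ) : (↥(GaloisRep.ratLocalizedAt ℓ))[X]) ^ (d + 1)) := rfl
      rw [this, map_pow, (gaussTriple_poly1 ℓ).ell, zero_pow (Nat.succ_ne_zero d)]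
  have hℓQ : ((ℓ : ℚ[X][X]) ^ b₁) ≠ 0 := by
    have hℓ : (ℓ : ℚ) ≠ 0 := by exact_mod_cast (Fact.out : ℓ.Prime).ne_zero
    have h1 : ((ℓ : ℕ) : ℚ[X][X]) = C (C (ℓ : ℚ)) := by simp
    rw [h1, ← C_pow, ← C_pow]
    intro h
    exact (pow_ne_zero b₁ hℓ) (C_eq_zero.mp (C_eq_zero.mp h))
  have hmm₀ : m = (mapRingHom (mapRingHom ι)) m₀ := by
    rw [hab] at hmeq
    exact mul_left_cancel₀ hℓQ hmeq
  refine ⟨m₀, ?_, ?_⟩
  · exact monic_of_injective hι1 (by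
      have : Polynomial.map (mapRingHom ι) m₀ = (mapRingHom (mapRingHom ι)) m₀ := rfl
      rw [this, ← hmm₀]; exact hm_monic)
  · rw [← hmm₀]; exact hm_y

end

end Fermat.Agent.S28
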