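import Mathlib
import Fermat.Agent.S28.RedProps

/-!
# S28 (K4, part b): every `z ∈ B` is a root of a polynomial over `Z_(ℓ)[t]`, `t ∈ {j, j⁻¹}`,
whose leading coefficient is nonzero mod `ℓ`.
-/

set_option autoImplicit false

namespace Fermat.Agent.S28

open Polynomial ModularCurve

noncomputable section

section General

variable {A : Type*} [CommRing A]

theorem pev2_comp (j x : LaurentSeries A) (p q : A[X][X]) :
    pev2 j x (p.comp q) = p.eval₂ (pev1 j) (pev2 j x q) := by
  rw [comp, hom_eval₂]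
  congr 1
  exact RingHom.ext fun a => pev2_C j x a

/-- elements of `A[j,u]` are integral over `A[j]` when `u` is. -/
theorem exists_monic_of_pev2 (j u : LaurentSeries A) (χ : A[X][X]) (hχm : χ.Monic)
    (hχu : pev2 j u χ = 0) (P : A[X][X]) :
    ∃ c : A[X][X], c.Monic ∧ pev2 j (pev2 j u P) c = 0 := by
  let alg : Algebra A[X] (LaurentSeries A) := (pev1 j).toAlgebra
  have halg : algebraMap A[X] (LaurentSeries A) = pev1 j := rfl
  have hu : IsIntegral A[X] u := ⟨χ, hχm, by rw [halg]; exact hχu⟩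
  have hw : IsIntegral A[X] (pev2 j u P) := by
    rw [pev2_apply, eval₂_eq_sum_range]
    refine IsIntegral.sum _ fun i _ => ?_
    exact IsIntegral.mul (by rw [← halg]; exact isIntegral_algebraMap) (hu.pow i)
  obtain ⟨c, hc, hc0⟩ := hw
  exact ⟨c, hc, by rw [halg] at hc0; exact hc0⟩

/-- coefficientwise reflection of a bivariate polynomial -/
def reflCoeff (M : ℕ) (f : A[X][X]) : A[X][X] :=
  ∑ i ∈ f.support, monomial i (reflect M (f.coeff i))

theorem reflCoeff_coeff (M : ℕ) (f : A[X][X]) (i : ℕ) :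
    (reflCoeff M f).coeff i = reflect M (f.coeff i) := by
  classical
  rw [reflCoeff, finsetSum_coeff]
  simp only [coeff_monomial]
  rw [Finset.sum_ite_eq' f.support i]
  by_cases hi : i ∈ f.support
  · rw [if_pos hi]
  · rw [if_neg hi, notMem_support_iff.mp hi, reflect_zero]

theorem reflCoeff_natDegree_le (M : ℕ) (f : A[X][X]) :
    (reflCoeff M f).natDegree ≤ f.natDegree := by
  rw [natDegree_le_iff_coeff_eq_zero]
  intro i hi
  rw [reflCoeff_coeff, coeff_eq_zero_of_natDegree_lt hi, reflect_zero]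

theorem reflCoeff_coeff_natDegree (M : ℕ) (f : A[X][X]) :
    (reflCoeff M f).coeff f.natDegree = reflect M f.leadingCoeff := by
  rw [reflCoeff_coeff]; rfl

end General

section Field

variable {K : Type*} [Field K]

theorem pev1_inv_reflect (t : LaurentSeries K) (ht : t ≠ 0) (M : ℕ) (e : K[X])
    (he : e.natDegree ≤ M) : pev1 t⁻¹ (reflect M e) * t ^ M = pev1 t e := by
  let _ : Invertible t := invertibleOfNonzero ht
  have := eval₂_reflect_mul_pow (HahnSeries.C : K →+* LaurentSeries K) t M e he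
  rw [invOf_eq_inv] at this
  exact this

theorem pev2_inv_reflCoeff (t z : LaurentSeries K) (ht : t ≠ 0) (M : ℕ) (f : K[X][X])
    (hM : ∀ i, (f.coeff i).natDegree ≤ M) :
    pev2 t⁻¹ z (reflCoeff M f) * t ^ M = pev2 t z f := by
  rw [pev2_apply, pev2_apply,
    eval₂_eq_sum_range' (pev1 t⁻¹) (Nat.lt_succ_of_le (reflCoeff_natDegree_le M f)) z,
    eval₂_eq_sum_range, Finset.sum_mul]
  refine Finset.sum_congr rfl fun i _ => ?_
  rw [reflCoeff_coeff, mul_right_comm, pev1_inv_reflect t ht M _ (hM i)]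

end Field

section Main

variable (ℓ : ℕ) [Fact ℓ.Prime]
variable {jR uR : LaurentSeries ↥(GaloisRep.ratLocalizedAt ℓ)}

/-- (b) for `t = j`. -/
theorem exists_root_poly_j
    (χR : (↥(GaloisRep.ratLocalizedAt ℓ))[X][X]) (hχm : χR.Monic) (hχu : pev2 jR uR χR = 0)
    {z : LaurentSeries ℚ} (hz : z ∈ Bsub ℓ jR uR) :
    ∃ fR : (↥(GaloisRep.ratLocalizedAt ℓ))[X][X], fR.leadingCoeff.map (resR ℓ) ≠ 0 ∧
      pev2 (incQ ℓ jR) z
        ((mapRingHom (mapRingHom (GaloisRep.ratLocalizedAt ℓ).subtype)) fR) = 0 := by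
  obtain ⟨g₀, hg₀, P₀, hP⟩ := (mem_Bsub_iff ℓ jR uR).mp hz
  obtain ⟨c, hc, hc0⟩ := exists_monic_of_pev2 jR uR χR hχm hχu P₀
  have hg₀0 : g₀ ≠ 0 := by
    rintro rfl
    exact hg₀ (Polynomial.map_zero _)
  have hq : (C g₀ * X : (↥(GaloisRep.ratLocalizedAt ℓ))[X][X]).natDegree ≠ 0 := by
    rw [natDegree_C_mul_X g₀ hg₀0]; exact one_ne_zero
  refine ⟨c.comp (C g₀ * X), ?_, ?_⟩
  · rw [leadingCoeff_comp hq, hc.leadingCoeff, one_mul, leadingCoeff_C_mul_X,
      Polynomial.map_pow]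
    exact pow_ne_zero _ hg₀
  · have h1 : (mapRingHom (mapRingHom (GaloisRep.ratLocalizedAt ℓ).subtype)) (c.comp (C g₀ * X)) =
        Polynomial.map (mapRingHom (GaloisRep.ratLocalizedAt ℓ).subtype) (c.comp (C g₀ * X)) := rfl
    have h2 : pev2 (incQ ℓ jR) z
        (Polynomial.map (mapRingHom (GaloisRep.ratLocalizedAt ℓ).subtype) (C g₀ * X)) =
        incQ ℓ (pev2 jR uR P₀) := by
      rw [Polynomial.map_mul, Polynomial.map_C, Polynomial.map_X, map_mul, pev2_C, pev2_X, ← hP,
        mul_comm]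
      congr 1
      rw [coeffMap_pev1]
      rfl
    rw [h1, Polynomial.map_comp, pev2_comp, h2, ← pev2_apply, ← coeffMap_pev2, hc0, map_zero]

end Main

end

end Fermat.Agent.S28
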