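import Mathlib
import Fermat.Agent.S28.RootPoly
import Fermat.Agent.S28.Gauss

/-!
# S28 (K4): `A ∩ ℓ B = ℓ A` for `A` the integral closure of `Z_(ℓ)[t]`, `t ∈ {j, j⁻¹}`

Polynomial form: if `z ∈ B` and `ℓ z` is a root of a monic polynomial over `Z_(ℓ)[t]`, then so is `z`.
-/

set_option autoImplicit false

namespace Fermat.Agent.S28

open Polynomial ModularCurve

noncomputable section

section Reflect

variable {A B : Type*} [CommRing A] [CommRing B]

theorem reflect_map_eq (M : ℕ) (f : A →+* B) (e : A[X]) :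
    (reflect M e).map f = reflect M (e.map f) := by
  ext i
  rw [coeff_map, coeff_reflect, coeff_reflect, coeff_map]

theorem reflect_ne_zero {M : ℕ} {e : A[X]} (he : e ≠ 0) (hM : e.natDegree ≤ M) :
    reflect M e ≠ 0 := by
  intro h
  apply he
  ext i
  by_cases hi : i ≤ M
  · have := congrArg (fun p => Polynomial.coeff p (revAt M i)) h
    simp only [coeff_reflect, coeff_zero] at this
    rw [revAt_invol] at this
    rw [this, coeff_zero]
  · rw [coeff_eq_zero_of_natDegree_lt (lt_of_le_of_lt hM (not_le.mp hi)), coeff_zero]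

theorem reflCoeff_map (M : ℕ) (f : A →+* B) (F : A[X][X]) :
    (reflCoeff M F).map (mapRingHom f) = reflCoeff M (F.map (mapRingHom f)) := by
  ext i : 1
  rw [coeff_map, reflCoeff_coeff, reflCoeff_coeff, coeff_map, coe_mapRingHom, reflect_map_eq]

end Reflect

section Field

variable {K : Type*} [Field K]

theorem pev1_inv_injective {t : LaurentSeries K} (ht : Function.Injective (pev1 t)) :
    Function.Injective (pev1 t⁻¹) := by
  have ht0 : t ≠ 0 := by
    intro h
    have h1 : pev1 t (X : K[X]) = pev1 t 0 := by rw [pev1_X, map_zero, h]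
    exact X_ne_zero (ht h1)
  rw [injective_iff_map_eq_zero]
  intro e he
  by_contra he0
  have h1 := pev1_inv_reflect t⁻¹ (inv_ne_zero ht0) e.natDegree e le_rfl
  rw [inv_inv, he] at h1
  have h2 : pev1 t (reflect e.natDegree e) = 0 := by
    rcases mul_eq_zero.mp h1 with h | h
    · exact h
    · exact absurd h (pow_ne_zero _ (inv_ne_zero ht0))
  exact reflect_ne_zero he0 le_rfl (ht (by rw [h2, map_zero]))

end Field

section Main

variable (ℓ : ℕ) [Fact ℓ.Prime]
variable {jR uR : LaurentSeries ↥(GaloisRep.ratLocalizedAt ℓ)}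

/-- (b) for `t = j⁻¹`. -/
theorem exists_root_poly_jinv
    (χR : (↥(GaloisRep.ratLocalizedAt ℓ))[X][X]) (hχm : χR.Monic) (hχu : pev2 jR uR χR = 0)
    (hj : incQ ℓ jR ≠ 0)
    {z : LaurentSeries ℚ} (hz : z ∈ Bsub ℓ jR uR) :
    ∃ fR : (↥(GaloisRep.ratLocalizedAt ℓ))[X][X], fR.leadingCoeff.map (resR ℓ) ≠ 0 ∧
      pev2 (incQ ℓ jR)⁻¹ z
        ((mapRingHom (mapRingHom (GaloisRep.ratLocalizedAt ℓ).subtype)) fR) = 0 := by
  classical
  obtain ⟨f, hf, hfz⟩ := exists_root_poly_j ℓ χR hχm hχu hz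
  set M : ℕ := f.support.sup (fun i => (f.coeff i).natDegree) with hM
  have hMle : ∀ i, (f.coeff i).natDegree ≤ M := by
    intro i
    by_cases hi : i ∈ f.support
    · exact Finset.le_sup (f := fun i => (f.coeff i).natDegree) hi
    · rw [notMem_support_iff.mp hi, natDegree_zero]; exact Nat.zero_le _
  have hlc0 : f.leadingCoeff ≠ 0 := by
    intro h
    rw [h, Polynomial.map_zero] at hf
    exact hf rfl
  have hrefl0 : reflect M f.leadingCoeff ≠ 0 := reflect_ne_zero hlc0 (hMle _)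
  have hdeg : (reflCoeff M f).natDegree = f.natDegree := by
    apply le_antisymm (reflCoeff_natDegree_le M f)
    apply le_natDegree_of_ne_zero
    rw [reflCoeff_coeff_natDegree]
    exact hrefl0
  refine ⟨reflCoeff M f, ?_, ?_⟩
  · rw [leadingCoeff, hdeg, reflCoeff_coeff_natDegree, reflect_map_eq]
    refine reflect_ne_zero hf ?_
    exact le_trans natDegree_map_le (hMle _)
  · have h1 : (mapRingHom (mapRingHom (GaloisRep.ratLocalizedAt ℓ).subtype)) (reflCoeff M f) =
        reflCoeff M ((mapRingHom (mapRingHom (GaloisRep.ratLocalizedAt ℓ).subtype)) f) :=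
      reflCoeff_map M _ f
    have h2 := pev2_inv_reflCoeff (incQ ℓ jR) z hj M
      ((mapRingHom (mapRingHom (GaloisRep.ratLocalizedAt ℓ).subtype)) f) (by
        intro i
        rw [coe_mapRingHom, coeff_map]
        exact le_trans natDegree_map_le (hMle i))
    rw [hfz] at h2
    rw [h1]
    rcases mul_eq_zero.mp h2 with h | h
    · exact h
    · exact absurd h (pow_ne_zero _ hj)

/-- **(K4)**, general form. -/
theorem exists_monic_of_ell_mul (t z : LaurentSeries ℚ) (ht : Function.Injective (pev1 t))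
    (hb : ∃ fR : (↥(GaloisRep.ratLocalizedAt ℓ))[X][X], fR.leadingCoeff.map (resR ℓ) ≠ 0 ∧
      pev2 t z ((mapRingHom (mapRingHom (GaloisRep.ratLocalizedAt ℓ).subtype)) fR) = 0)
    (pR : (↥(GaloisRep.ratLocalizedAt ℓ))[X][X]) (hp : pR.Monic)
    (hpz : pev2 t ((ℓ : LaurentSeries ℚ) * z)
      ((mapRingHom (mapRingHom (GaloisRep.ratLocalizedAt ℓ).subtype)) pR) = 0) :
    ∃ mR : (↥(GaloisRep.ratLocalizedAt ℓ))[X][X], mR.Monic ∧
      pev2 t z ((mapRingHom (mapRingHom (GaloisRep.ratLocalizedAt ℓ).subtype)) mR) = 0 := by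
  obtain ⟨fR, hlead, hfz⟩ := hb
  set p : ℚ[X][X] := (mapRingHom (mapRingHom (GaloisRep.ratLocalizedAt ℓ).subtype)) pR with hpdef
  have hpm : p.Monic := hp.map _
  have hℓ : ((ℓ : ℕ) : ℚ) ≠ 0 := by exact_mod_cast (Fact.out : ℓ.Prime).ne_zero
  set s : ℚ[X] := C ((ℓ : ℚ)⁻¹) with hs
  have hsz : pev1 t s * ((ℓ : LaurentSeries ℚ) * z) = z := by
    have e : ((ℓ : ℕ) : LaurentSeries ℚ) = HahnSeries.C ((ℓ : ℕ) : ℚ) := by rw [map_natCast]
    rw [hs, pev1_C, e, ← mul_assoc, ← map_mul, inv_mul_cancel₀ hℓ, map_one, one_mul]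
  have hg : pev2 t z (scaleRoots p s) = 0 := by
    have := scaleRoots_eval₂_mul (p := p) (pev1 t) ((ℓ : LaurentSeries ℚ) * z) s
    rw [hsz] at this
    rw [pev2_apply, this, ← pev2_apply, hpz, mul_zero]
  exact exists_monic_ratLoc_of_root ℓ t z ht (scaleRoots p s)
    ((monic_scaleRoots_iff s).mpr hpm) hg fR hlead hfz

end Main

end

end Fermat.Agent.S28
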