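import Mathlib
import Fermat.Agent.S28.RedProps

/-!
# S28 (K3): `B` is integrally closed in `ℚ(j)[u]`
-/

set_option autoImplicit false

namespace Fermat.Agent.S28

open Polynomial ModularCurve

noncomputable section

variable (ℓ : ℕ) [Fact ℓ.Prime]
variable {jR uR : LaurentSeries ↥(GaloisRep.ratLocalizedAt ℓ)}

/-- **(K3)** an element of `ℚ(j)[u]` which is integral over `B` lies in `B`. -/
theorem mem_Bsub_of_isIntegral {n : ℕ}
    (χR : (↥(GaloisRep.ratLocalizedAt ℓ))[X][X]) (hχm : χR.Monic) (hχd : χR.natDegree = n)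
    (hχu : pev2 jR uR χR = 0)
    (hind : IndepUpTo (redK ℓ jR) (redK ℓ uR) n)
    (hinj : Function.Injective (pev1 (redK ℓ jR)))
    {x : LaurentSeries ℚ} (hxT : InT (incQ ℓ jR) (incQ ℓ uR) x)
    (p : Polynomial ↥(Bsub ℓ jR uR)) (hp : p.Monic)
    (hpx : p.eval₂ (Bsub ℓ jR uR).subtype x = 0) :
    x ∈ Bsub ℓ jR uR := by
  classical
  by_cases hx0 : x = 0
  · rw [hx0]; exact zero_mem _
  obtain ⟨a, b, y, hy, heq⟩ := exists_normal_form ℓ χR hχm hχd hχu hind hinj hxT hx0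
  have hL : ∀ d : ℕ, ((ℓ : LaurentSeries ℚ) ^ d) ≠ 0 := natCast_laurentQ_ne_zero ℓ
  have hℓB : ((ℓ : ℕ) : LaurentSeries ℚ) ∈ Bsub ℓ jR uR := natCast_mem _ ℓ
  rcases le_or_gt a b with hab | hab
  · have h1 : (ℓ : LaurentSeries ℚ) ^ a * x =
        (ℓ : LaurentSeries ℚ) ^ a * ((ℓ : LaurentSeries ℚ) ^ (b - a) * (y : LaurentSeries ℚ)) := by
      rw [← mul_assoc, ← pow_add, Nat.add_sub_cancel' hab]; exact heq
    rw [mul_left_cancel₀ (hL a) h1]
    exact mul_mem (pow_mem hℓB _) y.2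
  · exfalso
    obtain ⟨d, hd⟩ : ∃ d, a = b + (d + 1) := ⟨a - b - 1, by omega⟩
    have h1 : (ℓ : LaurentSeries ℚ) ^ b * ((ℓ : LaurentSeries ℚ) ^ (d + 1) * x) =
        (ℓ : LaurentSeries ℚ) ^ b * (y : LaurentSeries ℚ) := by
      rw [← mul_assoc, ← pow_add, ← hd]; exact heq
    have h2 : (ℓ : LaurentSeries ℚ) ^ (d + 1) * x = (y : LaurentSeries ℚ) :=
      mul_left_cancel₀ (hL b) h1
    set s : ↥(Bsub ℓ jR uR) := ((ℓ : ℕ) : ↥(Bsub ℓ jR uR)) ^ (d + 1) with hs
    have hsval : (Bsub ℓ jR uR).subtype s = (ℓ : LaurentSeries ℚ) ^ (d + 1) := by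
      simp [hs]
    have hρs : rho ℓ jR uR hinj s = 0 := by
      rw [hs, map_pow, rho_natCast_ell, zero_pow (Nat.succ_ne_zero d)]
    set q := scaleRoots p s with hq
    have hq0 : q.eval₂ (Bsub ℓ jR uR).subtype ((Bsub ℓ jR uR).subtype y) = 0 := by
      have := scaleRoots_eval₂_mul (p := p) (Bsub ℓ jR uR).subtype x s
      rw [hpx, mul_zero, hsval, h2] at this
      exact this
    rw [eval₂_at_apply] at hq0
    have hq1 : q.eval y = 0 := by
      apply Subtype.val_injective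
      exact hq0
    have hq2 : (q.map (rho ℓ jR uR hinj)).eval (rho ℓ jR uR hinj y) = 0 := by
      rw [eval_map, eval₂_at_apply, hq1, map_zero]
    have hqmap : q.map (rho ℓ jR uR hinj) = X ^ p.natDegree := by
      ext i
      rw [coeff_map, hq, coeff_scaleRoots, coeff_X_pow]
      by_cases hi : i = p.natDegree
      · rw [if_pos hi, hi, hp.coeff_natDegree, Nat.sub_self, pow_zero, mul_one, map_one]
      · rw [if_neg hi]
        rcases lt_or_gt_of_ne hi with hlt | hgt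
        · rw [map_mul, map_pow, hρs, zero_pow (by omega), mul_zero]
        · rw [coeff_eq_zero_of_natDegree_lt hgt, zero_mul, map_zero]
    rw [hqmap, eval_pow, eval_X] at hq2
    exact hy (pow_eq_zero_iff (M₀ := LaurentSeries (ZMod ℓ)) (n := p.natDegree) (fun h0 => by
      rw [h0, pow_zero] at hq2; exact one_ne_zero hq2) |>.mp hq2)

end

end Fermat.Agent.S28
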