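import Mathlib
import Fermat.Prelude.Def_ModularCurve_X0ModL
import Fermat.Agent.S28.IntOver
import Fermat.Agent.S28.DescentD1
import Fermat.Agent.S28.RedClosed
import Fermat.Agent.S28.K4

/-!
# S28: `reduction_main` — the reduction package in the shape of `RedStatement`

Input: `u = q^{φ(n-1)}(1+…) ∈ ℤ((q))`, `χ ∈ ℚ[Y][X]` monic of degree `n` with `Z_(ℓ)`-coefficients, degree
bounds and `χ(j,u) = 0`, plus the field-theoretic facts `F ≤ ℚ(j,u)` and `ℚ(j,u) ⊆ ℚ(j)[u]` (`InT`).
Output: `RedStatement N ℓ`.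
-/

set_option autoImplicit false

namespace Fermat.Agent.S28

open Polynomial ModularCurve

noncomputable section

section Lift

variable (ℓ : ℕ)

theorem exists_lift_ratLoc1 (q : ℚ[X]) (hq : ∀ k, q.coeff k ∈ GaloisRep.ratLocalizedAt ℓ) :
    ∃ qR : (↥(GaloisRep.ratLocalizedAt ℓ))[X],
      (mapRingHom (GaloisRep.ratLocalizedAt ℓ).subtype) qR = q := by
  have : q ∈ Polynomial.lifts (GaloisRep.ratLocalizedAt ℓ).subtype := by
    rw [Polynomial.lifts_iff_coeff_lifts]
    intro k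
    exact ⟨⟨q.coeff k, hq k⟩, rfl⟩
  obtain ⟨qR, hqR⟩ := (Polynomial.mem_lifts _).mp this
  exact ⟨qR, hqR⟩

theorem exists_lift_ratLoc2 (p : ℚ[X][X])
    (hp : ∀ i k, (p.coeff i).coeff k ∈ GaloisRep.ratLocalizedAt ℓ) :
    ∃ pR : (↥(GaloisRep.ratLocalizedAt ℓ))[X][X],
      (mapRingHom (mapRingHom (GaloisRep.ratLocalizedAt ℓ).subtype)) pR = p := by
  have : p ∈ Polynomial.lifts (mapRingHom (GaloisRep.ratLocalizedAt ℓ).subtype) := by
    rw [Polynomial.lifts_iff_coeff_lifts]
    intro i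
    obtain ⟨qR, hqR⟩ := exists_lift_ratLoc1 ℓ (p.coeff i) (hp i)
    exact ⟨qR, hqR⟩
  obtain ⟨pR, hpR⟩ := (Polynomial.mem_lifts _).mp this
  exact ⟨pR, hpR⟩

theorem coeff_mem_of_map (pR : (↥(GaloisRep.ratLocalizedAt ℓ))[X][X]) (i k : ℕ) :
    (((mapRingHom (mapRingHom (GaloisRep.ratLocalizedAt ℓ).subtype)) pR).coeff i).coeff k ∈
      GaloisRep.ratLocalizedAt ℓ := by
  rw [coe_mapRingHom, coeff_map, coe_mapRingHom, coeff_map]
  exact ((pR.coeff i).coeff k).2

end Lift

section UnitSeries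

variable {k : Type*} [Field k]

/-- the series `q^a · E` over a commutative ring -/
def unitSeries (A : Type*) [CommRing A] (a : ℤ) (E : PowerSeries ℤ) : LaurentSeries A :=
  HahnSeries.single a (1 : A) * HahnSeries.ofPowerSeries ℤ A (E.map (Int.castRingHom A))

theorem coeffMap_unitSeries {A B : Type*} [CommRing A] [CommRing B] (f : A →+* B) (a : ℤ)
    (E : PowerSeries ℤ) : coeffMap f (unitSeries A a E) = unitSeries B a E := by
  rw [unitSeries, unitSeries, map_mul, coeffMap_single, map_one, coeffMap_ofPowerSeries]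
  congr 2
  rw [← RingHom.comp_apply (PowerSeries.map f) (PowerSeries.map (Int.castRingHom A)),
    ← PowerSeries.map_comp, RingHom.ext_int (f.comp (Int.castRingHom A)) (Int.castRingHom B)]

theorem ordV_ofPowerSeries_of_constantCoeff_ne_zero (F : PowerSeries k)
    (hF : PowerSeries.constantCoeff F ≠ 0) :
    ordV k (HahnSeries.ofPowerSeries ℤ k F) = ((0 : ℤ) : WithTop ℤ) := by
  rw [ordV, HahnSeries.addVal_apply]
  apply HahnSeries.orderTop_eq_of_le
  · rw [HahnSeries.mem_support]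
    have := HahnSeries.ofPowerSeries_apply_coeff (Γ := ℤ) F 0
    simp only [Nat.cast_zero] at this
    rw [this, PowerSeries.coeff_zero_eq_constantCoeff]
    exact hF
  · intro g hg
    by_contra hlt
    rw [not_le] at hlt
    rw [HahnSeries.mem_support] at hg
    exact hg (ofPowerSeries_coeff_of_neg F hlt)

theorem ordV_unitSeries (a : ℤ) (E : PowerSeries ℤ) (hE : PowerSeries.constantCoeff E = 1) :
    ordV k (unitSeries k a E) = (a : WithTop ℤ) := by
  rw [unitSeries, AddValuation.map_mul]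
  have h1 : ordV k (HahnSeries.single a (1 : k)) = (a : WithTop ℤ) := by
    rw [ordV, HahnSeries.addVal_apply, HahnSeries.orderTop_single one_ne_zero]
  have h2 : PowerSeries.constantCoeff (E.map (Int.castRingHom k)) ≠ 0 := by
    rw [← PowerSeries.coeff_zero_eq_constantCoeff, PowerSeries.coeff_map,
      PowerSeries.coeff_zero_eq_constantCoeff, hE, map_one]
    exact one_ne_zero
  rw [h1, ordV_ofPowerSeries_of_constantCoeff_ne_zero _ h2]
  simp

end UnitSeries

section Main

variable (N : ℕ) [NeZero N] (ℓ : ℕ) [Fact ℓ.Prime]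

theorem evJ_mem_Bsub {jR uR : LaurentSeries ↥(GaloisRep.ratLocalizedAt ℓ)}
    {s : LaurentSeries ℚ} (hs : s ∈ Bsub ℓ jR uR) (e : ℚ[X])
    (he : ∀ k, e.coeff k ∈ GaloisRep.ratLocalizedAt ℓ) : evJ s e ∈ Bsub ℓ jR uR := by
  rw [← pev1_eq_evJ, pev1_apply, eval₂_eq_sum_range]
  refine sum_mem fun k _ => ?_
  exact mul_mem (const_mem_Bsub ℓ jR uR ⟨e.coeff k, he k⟩) (pow_mem hs k)

omit [NeZero N] in
/-- **Reduction package** (`K1`–`K4` in the shape of `RedStatement`). -/
theorem reduction_main {n φ : ℕ} (hφ : 0 < φ) (u : LaurentSeries ℚ)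
    (hu : IsMonicUnitSeries u (((φ * (n - 1) : ℕ) : ℤ)))
    (χ : ℚ[X][X]) (hχm : χ.Monic) (hχd : χ.natDegree = n)
    (hχc : ∀ i, i < n → (χ.coeff i).natDegree + φ * i ≤ φ * n)
    (hχint : ∀ i k, (χ.coeff i).coeff k ∈ GaloisRep.ratLocalizedAt ℓ)
    (hχu : χ.eval₂ (evJ jq) u = 0)
    (hD3 : modularFunctionFieldFull N ≤
      IntermediateField.adjoin ℚ ({jq, u} : Set (LaurentSeries ℚ)))
    (hT : ∀ x ∈ IntermediateField.adjoin ℚ ({jq, u} : Set (LaurentSeries ℚ)), InT jq u x) :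
    RedStatement N ℓ := by
  classical
  obtain ⟨E, hE, hu_eq⟩ := hu
  set a : ℤ := ((φ * (n - 1) : ℕ) : ℤ) with ha
  set ι := (GaloisRep.ratLocalizedAt ℓ).subtype with hι
  have hιinj : Function.Injective ι := Subtype.val_injective
  have hι1 : Function.Injective (mapRingHom ι) := Polynomial.map_injective ι hιinj
  set jR : LaurentSeries ↥(GaloisRep.ratLocalizedAt ℓ) := unitSeries _ (-1) jNum with hjR
  set uR : LaurentSeries ↥(GaloisRep.ratLocalizedAt ℓ) := unitSeries _ a E with huR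
  have hjQ : incQ ℓ jR = jq := by
    rw [hjR, coeffMap_unitSeries]; rfl
  have huQ : incQ ℓ uR = u := by
    rw [huR, coeffMap_unitSeries, hu_eq]; rfl
  have hjk : ordV (ZMod ℓ) (redK ℓ jR) = ((-1 : ℤ) : WithTop ℤ) := by
    rw [hjR, coeffMap_unitSeries]
    exact ordV_unitSeries (-1) jNum constantCoeff_jNum
  have huk : ordV (ZMod ℓ) (redK ℓ uR) = (a : WithTop ℤ) := by
    rw [huR, coeffMap_unitSeries]
    exact ordV_unitSeries a E hE
  obtain ⟨χR, hχR⟩ := exists_lift_ratLoc2 ℓ χ hχint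
  have hχRm : χR.Monic := monic_of_injective hι1 (by
    have : Polynomial.map (mapRingHom ι) χR = (mapRingHom (mapRingHom ι)) χR := rfl
    rw [this, hχR]; exact hχm)
  have hχRd : χR.natDegree = n := by
    rw [← hχd, ← hχR]; exact (natDegree_map_eq_of_injective hι1 _).symm
  have hχRu : pev2 jR uR χR = 0 := by
    apply incQ_injective ℓ
    have : Polynomial.map (mapRingHom ι) χR = (mapRingHom (mapRingHom ι)) χR := rfl
    rw [coeffMap_pev2, map_zero, this, hχR, hjQ, huQ, pev2_eq_eval₂_evJ]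
    exact hχu
  -- the reduction of `χ`
  set χk : (ZMod ℓ)[X][X] := (mapRingHom (mapRingHom (resR ℓ))) χR with hχk
  have hχkm : χk.Monic := hχRm.map _
  have hχkd : χk.natDegree = n := by
    rw [← hχRd]; exact hχRm.natDegree_map _
  have hχkc : ∀ i, i < n → (χk.coeff i).natDegree + φ * i ≤ φ * n := by
    intro i hi
    refine le_trans (Nat.add_le_add_right ?_ _) (hχc i hi)
    rw [hχk, coe_mapRingHom, coeff_map, coe_mapRingHom]
    calc ((χR.coeff i).map (resR ℓ)).natDegree ≤ (χR.coeff i).natDegree := natDegree_map_le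
      _ = ((χR.coeff i).map ι).natDegree := (natDegree_map_eq_of_injective hιinj _).symm
      _ = (χ.coeff i).natDegree := by
          rw [← hχR, coe_mapRingHom, coeff_map, coe_mapRingHom]
  have hχku : pev2 (redK ℓ jR) (redK ℓ uR) χk = 0 := by
    have : χk = Polynomial.map (mapRingHom (resR ℓ)) χR := rfl
    rw [this, ← coeffMap_pev2, hχRu, map_zero]
  have huk0 : redK ℓ uR ≠ 0 := by
    intro h
    rw [h, AddValuation.map_zero] at huk
    exact WithTop.top_ne_coe huk
  have hind : IndepUpTo (redK ℓ jR) (redK ℓ uR) n := by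
    intro P hP h0
    exact order_lemma (redK ℓ jR) (redK ℓ uR) hjk huk0 hφ χk hχkm hχkd hχkc
      (by rw [← pev2_eq_eval₂_evJ]; exact hχku) (by rw [huk]) P hP
      (by rw [← pev2_eq_eval₂_evJ]; exact h0)
  have hn : 0 < n := indep_pos ℓ jR uR χR hχRm hχRd hχRu
  have hinj : Function.Injective (pev1 (redK ℓ jR)) := pev1_injective_of_indep hn hind
  have hinjQ : Function.Injective (pev1 jq) := by
    have := pev1_incQ_injective ℓ hinj
    rwa [hjQ] at this
  have hj0 : jq ≠ 0 := jq_ne_zero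
  have hjB : jq ∈ Bsub ℓ jR uR := by
    have := j_mem_Bsub ℓ jR uR
    rwa [hjQ] at this
  have hjinvB : jq⁻¹ ∈ Bsub ℓ jR uR := by
    have := jinv_mem_Bsub ℓ jR uR (by rw [hjQ]; exact hj0)
    rwa [hjQ] at this
  have hsB : ∀ s ∈ ({jq, jq⁻¹} : Set (LaurentSeries ℚ)), s ∈ Bsub ℓ jR uR := by
    intro s hs
    rcases hs with rfl | hs
    · exact hjB
    · rw [Set.mem_singleton_iff] at hs; rw [hs]; exact hjinvB
  have hTR : ∀ x ∈ IntermediateField.adjoin ℚ ({jq, u} : Set (LaurentSeries ℚ)),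
      InT (incQ ℓ jR) (incQ ℓ uR) x := by
    intro x hx
    rw [hjQ, huQ]; exact hT x hx
  refine ⟨u, Bsub ℓ jR uR, rho ℓ jR uR hinj, hD3, ?_, ?_, ?_⟩
  · -- K3
    intro x hx s hs hint
    obtain ⟨p, hpm, hpint, hpx⟩ := hint
    set q : (LaurentSeries ℚ)[X] := p.map (evJ s) with hq
    have hqm : q.Monic := hpm.map _
    have hqc : (↑q.coeffs : Set (LaurentSeries ℚ)) ⊆ (Bsub ℓ jR uR) := by
      intro c hc
      obtain ⟨i, -, rfl⟩ := (Polynomial.mem_coeffs_iff).mp hc
      rw [hq, coeff_map]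
      exact evJ_mem_Bsub ℓ (hsB s hs) _ (hpint i)
    refine mem_Bsub_of_isIntegral ℓ χR hχRm hχRd hχRu hind hinj (hTR x hx)
      (q.toSubring (Bsub ℓ jR uR) hqc) ((monic_toSubring q _ hqc).mpr hqm) ?_
    rw [← eval_map, map_toSubring, hq, eval_map]
    exact hpx
  · -- kernel
    intro y hy
    exact rho_ker ℓ χR hχRm hχRd hχRu hind hinj y hy
  · -- K4
    intro z hzB _ s hs hint
    obtain ⟨p, hpm, hpint, hpz⟩ := hint
    obtain ⟨pR, hpR⟩ := exists_lift_ratLoc2 ℓ p hpint
    have hpRm : pR.Monic := monic_of_injective hι1 (by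
      have : Polynomial.map (mapRingHom ι) pR = (mapRingHom (mapRingHom ι)) pR := rfl
      rw [this, hpR]; exact hpm)
    have hts : Function.Injective (pev1 s) := by
      rcases hs with rfl | hs
      · exact hinjQ
      · rw [Set.mem_singleton_iff] at hs; rw [hs]; exact pev1_inv_injective hinjQ
    have hb : ∃ fR : (↥(GaloisRep.ratLocalizedAt ℓ))[X][X], fR.leadingCoeff.map (resR ℓ) ≠ 0 ∧
        pev2 s z ((mapRingHom (mapRingHom (GaloisRep.ratLocalizedAt ℓ).subtype)) fR) = 0 := by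
      rcases hs with rfl | hs
      · have := exists_root_poly_j ℓ χR hχRm hχRu hzB
        rwa [hjQ] at this
      · rw [Set.mem_singleton_iff] at hs
        have := exists_root_poly_jinv ℓ χR hχRm hχRu (by rw [hjQ]; exact hj0) hzB
        rw [hjQ] at this
        rw [hs]; exact this
    obtain ⟨mR, hmRm, hmRz⟩ := exists_monic_of_ell_mul ℓ s z hts hb pR hpRm
      (by rw [hpR, pev2_eq_eval₂_evJ]; exact hpz)
    exact ⟨(mapRingHom (mapRingHom (GaloisRep.ratLocalizedAt ℓ).subtype)) mR, hmRm.map _,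
      coeff_mem_of_map ℓ mR, by rw [← pev2_eq_eval₂_evJ]; exact hmRz⟩

end Main

end

end Fermat.Agent.S28
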