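/-
S28 (Igusa), WP3a: general "Δ-quotients" `f(τ) = ∏_{i ∈ S} Δ(δ_i τ)^{m_i}`:
slash formula, limit of the translates at `i∞`, modularity when all cusp orders are `≥ 0`.
-/
import Fermat.Agent.S28.DeltaQuotDefs

set_option autoImplicit false

namespace Fermat.Agent.S28

open UpperHalfPlane hiding I
open ModularForm Filter Complex
open scoped Real Topology MatrixGroups ModularForm

lemma wp3_det_upper (a b d : ℝ) (had : a * d ≠ 0) :
    ((upperTriangularGL a b d had).det : ℝ) = a * d := by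
  rw [Matrix.GeneralLinearGroup.val_det_apply, val_upperTriangularGL, Matrix.det_fin_two_of]
  ring

lemma wp3_denom_upper (a b d : ℝ) (had : a * d ≠ 0) (τ : ℍ) :
    denom (upperTriangularGL a b d had) τ = d := by
  simp [denom, val_upperTriangularGL]

lemma wp3_num_upper (a b d : ℝ) (had : a * d ≠ 0) (τ : ℍ) :
    num (upperTriangularGL a b d had) τ = a * τ + b := by
  simp [num, val_upperTriangularGL]

/-- Slash of weight `12` by an upper triangular matrix with natural diagonal entries. -/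
lemma wp3_slash_upper (f : ℍ → ℂ) (e d : ℕ) (b : ℤ) (hed : (e : ℝ) * (d : ℝ) ≠ 0) (τ : ℍ) :
    (f ∣[(12 : ℤ)] upperTriangularGL (e : ℝ) (b : ℝ) (d : ℝ) hed) τ =
      f (upperTriangularGL (e : ℝ) (b : ℝ) (d : ℝ) hed • τ) * ((e : ℂ) * (d : ℂ)) ^ 11 *
        ((d : ℂ) ^ 12)⁻¹ := by
  have hpos : 0 < ((upperTriangularGL (e : ℝ) (b : ℝ) (d : ℝ) hed).det : ℝ) := by
    rw [wp3_det_upper]
    have h1 : (0 : ℝ) ≤ (e : ℝ) * (d : ℝ) := by positivity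
    exact lt_of_le_of_ne h1 (Ne.symm hed)
  have hσ : UpperHalfPlane.σ (upperTriangularGL (e : ℝ) (b : ℝ) (d : ℝ) hed) = .refl ℝ ℂ := by
    rw [UpperHalfPlane.σ, if_pos hpos]
  rw [ModularForm.slash_apply, hσ, wp3_denom_upper, wp3_det_upper]
  have habs : |(e : ℝ) * (d : ℝ)| = (e : ℝ) * (d : ℝ) := abs_of_nonneg (by positivity)
  rw [habs]
  simp only [ContinuousAlgEquiv.refl_apply]
  rw [show ((12 : ℤ) - 1) = ((11 : ℕ) : ℤ) by norm_num, zpow_natCast,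
    show (-(12 : ℤ)) = -((12 : ℕ) : ℤ) by norm_num, zpow_neg, zpow_natCast]
  push_cast
  ring

/-- `Δ` is invariant under `SL(2,ℤ)` (as elements of `GL(2,ℝ)`). -/
lemma wp3_discriminant_slash (g : SL(2, ℤ)) :
    ModularForm.discriminant ∣[(12 : ℤ)] (g : GL (Fin 2) ℝ) = ModularForm.discriminant := by
  rw [← SL_slash]
  exact SlashInvariantForm.slash_action_generators_SL2Z discriminant_S_invariant
    discriminant_T_invariant g

lemma wp3_heckeDiagMatrix_eq {δ : ℕ} (hδ : δ ≠ 0) :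
    heckeDiagMatrix δ = upperTriangularGL (δ : ℝ) ((0 : ℤ) : ℝ) ((1 : ℕ) : ℝ)
      (by simpa using hδ) := by
  simp [heckeDiagMatrix, hδ]

/-- `dDelta δ` as a scalar multiple of a slash of `Δ`. -/
lemma dDelta_eq_smul_slash {δ : ℕ} (hδ : δ ≠ 0) :
    dDelta δ = (((δ : ℂ) ^ 11)⁻¹ : ℂ) • (discriminant ∣[(12 : ℤ)] heckeDiagMatrix δ) := by
  have hδC : (δ : ℂ) ≠ 0 := by exact_mod_cast hδ
  funext τ
  rw [Pi.smul_apply, smul_eq_mul]
  have h := wp3_slash_upper discriminant δ 1 0 (by simpa using hδ) τ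
  rw [← wp3_heckeDiagMatrix_eq hδ] at h
  rw [h, dDelta]
  simp only [Nat.cast_one, mul_one, one_pow, inv_one]
  field_simp

/-- (G0) slash formula for `τ ↦ Δ(δ τ)` under `SL(2,ℤ)`. -/
theorem dDelta_slash_SL {δ : ℕ} (hδ : δ ≠ 0) (γ : SL(2, ℤ)) :
    ∃ b : ℤ, ∀ τ : ℍ, (dDelta δ ∣[(12 : ℤ)] γ) τ =
      ((wp1E δ γ : ℂ) ^ 12)⁻¹ *
        discriminant (upperTriangularGL (wp1G δ γ) b (wp1E δ γ) (wp1_ne hδ γ) • τ) := by
  obtain ⟨σ, b, hmat⟩ := wp1_hermite_GL δ hδ γ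
  refine ⟨b, fun τ => ?_⟩
  have hδC : (δ : ℂ) ≠ 0 := by exact_mod_cast hδ
  have hprod : ((wp1G δ γ : ℂ) * (wp1E δ γ : ℂ)) = (δ : ℂ) := by
    exact_mod_cast congrArg (Nat.cast : ℕ → ℂ) (wp1G_mul_wp1E δ γ)
  have hE : (wp1E δ γ : ℂ) ≠ 0 := by exact_mod_cast (wp1E_pos hδ γ).ne'
  have hslash : dDelta δ ∣[(12 : ℤ)] γ = (((δ : ℂ) ^ 11)⁻¹ : ℂ) •
      (discriminant ∣[(12 : ℤ)]
        upperTriangularGL (wp1G δ γ) b (wp1E δ γ) (wp1_ne hδ γ)) := by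
    rw [dDelta_eq_smul_slash hδ, SL_smul_slash, SL_slash, ← SlashAction.slash_mul, hmat,
      SlashAction.slash_mul, wp3_discriminant_slash]
  rw [hslash, Pi.smul_apply, smul_eq_mul, wp3_slash_upper, hprod]
  field_simp

/-- Coordinates of `T • τ` for an upper triangular `T` with natural diagonal entries. -/
lemma wp3_coe_upper_smul (g e : ℕ) (b : ℤ) (hne : (g : ℝ) * (e : ℝ) ≠ 0) (τ : ℍ) :
    ((upperTriangularGL (g : ℝ) (b : ℝ) (e : ℝ) hne • τ : ℍ) : ℂ) =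
      ((g : ℂ) * (τ : ℂ) + (b : ℂ)) / (e : ℂ) := by
  have hpos : 0 < ((upperTriangularGL (g : ℝ) (b : ℝ) (e : ℝ) hne).det : ℝ) := by
    rw [wp3_det_upper]
    have h1 : (0 : ℝ) ≤ (g : ℝ) * (e : ℝ) := by positivity
    exact lt_of_le_of_ne h1 (Ne.symm hne)
  rw [coe_smul_of_det_pos hpos, wp3_denom_upper, wp3_num_upper]
  push_cast
  rfl

lemma wp3_qParam_upper (g e : ℕ) (b : ℤ) (hne : (g : ℝ) * (e : ℝ) ≠ 0) (τ : ℍ) :
    Function.Periodic.qParam 1 ((upperTriangularGL (g : ℝ) (b : ℝ) (e : ℝ) hne • τ : ℍ) : ℂ) *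
        cexp (-(2 * π * I * (((g : ℝ) / (e : ℝ) : ℝ) : ℂ) * (τ : ℂ))) =
      cexp (2 * π * I * ((b : ℂ) / (e : ℂ))) := by
  have he : (e : ℂ) ≠ 0 := by
    have : (e : ℝ) ≠ 0 := right_ne_zero_of_mul hne
    exact_mod_cast this
  rw [Function.Periodic.qParam, wp3_coe_upper_smul, ← Complex.exp_add]
  congr 1
  push_cast
  field_simp
  ring

/-- Asymptotics of `Δ(T τ)` at `i∞` for upper triangular `T = (g b; 0 e)`. -/
lemma wp3_tendsto_discriminant_upper (g e : ℕ) (b : ℤ) (hne : (g : ℝ) * (e : ℝ) ≠ 0) :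
    Tendsto (fun τ : ℍ => discriminant (upperTriangularGL (g : ℝ) (b : ℝ) (e : ℝ) hne • τ) *
        cexp (-(2 * π * I * (((g : ℝ) / (e : ℝ) : ℝ) : ℂ) * (τ : ℂ))))
      atImInfty (𝓝 (cexp (2 * π * I * ((b : ℂ) / (e : ℂ))))) := by
  have h0 : (upperTriangularGL (g : ℝ) (b : ℝ) (e : ℝ) hne) 1 0 = 0 := by
    simp [val_upperTriangularGL]
  have h1 := tendsto_discriminant_div_qParam.comp (UpperHalfPlane.tendsto_smul_atImInfty h0)
  have h2 := h1.mul_const (cexp (2 * π * I * ((b : ℂ) / (e : ℂ))))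
  rw [one_mul] at h2
  refine h2.congr fun τ => ?_
  have hq := wp2_qParam_one_ne_zero (upperTriangularGL (g : ℝ) (b : ℝ) (e : ℝ) hne • τ)
  have hk := wp3_qParam_upper g e b hne τ
  simp only [Function.comp_apply]
  rw [← hk]
  field_simp

/-- Limit at `i∞` of the translates of `τ ↦ Δ(δ τ)`. -/
lemma wp3_tendsto_dDelta_slash {δ : ℕ} (hδ : δ ≠ 0) (γ : SL(2, ℤ)) :
    ∃ κ : ℂ, ‖κ‖ = ((wp1E δ γ : ℝ) ^ 12)⁻¹ ∧
      Tendsto (fun τ : ℍ => (dDelta δ ∣[(12 : ℤ)] γ) τ *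
        cexp (-(2 * π * I * ((((wp1G δ γ : ℝ) ^ 2 / (δ : ℝ) : ℝ)) : ℂ) * (τ : ℂ))))
        atImInfty (𝓝 κ) := by
  obtain ⟨b, hb⟩ := dDelta_slash_SL hδ γ
  have hg : (wp1G δ γ : ℝ) ≠ 0 := by exact_mod_cast (wp1G_pos hδ γ).ne'
  have he : (wp1E δ γ : ℝ) ≠ 0 := by exact_mod_cast (wp1E_pos hδ γ).ne'
  have hprod : (wp1G δ γ : ℝ) * (wp1E δ γ : ℝ) = (δ : ℝ) := by
    exact_mod_cast congrArg (Nat.cast : ℕ → ℝ) (wp1G_mul_wp1E δ γ)
  have hord : (wp1G δ γ : ℝ) ^ 2 / (δ : ℝ) = (wp1G δ γ : ℝ) / (wp1E δ γ : ℝ) := by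
    rw [← hprod]
    field_simp
  refine ⟨((wp1E δ γ : ℂ) ^ 12)⁻¹ * cexp (2 * π * I * ((b : ℂ) / (wp1E δ γ : ℂ))), ?_, ?_⟩
  · rw [norm_mul, norm_inv, norm_pow, Complex.norm_natCast]
    have : ‖cexp (2 * π * I * ((b : ℂ) / (wp1E δ γ : ℂ)))‖ = 1 := by
      rw [Complex.norm_exp]
      simp
    rw [this, mul_one]
  · have h := (wp3_tendsto_discriminant_upper (wp1G δ γ) (wp1E δ γ) b (wp1_ne hδ γ)).const_mul
      (((wp1E δ γ : ℂ) ^ 12)⁻¹)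
    refine h.congr fun τ => ?_
    rw [hb τ, hord, mul_assoc]
    ring_nf

/-- `∏ a ^ f i = a ^ ∑ f i` for integer exponents. -/
lemma wp3_prod_zpow {ι : Type*} (S : Finset ι) (a : ℂ) (ha : a ≠ 0) (f : ι → ℤ) :
    ∏ i ∈ S, a ^ f i = a ^ ∑ i ∈ S, f i := by
  classical
  induction S using Finset.induction_on with
  | empty => simp
  | insert i t hi IH => rw [Finset.prod_insert hi, Finset.sum_insert hi, IH, zpow_add₀ ha]

variable {ι : Type*}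

/-- Pointwise formula for the translates of a Δ-quotient. -/
lemma dqFun_slash_apply (S : Finset ι) (δ : ι → ℕ) (m : ι → ℤ) (γ : SL(2, ℤ)) (τ : ℍ) :
    (dqFun S δ m ∣[dqWeight S m] γ) τ = ∏ i ∈ S, ((dDelta (δ i) ∣[(12 : ℤ)] γ) τ) ^ m i := by
  simp only [SL_slash_apply, dqFun, dqWeight, mul_zpow, Finset.prod_mul_distrib]
  congr 1
  have hd : denom (γ : GL (Fin 2) ℝ) τ ≠ 0 := denom_ne_zero _ _
  have h1 : ∀ i ∈ S, (denom (γ : GL (Fin 2) ℝ) τ ^ (-(12 : ℤ))) ^ m i =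
      denom (γ : GL (Fin 2) ℝ) τ ^ (-(12 : ℤ) * m i) := fun i _ => (zpow_mul _ _ _).symm
  rw [Finset.prod_congr rfl h1, wp3_prod_zpow S _ hd, ← Finset.mul_sum]
  congr 1
  ring

/-- (G1) limit of the translates of a Δ-quotient at `i∞`. -/
theorem exists_tendsto_dqFun_slash (S : Finset ι) (δ : ι → ℕ) (hS : ∀ i ∈ S, δ i ≠ 0)
    (m : ι → ℤ) (γ : SL(2, ℤ)) :
    ∃ κ : ℂ, ‖κ‖ = ∏ i ∈ S, ((wp1E (δ i) γ : ℝ) ^ (12 * m i))⁻¹ ∧
      Tendsto (fun τ : ℍ => (dqFun S δ m ∣[dqWeight S m] γ) τ *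
        cexp (-(2 * π * I * (dqOrd S δ m γ : ℂ) * (τ : ℂ)))) atImInfty (𝓝 κ) := by
  classical
  have hex : ∀ d : ℕ, d ≠ 0 → ∃ κ : ℂ, ‖κ‖ = ((wp1E d γ : ℝ) ^ 12)⁻¹ ∧
      Tendsto (fun τ : ℍ => (dDelta d ∣[(12 : ℤ)] γ) τ *
        cexp (-(2 * π * I * ((((wp1G d γ : ℝ) ^ 2 / (d : ℝ) : ℝ)) : ℂ) * (τ : ℂ))))
        atImInfty (𝓝 κ) := fun d hd => wp3_tendsto_dDelta_slash hd γ
  choose! κ hκn hκt using hex
  have hκ0 : ∀ i ∈ S, κ (δ i) ≠ 0 := by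
    intro i hi
    rw [← norm_pos_iff, hκn _ (hS i hi)]
    have : (0 : ℝ) < (wp1E (δ i) γ : ℝ) := by exact_mod_cast wp1E_pos (hS i hi) γ
    positivity
  refine ⟨∏ i ∈ S, κ (δ i) ^ m i, ?_, ?_⟩
  · rw [norm_prod]
    refine Finset.prod_congr rfl fun i hi => ?_
    rw [norm_zpow, hκn _ (hS i hi), inv_zpow, ← zpow_natCast, ← zpow_mul]
    norm_num
  · have hprod := tendsto_finsetProd S fun i hi =>
      ((hκt _ (hS i hi)).zpow₀ (m i) (Or.inl (hκ0 i hi)))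
    refine hprod.congr fun τ => ?_
    rw [dqFun_slash_apply]
    simp only [mul_zpow, Finset.prod_mul_distrib]
    congr 1
    simp only [← Complex.exp_int_mul, ← Complex.exp_sum]
    congr 1
    rw [dqOrd]
    push_cast
    rw [Finset.mul_sum, Finset.sum_mul, ← Finset.sum_neg_distrib]
    refine Finset.sum_congr rfl fun i _ => ?_
    ring

/-- (G1), `ℕ`-indexed version. -/
theorem exists_tendsto_deltaQuot_slash (S : Finset ℕ) (hS : ∀ δ ∈ S, δ ≠ 0) (m : ℕ → ℤ)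
    (γ : SL(2, ℤ)) :
    ∃ κ : ℂ, ‖κ‖ = ∏ δ ∈ S, ((wp1E δ γ : ℝ) ^ (12 * m δ))⁻¹ ∧
      Tendsto (fun τ : ℍ => (deltaQuot S m ∣[deltaQuotWeight S m] γ) τ *
        cexp (-(2 * π * I * (deltaQuotOrd S m γ : ℂ) * (τ : ℂ)))) atImInfty (𝓝 κ) :=
  exists_tendsto_dqFun_slash S id hS m γ

end Fermat.Agent.S28
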