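import Fermat.Agent.S28.DeltaQuotHolo
import Fermat.Agent.S28.DeltaQuot
import Fermat.Agent.S23.ThetaDef

/-!
# S28, WP3 (helper31): a Δ-quotient with bounded translates is a modular form on `Γ₀(N)`

`isMF_deltaQuot_of_tendsto` : `(G2)` deduced from the statement of `(G1)`.
-/

set_option autoImplicit false

namespace Fermat.Agent.S28

open UpperHalfPlane hiding I
open ModularForm Filter Complex MatrixGroups Topology SlashInvariantForm OnePoint
open scoped Real Manifold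

lemma wp3b_G0_le_of_dvd {N d : ℕ} (hd : d ∣ N) : S23.G0 N ≤ S23.G0 d := by
  refine Subgroup.map_mono fun γ hγ => ?_
  rw [CongruenceSubgroup.Gamma0_mem] at hγ ⊢
  have h1 : (N : ℤ) ∣ γ 1 0 := (ZMod.intCast_zmod_eq_zero_iff_dvd _ N).mp hγ
  exact (ZMod.intCast_zmod_eq_zero_iff_dvd _ d).mpr ((Int.natCast_dvd_natCast.mpr hd).trans h1)

/-- `Δ(δ ·)` is invariant under `Γ₀(N)` for `δ ∣ N`: pointwise form. -/
lemma dDelta_smul_of_mem_G0 {N δ : ℕ} [NeZero N] (hδ : δ ∣ N) {γ : SL(2, ℤ)}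
    (hγ : (γ : GL (Fin 2) ℝ) ∈ S23.G0 N) (τ : ℍ) :
    dDelta δ (γ • τ) = denom γ τ ^ (12 : ℤ) * dDelta δ τ := by
  have hδ0 : δ ≠ 0 := fun h => NeZero.ne N (by rw [h] at hδ; exact Nat.eq_zero_of_zero_dvd hδ)
  have : NeZero δ := ⟨hδ0⟩
  have h1 : (⇑CuspForm.discriminant ∣[(12 : ℤ)] heckeDiagMatrix δ) ∣[(12 : ℤ)] (γ : GL (Fin 2) ℝ) =
      ⇑CuspForm.discriminant ∣[(12 : ℤ)] heckeDiagMatrix δ :=
    (CuspForm.translate CuspForm.discriminant (heckeDiagMatrix δ)).slash_action_eq' _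
      (S23.Theta.G0_le_conj δ (wp3b_G0_le_of_dvd hδ hγ))
  have h2 := congrFun h1 τ
  rw [← SL_slash, SL_slash_apply, slash_heckeDiagMatrix_apply 12 hδ0,
    slash_heckeDiagMatrix_apply 12 hδ0] at h2
  have hδC : ((δ : ℂ) ^ ((12 : ℤ) - 1)) ≠ 0 := zpow_ne_zero _ (by exact_mod_cast hδ0)
  have hden : denom γ τ ≠ 0 := denom_ne_zero _ _
  have h3 : discriminant (heckeDiagMatrix δ • (γ • τ)) * denom γ τ ^ (-(12 : ℤ)) =
      discriminant (heckeDiagMatrix δ • τ) := by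
    simp only [CuspForm.coe_discriminant] at h2
    rw [mul_assoc] at h2
    exact mul_left_cancel₀ hδC h2
  unfold dDelta
  rw [← h3, mul_comm (discriminant _), ← mul_assoc, ← zpow_add₀ hden]
  simp

lemma wp3b_prod_zpow_mul {x : ℂ} (hx : x ≠ 0) (S : Finset ℕ) (m : ℕ → ℤ) (a : ℤ) :
    ∏ δ ∈ S, x ^ (a * m δ) = x ^ (a * ∑ δ ∈ S, m δ) := by
  classical
  induction S using Finset.induction_on with
  | empty => simp
  | insert b S hb ih =>
    rw [Finset.prod_insert hb, Finset.sum_insert hb, ih, ← zpow_add₀ hx, mul_add]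

/-- A Δ-quotient of levels dividing `N` is slash invariant under `Γ₀(N)`. -/
lemma deltaQuot_slash_of_mem_G0 {N : ℕ} [NeZero N] (S : Finset ℕ) (hS : ∀ δ ∈ S, δ ∣ N)
    (m : ℕ → ℤ) {γ : SL(2, ℤ)} (hγ : (γ : GL (Fin 2) ℝ) ∈ S23.G0 N) :
    deltaQuot S m ∣[deltaQuotWeight S m] γ = deltaQuot S m := by
  funext τ
  rw [SL_slash_apply]
  have hden : denom γ τ ≠ 0 := denom_ne_zero _ _
  unfold deltaQuot deltaQuotWeight
  rw [Finset.prod_congr rfl fun δ hδ => by rw [dDelta_smul_of_mem_G0 (hS δ hδ) hγ τ, mul_zpow]]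
  rw [Finset.prod_mul_distrib, Finset.prod_congr rfl fun δ _ => (zpow_mul (denom γ τ) 12 (m δ)).symm,
    wp3b_prod_zpow_mul hden, mul_right_comm, ← zpow_add₀ hden]
  simp

/-- Boundedness at `i∞` of a function which, after multiplication by `e^{-2πi o τ}` with
`o ≥ 0`, has a limit at `i∞`. -/
lemma wp3b_isBoundedAtImInfty_of_tendsto {g : ℍ → ℂ} {o : ℝ} (ho : 0 ≤ o) {κ : ℂ}
    (h : Tendsto (fun τ : ℍ => g τ * cexp (-(2 * π * I * (o : ℂ) * (τ : ℂ)))) atImInfty (𝓝 κ)) :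
    IsBoundedAtImInfty g := by
  rw [IsBoundedAtImInfty, BoundedAtFilter]
  have h1 := h.isBigO_one ℝ
  refine Asymptotics.IsBigO.trans (Asymptotics.IsBigO.of_bound 1 ?_) h1
  refine Filter.Eventually.of_forall fun τ => ?_
  rw [one_mul, norm_mul, Complex.norm_exp]
  have h2 : (-(2 * π * I * (o : ℂ) * (τ : ℂ))).re = 2 * π * o * τ.im := by
    simp
  rw [h2]
  have h3 : 1 ≤ Real.exp (2 * π * o * τ.im) := by
    apply Real.one_le_exp
    have := τ.im_pos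
    positivity
  calc ‖g τ‖ = ‖g τ‖ * 1 := (mul_one _).symm
    _ ≤ ‖g τ‖ * Real.exp (2 * π * o * τ.im) := by gcongr

/-- **(G2) from (G1)**: a Δ-quotient with levels dividing `N`, nonnegative order at all cusps, and
whose translates have the asymptotics of `(G1)`, is a modular form on `Γ₀(N)`. -/
theorem isMF_deltaQuot_of_tendsto (N : ℕ) [NeZero N] (S : Finset ℕ) (hS : ∀ δ ∈ S, δ ∣ N)
    (m : ℕ → ℤ) (ho : ∀ γ : SL(2, ℤ), 0 ≤ deltaQuotOrd S m γ)
    (hG1 : ∀ γ : SL(2, ℤ), ∃ κ : ℂ,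
      Tendsto (fun τ : ℍ => (deltaQuot S m ∣[deltaQuotWeight S m] γ) τ *
        cexp (-(2 * π * I * (deltaQuotOrd S m γ : ℂ) * (τ : ℂ)))) atImInfty (𝓝 κ)) :
    S23.IsMF (S23.G0 N) (deltaQuotWeight S m) (deltaQuot S m) := by
  refine ⟨{ toFun := deltaQuot S m
            slash_action_eq' := ?_
            holo' := mdifferentiable_deltaQuot S m
            bdd_at_cusps' := ?_ }, rfl⟩
  · intro g hg
    obtain ⟨γ, -, rfl⟩ := Subgroup.mem_map.mp hg
    have := deltaQuot_slash_of_mem_G0 S hS m (γ := γ) hg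
    rwa [SL_slash] at this
  · intro c hc
    rw [Subgroup.IsArithmetic.isCusp_iff_isCusp_SL2Z] at hc
    rw [isBoundedAt_iff_forall_SL2Z hc]
    intro γ _
    obtain ⟨κ, hκ⟩ := hG1 γ
    exact wp3b_isBoundedAtImInfty_of_tendsto (ho γ) hκ

/-- **(G2)**: a Δ-quotient with levels dividing `N` and nonnegative order at all cusps is a
modular form on `Γ₀(N)`. -/
theorem isMF_deltaQuot_of_nonneg (N : ℕ) [NeZero N] (S : Finset ℕ) (hS : ∀ δ ∈ S, δ ∣ N)
    (m : ℕ → ℤ) (ho : ∀ γ : SL(2, ℤ), 0 ≤ deltaQuotOrd S m γ) :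
    S23.IsMF (S23.G0 N) (deltaQuotWeight S m) (deltaQuot S m) := by
  refine isMF_deltaQuot_of_tendsto N S hS m ho fun γ => ?_
  obtain ⟨κ, -, h⟩ := exists_tendsto_deltaQuot_slash S
    (fun δ hδ h0 => NeZero.ne N (by
      have := hS δ hδ
      rw [h0] at this
      exact Nat.eq_zero_of_zero_dvd this)) m γ
  exact ⟨κ, h⟩

end Fermat.Agent.S28
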