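import Mathlib
import Fermat.Prelude.Def_ModularCurve_LaurentCoeff
import Fermat.Prelude.Def_GaloisRep_Flat

set_option autoImplicit false

open TensorProduct

noncomputable section

namespace Fermat.Agent.S28

/-- Ring homomorphisms out of `ℤ_(ℓ)` (as a subring of `ℚ`) are unique. -/
theorem ratLoc_ringHom_ext {ℓ : ℕ} {B : Type*} [Ring B]
    (f g : ↥(GaloisRep.ratLocalizedAt ℓ) →+* B) : f = g := by
  ext r
  obtain ⟨r, hr⟩ := r
  have hd : ((r.den : ℚ)⁻¹) ∈ GaloisRep.ratLocalizedAt ℓ := by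
    change ((r.den : ℚ)⁻¹).den.Coprime ℓ
    have h1 : ((r.den : ℚ)⁻¹).den = r.den := by
      rw [Rat.inv_natCast_den_of_pos r.den_pos]
    rw [h1]
    exact hr
  set u : ↥(GaloisRep.ratLocalizedAt ℓ) := ⟨(r.den : ℚ)⁻¹, hd⟩ with hu
  have hdu : (r.den : ↥(GaloisRep.ratLocalizedAt ℓ)) * u = 1 := by
    apply Subtype.ext
    simp [hu, Rat.den_ne_zero]
  have hrep : (⟨r, hr⟩ : ↥(GaloisRep.ratLocalizedAt ℓ)) = u * (r.num : ↥(GaloisRep.ratLocalizedAt ℓ)) := by
    apply Subtype.ext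
    simp only [hu, Subring.coe_mul, Subring.coe_intCast]
    rw [inv_mul_eq_div]
    exact (Rat.num_div_den r).symm
  have hfu : f u = g u := by
    have h1 : (r.den : B) * f u = 1 := by
      rw [← map_natCast f, ← map_mul, hdu, map_one]
    have h2 : g u * (r.den : B) = 1 := by
      rw [← map_natCast g, ← map_mul, mul_comm, hdu, map_one]
    calc f u = (g u * (r.den : B)) * f u := by rw [h2, one_mul]
      _ = g u * ((r.den : B) * f u) := by rw [mul_assoc]
      _ = g u := by rw [h1, mul_one]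
  rw [hrep, map_mul, map_mul, map_intCast, map_intCast, hfu]

section Main

variable (ℓ : ℕ) [Fact ℓ.Prime] (A : Type) [CommRing A] [Algebra ↥(GaloisRep.ratLocalizedAt ℓ) A]
  (ρ : A →+* LaurentSeries (ZMod ℓ))
  (K : Type) [Field K] [CharP K ℓ] [Algebra ↥(GaloisRep.ratLocalizedAt ℓ) K]

/-- `ρ` followed by the coefficient-wise map `𝔽_ℓ → K`. -/
def tensorRhoK : A →+* LaurentSeries K :=
  (ModularCurve.coeffMap (ZMod.castHom (dvd_refl ℓ) K)).comp ρ

/-- The comparison map `A ⊗ K → K((q))`. -/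
def tensorPhi : A ⊗[↥(GaloisRep.ratLocalizedAt ℓ)] K →+* LaurentSeries K :=
  (Algebra.TensorProduct.productMap
    ({ tensorRhoK ℓ A ρ K with
        commutes' := fun r => congrFun (congrArg DFunLike.coe
          (ratLoc_ringHom_ext ((tensorRhoK ℓ A ρ K).comp (algebraMap _ A))
            (algebraMap ↥(GaloisRep.ratLocalizedAt ℓ) (LaurentSeries K)))) r } :
      A →ₐ[↥(GaloisRep.ratLocalizedAt ℓ)] LaurentSeries K)
    ({ (HahnSeries.C : K →+* LaurentSeries K) with
        commutes' := fun r => congrFun (congrArg DFunLike.coe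
          (ratLoc_ringHom_ext ((HahnSeries.C : K →+* LaurentSeries K).comp (algebraMap _ K))
            (algebraMap ↥(GaloisRep.ratLocalizedAt ℓ) (LaurentSeries K)))) r } :
      K →ₐ[↥(GaloisRep.ratLocalizedAt ℓ)] LaurentSeries K)).toRingHom

theorem tensorPhi_tmul (a : A) (c : K) :
    tensorPhi ℓ A ρ K (a ⊗ₜ c) = tensorRhoK ℓ A ρ K a * HahnSeries.C c := by
  simp [tensorPhi]

omit [Algebra ↥(GaloisRep.ratLocalizedAt ℓ) A] [Algebra ↥(GaloisRep.ratLocalizedAt ℓ) K] in
theorem tensorRhoK_mul_C_coeff (a : A) (c : K) (n : ℤ) :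
    (tensorRhoK ℓ A ρ K a * HahnSeries.C c).coeff n =
      c * ZMod.castHom (dvd_refl ℓ) K ((ρ a).coeff n) := by
  rw [mul_comm, HahnSeries.C_mul_eq_smul, HahnSeries.coeff_smul, smul_eq_mul]
  rfl

omit [Fact ℓ.Prime] [CharP K ℓ] in
variable {ℓ A K} in
theorem tensor_rep {I : Type*} (b : I → K)
    (hb : ∀ c : K, ∃ m : I →₀ ℕ, c = m.sum (fun i n => (n : K) * b i))
    (x : A ⊗[↥(GaloisRep.ratLocalizedAt ℓ)] K) :
    ∃ a : I →₀ A, x = a.sum (fun i ai => ai ⊗ₜ[↥(GaloisRep.ratLocalizedAt ℓ)] b i) := by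
  classical
  induction x using TensorProduct.induction_on with
  | zero => exact ⟨0, by simp⟩
  | tmul a c =>
    obtain ⟨m, rfl⟩ := hb c
    refine ⟨m.mapRange (fun n : ℕ => (n : A) * a) (by simp), ?_⟩
    rw [Finsupp.sum_mapRange_index (by simp)]
    rw [Finsupp.sum, Finsupp.sum, TensorProduct.tmul_sum]
    refine Finset.sum_congr rfl fun i _ => ?_
    have h1 : ((m i : ℕ) : A) * a = ((m i : ℕ) : ↥(GaloisRep.ratLocalizedAt ℓ)) • a := by
      rw [Algebra.smul_def, map_natCast]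
    have h2 : ((m i : ℕ) : K) * b i = ((m i : ℕ) : ↥(GaloisRep.ratLocalizedAt ℓ)) • b i := by
      rw [Algebra.smul_def, map_natCast]
    rw [h1, h2, TensorProduct.smul_tmul]
  | add x y hx hy =>
    obtain ⟨a, rfl⟩ := hx
    obtain ⟨a', rfl⟩ := hy
    refine ⟨a + a', ?_⟩
    rw [Finsupp.sum_add_index']
    · intro i; simp
    · intro i u v; simp [TensorProduct.add_tmul]

theorem tensorPhi_injective (hker : RingHom.ker ρ = Ideal.span {(ℓ : A)}) :
    Function.Injective (tensorPhi ℓ A ρ K) := by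
  classical
  let _ : Algebra (ZMod ℓ) K := ZMod.algebra K ℓ
  let b := Module.Basis.ofVectorSpace (ZMod ℓ) K
  have hb : ∀ c : K, ∃ m : (Module.Basis.ofVectorSpaceIndex (ZMod ℓ) K) →₀ ℕ,
      c = m.sum (fun i n => (n : K) * b i) := by
    intro c
    refine ⟨(b.repr c).mapRange ZMod.val (by simp), ?_⟩
    rw [Finsupp.sum_mapRange_index (by simp)]
    conv_lhs => rw [← b.linearCombination_repr c]
    rw [Finsupp.linearCombination_apply]
    refine Finsupp.sum_congr fun i _ => ?_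
    rw [Algebra.smul_def, ZMod.natCast_val]
    rfl
  rw [injective_iff_map_eq_zero]
  intro x hx
  obtain ⟨a, rfl⟩ := tensor_rep (fun i => b i) hb x
  have h0 : ∀ i, ρ (a i) = 0 := by
    intro i
    by_cases hi : i ∈ a.support
    · ext n
      have hn := congrArg (fun s : LaurentSeries K => s.coeff n) hx
      simp only [Finsupp.sum, map_sum, tensorPhi_tmul, HahnSeries.coeff_sum,
        tensorRhoK_mul_C_coeff, HahnSeries.coeff_zero] at hn
      have hli := (linearIndependent_iff'.mp b.linearIndependent) a.support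
        (fun j => (ρ (a j)).coeff n) (by
          rw [← hn]
          refine Finset.sum_congr rfl fun j _ => ?_
          rw [Algebra.smul_def, mul_comm]
          rfl) i hi
      simpa using hli
    · rw [Finsupp.notMem_support_iff.mp hi, map_zero]
  rw [Finsupp.sum]
  refine Finset.sum_eq_zero fun i _ => ?_
  have hmem : a i ∈ Ideal.span {(ℓ : A)} := by
    rw [← hker]; exact (RingHom.mem_ker).mpr (h0 i)
  obtain ⟨a', ha'⟩ := Ideal.mem_span_singleton'.mp hmem
  have h1 : a' * (ℓ : A) = ((ℓ : ↥(GaloisRep.ratLocalizedAt ℓ))) • a' := by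
    rw [Algebra.smul_def, map_natCast, mul_comm]
  rw [← ha', h1, TensorProduct.smul_tmul, Algebra.smul_def, map_natCast, CharP.cast_eq_zero,
    zero_mul, TensorProduct.tmul_zero]

/-- **WP8b**: `A ⊗_{ℤ_(ℓ)} K` is a domain as soon as `A/ℓA` embeds into `𝔽_ℓ((q))`. -/
theorem isDomain_tensor_of_reduction (ℓ : ℕ) [Fact ℓ.Prime] (A : Type) [CommRing A]
    [Algebra ↥(GaloisRep.ratLocalizedAt ℓ) A]
    (ρ : A →+* LaurentSeries (ZMod ℓ)) (hker : RingHom.ker ρ = Ideal.span {(ℓ : A)})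
    (K : Type) [Field K] [CharP K ℓ] [Algebra ↥(GaloisRep.ratLocalizedAt ℓ) K] :
    IsDomain (TensorProduct ↥(GaloisRep.ratLocalizedAt ℓ) A K) :=
  (tensorPhi_injective ℓ A ρ K hker).isDomain (tensorPhi ℓ A ρ K)

/-- Variant: `A ⊗_{ℤ_(ℓ)} K` is nontrivial as soon as there is a ring hom `A → 𝔽_ℓ((q))`. -/
theorem nontrivial_tensor_of_ringHom (ℓ : ℕ) [Fact ℓ.Prime] (A : Type) [CommRing A]
    [Algebra ↥(GaloisRep.ratLocalizedAt ℓ) A]
    (ρ : A →+* LaurentSeries (ZMod ℓ))
    (K : Type) [Field K] [CharP K ℓ] [Algebra ↥(GaloisRep.ratLocalizedAt ℓ) K] :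
    Nontrivial (TensorProduct ↥(GaloisRep.ratLocalizedAt ℓ) A K) :=
  (tensorPhi ℓ A ρ K).domain_nontrivial

end Main

end Fermat.Agent.S28

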