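import Mathlib
import Fermat.Prelude.Def_ModularCurve_IgusaScheme
import Fermat.Agent.S28.IntOver
import Fermat.Agent.S28.Tensor

/-!
# S28, WP8a: from the abstract reduction package to the three Igusa charts

Input: a subring `B ⊆ ℚ((q))` with a reduction map `ρ : B → 𝔽_ℓ((q))` satisfying the
contract (K3), `ker ρ = ℓ B`, (K4), and `F ⊆ ℚ(j, u)`.
Output: ring homs `ρ_S : chartAlg N ℓ S → 𝔽_ℓ((q))` with `ker ρ_S = (ℓ)` for the finite and
infinite chart, and some ring hom for the middle chart.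
-/

set_option autoImplicit false
set_option linter.unusedSectionVars false

open ModularCurve ModularCurve.IgusaScheme Polynomial

namespace Fermat.Agent.S28

noncomputable section

variable (N : ℕ) [NeZero N] (ℓ : ℕ) [Fact ℓ.Prime]

/-- The inclusion `F → ℚ((q))` as a ring hom. -/
def wp8Val : ↥(modularFunctionFieldFull N) →+* LaurentSeries ℚ where
  toFun x := x.1
  map_one' := rfl
  map_mul' _ _ := rfl
  map_zero' := rfl
  map_add' _ _ := rfl

@[simp] theorem wp8Val_apply (x : ↥(modularFunctionFieldFull N)) : wp8Val N x = (x : LaurentSeries ℚ) := rfl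

theorem wp8Val_injective : Function.Injective (wp8Val N) := Subtype.val_injective

/-- Evaluation `ℤ_(ℓ)[Y] → F` at `s`. -/
def wp8EvF (s : ↥(modularFunctionFieldFull N)) : Polynomial ↥(GaloisRep.ratLocalizedAt ℓ) →+* ↥(modularFunctionFieldFull N) := ((aeval s : Polynomial ↥(GaloisRep.ratLocalizedAt ℓ) →ₐ[↥(GaloisRep.ratLocalizedAt ℓ)] ↥(modularFunctionFieldFull N)) : Polynomial ↥(GaloisRep.ratLocalizedAt ℓ) →+* ↥(modularFunctionFieldFull N))

theorem wp8Val_comp_evF (s : ↥(modularFunctionFieldFull N)) :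
    (wp8Val N).comp (wp8EvF N ℓ s) =
      (evJ (s : LaurentSeries ℚ)).comp (mapRingHom (algebraMap ↥(GaloisRep.ratLocalizedAt ℓ) ℚ)) := by
  refine Polynomial.ringHom_ext (fun r => ?_) ?_
  · exact congrFun (congrArg DFunLike.coe (ratLoc_ringHom_ext
      (((wp8Val N).comp (wp8EvF N ℓ s)).comp C)
      (((evJ (s : LaurentSeries ℚ)).comp (mapRingHom (algebraMap ↥(GaloisRep.ratLocalizedAt ℓ) ℚ))).comp C))) r
  · simp only [RingHom.comp_apply, wp8EvF, coe_mapRingHom, map_X]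
    show ((aeval s (X : Polynomial ↥(GaloisRep.ratLocalizedAt ℓ)) : ↥(modularFunctionFieldFull N)) : LaurentSeries ℚ) = aeval (s : LaurentSeries ℚ) X
    rw [aeval_X, aeval_X]

/-- The corestriction of the evaluation map to `Algebra.adjoin ↥(GaloisRep.ratLocalizedAt ℓ) {s}`. -/
def wp8EvAdj (s : ↥(modularFunctionFieldFull N)) : Polynomial ↥(GaloisRep.ratLocalizedAt ℓ) →+* ↥(Algebra.adjoin ↥(GaloisRep.ratLocalizedAt ℓ) ({s} : Set ↥(modularFunctionFieldFull N))) :=
  RingHom.codRestrict (wp8EvF N ℓ s) (Algebra.adjoin ↥(GaloisRep.ratLocalizedAt ℓ) ({s} : Set ↥(modularFunctionFieldFull N))) (fun p => by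
    show aeval s p ∈ _
    rw [Algebra.adjoin_singleton_eq_range_aeval]
    exact ⟨p, rfl⟩)

theorem wp8EvAdj_surjective (s : ↥(modularFunctionFieldFull N)) : Function.Surjective (wp8EvAdj N ℓ s) := by
  rintro ⟨y, hy⟩
  rw [Algebra.adjoin_singleton_eq_range_aeval] at hy
  obtain ⟨p, hp⟩ := hy
  exact ⟨p, Subtype.ext hp⟩

theorem wp8_algebraMap_comp_evAdj (s : ↥(modularFunctionFieldFull N)) :
    (algebraMap ↥(Algebra.adjoin ↥(GaloisRep.ratLocalizedAt ℓ) ({s} : Set ↥(modularFunctionFieldFull N))) ↥(modularFunctionFieldFull N)).comp (wp8EvAdj N ℓ s) = wp8EvF N ℓ s :=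
  RingHom.ext fun _ => rfl

/-- Lemma A: membership in a singleton chart algebra, polynomial form over `ℤ_(ℓ)[Y]`. -/
theorem wp8_mem_chartAlg_singleton_iff (s x : ↥(modularFunctionFieldFull N)) :
    x ∈ chartAlg N ℓ ({s} : Set ↥(modularFunctionFieldFull N)) ↔
      ∃ q : Polynomial (Polynomial ↥(GaloisRep.ratLocalizedAt ℓ)), q.Monic ∧ q.eval₂ (wp8EvF N ℓ s) x = 0 := by
  rw [mem_chartAlg_iff]
  constructor
  · rintro ⟨p, hpm, hp⟩
    have hlift : p ∈ Polynomial.lifts (wp8EvAdj N ℓ s) := by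
      rw [Polynomial.lifts_iff_coeff_lifts]
      intro n
      exact wp8EvAdj_surjective N ℓ s _
    obtain ⟨q, hq, -, hqm⟩ := Polynomial.lifts_and_natDegree_eq_and_monic hlift hpm
    refine ⟨q, hqm, ?_⟩
    rw [← wp8_algebraMap_comp_evAdj, ← Polynomial.eval₂_map, hq]
    exact hp
  · rintro ⟨q, hqm, hq⟩
    refine ⟨q.map (wp8EvAdj N ℓ s), hqm.map _, ?_⟩
    rw [Polynomial.eval₂_map, wp8_algebraMap_comp_evAdj]
    exact hq

/-- Lemma B: transfer to `ℚ((q))`. -/
theorem wp8_exists_iff_isIntOver (s x : ↥(modularFunctionFieldFull N)) :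
    (∃ q : Polynomial (Polynomial ↥(GaloisRep.ratLocalizedAt ℓ)), q.Monic ∧ q.eval₂ (wp8EvF N ℓ s) x = 0) ↔
      IsIntOver ℓ (s : LaurentSeries ℚ) (x : LaurentSeries ℚ) := by
  have key : ∀ q : Polynomial (Polynomial ↥(GaloisRep.ratLocalizedAt ℓ)),
      ((q.eval₂ (wp8EvF N ℓ s) x : ↥(modularFunctionFieldFull N)) : LaurentSeries ℚ) =
        (q.map (mapRingHom (algebraMap ↥(GaloisRep.ratLocalizedAt ℓ) ℚ))).eval₂ (evJ (s : LaurentSeries ℚ))
          (x : LaurentSeries ℚ) := by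
    intro q
    rw [Polynomial.eval₂_map, ← wp8Val_comp_evF]
    exact Polynomial.hom_eval₂ q (wp8EvF N ℓ s) (wp8Val N) x
  constructor
  · rintro ⟨q, hqm, hq⟩
    refine ⟨q.map (mapRingHom (algebraMap ↥(GaloisRep.ratLocalizedAt ℓ) ℚ)), hqm.map _, ?_, ?_⟩
    · intro i k
      rw [Polynomial.coeff_map, coe_mapRingHom, Polynomial.coeff_map]
      exact ((q.coeff i).coeff k).2
    · rw [← key, hq]
      rfl
  · rintro ⟨P, hPm, hPint, hP⟩
    have hlift : P ∈ Polynomial.lifts (mapRingHom (algebraMap ↥(GaloisRep.ratLocalizedAt ℓ) ℚ)) := by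
      rw [Polynomial.lifts_iff_coeff_lifts]
      intro i
      have : P.coeff i ∈ Polynomial.lifts (algebraMap ↥(GaloisRep.ratLocalizedAt ℓ) ℚ) := by
        rw [Polynomial.lifts_iff_coeff_lifts]
        intro k
        exact ⟨⟨_, hPint i k⟩, rfl⟩
      obtain ⟨c, hc⟩ := this
      exact ⟨c, hc⟩
    obtain ⟨q, hq, -, hqm⟩ := Polynomial.lifts_and_natDegree_eq_and_monic hlift hPm
    refine ⟨q, hqm, ?_⟩
    apply wp8Val_injective N
    rw [wp8Val_apply, key, hq, hP]
    rfl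

theorem wp8_mem_chartAlg_singleton_iff_isIntOver (s x : ↥(modularFunctionFieldFull N)) :
    x ∈ chartAlg N ℓ ({s} : Set ↥(modularFunctionFieldFull N)) ↔
      IsIntOver ℓ (s : LaurentSeries ℚ) (x : LaurentSeries ℚ) :=
  (wp8_mem_chartAlg_singleton_iff N ℓ s x).trans (wp8_exists_iff_isIntOver N ℓ s x)

/-! ### The reduction maps on the charts -/

theorem wp8_natCast_laurent_zmod_eq_zero : ((ℓ : ℕ) : LaurentSeries (ZMod ℓ)) = 0 := by
  have h : ((ℓ : ℕ) : LaurentSeries (ZMod ℓ)) = HahnSeries.C ((ℓ : ℕ) : ZMod ℓ) :=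
    (map_natCast (HahnSeries.C : ZMod ℓ →+* LaurentSeries (ZMod ℓ)) ℓ).symm
  rw [h, ZMod.natCast_self, map_zero]

theorem wp8_isIntOver_self (s : LaurentSeries ℚ) : IsIntOver ℓ s s := by
  refine ⟨X - C X, monic_X_sub_C _, ?_, ?_⟩
  · intro i k
    rw [Polynomial.coeff_sub, Polynomial.coeff_sub]
    refine Subring.sub_mem _ ?_ ?_
    · rw [Polynomial.coeff_X]
      split_ifs
      · rw [Polynomial.coeff_one]
        split_ifs
        · exact Subring.one_mem _
        · exact Subring.zero_mem _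
      · rw [Polynomial.coeff_zero]
        exact Subring.zero_mem _
    · rw [Polynomial.coeff_C]
      split_ifs
      · rw [Polynomial.coeff_X]
        split_ifs
        · exact Subring.one_mem _
        · exact Subring.zero_mem _
      · rw [Polynomial.coeff_zero]
        exact Subring.zero_mem _
  · rw [Polynomial.eval₂_sub, Polynomial.eval₂_X, Polynomial.eval₂_C]
    show s - aeval s X = 0
    rw [aeval_X, sub_self]

variable {N ℓ}

/-- The reduction map on a singleton chart `chartAlg N ℓ {s}`, `s ∈ {j, j⁻¹}`. -/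
theorem wp8_chart_singleton (u : LaurentSeries ℚ) (B : Subring (LaurentSeries ℚ))
    (ρ : B →+* LaurentSeries (ZMod ℓ))
    (hF : modularFunctionFieldFull N ≤
      IntermediateField.adjoin ℚ ({jq, u} : Set (LaurentSeries ℚ)))
    (hK3 : ∀ x ∈ IntermediateField.adjoin ℚ ({jq, u} : Set (LaurentSeries ℚ)),
      ∀ s ∈ ({jq, jq⁻¹} : Set (LaurentSeries ℚ)), IsIntOver ℓ s x → x ∈ B)
    (hker : ∀ y : B, ρ y = 0 → ∃ z : B, (y : LaurentSeries ℚ) = (ℓ : LaurentSeries ℚ) * z)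
    (hK4 : ∀ z ∈ B, z ∈ IntermediateField.adjoin ℚ ({jq, u} : Set (LaurentSeries ℚ)) →
      ∀ s ∈ ({jq, jq⁻¹} : Set (LaurentSeries ℚ)),
        IsIntOver ℓ s ((ℓ : LaurentSeries ℚ) * z) → IsIntOver ℓ s z)
    (s : ↥(modularFunctionFieldFull N))
    (hs : (s : LaurentSeries ℚ) ∈ ({jq, jq⁻¹} : Set (LaurentSeries ℚ))) :
    ∃ ρS : ↥(chartAlg N ℓ ({s} : Set ↥(modularFunctionFieldFull N))) →+* LaurentSeries (ZMod ℓ),
      RingHom.ker ρS =
        Ideal.span {((ℓ : ℕ) : ↥(chartAlg N ℓ ({s} : Set ↥(modularFunctionFieldFull N))))} := by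
  have hmemB : ∀ x : ↥(modularFunctionFieldFull N), x ∈ chartAlg N ℓ ({s} : Set _) →
      (x : LaurentSeries ℚ) ∈ B := fun x hx =>
    hK3 x (hF x.2) s hs ((wp8_mem_chartAlg_singleton_iff_isIntOver N ℓ s x).mp hx)
  let ι : ↥(chartAlg N ℓ ({s} : Set ↥(modularFunctionFieldFull N))) →+* B :=
    { toFun := fun x => ⟨((x : ↥(modularFunctionFieldFull N)) : LaurentSeries ℚ), hmemB x.1 x.2⟩
      map_one' := rfl
      map_mul' := fun _ _ => rfl
      map_zero' := rfl
      map_add' := fun _ _ => rfl }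
  refine ⟨ρ.comp ι, ?_⟩
  ext x
  rw [RingHom.mem_ker, Ideal.mem_span_singleton']
  constructor
  · intro hx
    obtain ⟨z, hz⟩ := hker (ι x) hx
    have hℓ0 : ((ℓ : ℕ) : LaurentSeries ℚ) ≠ 0 := by
      rw [← map_natCast (HahnSeries.C : ℚ →+* LaurentSeries ℚ)]
      exact (_root_.map_ne_zero _).mpr (Nat.cast_ne_zero.mpr (Fact.out : ℓ.Prime).ne_zero)
    -- the element `y = x / ℓ` of `F`
    set y : ↥(modularFunctionFieldFull N) :=
      (x : ↥(modularFunctionFieldFull N)) * ((ℓ : ℕ) : ↥(modularFunctionFieldFull N))⁻¹ with hy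
    have hyz : (y : LaurentSeries ℚ) = z := by
      have h1 : (y : LaurentSeries ℚ) =
          ((x : ↥(modularFunctionFieldFull N)) : LaurentSeries ℚ) * ((ℓ : ℕ) : LaurentSeries ℚ)⁻¹ := by
        rw [hy]
        push_cast
        rfl
      have h2 : ((x : ↥(modularFunctionFieldFull N)) : LaurentSeries ℚ) =
          (ℓ : LaurentSeries ℚ) * z := hz
      rw [h1, h2]
      field_simp
    have hxy : ((x : ↥(modularFunctionFieldFull N)) : LaurentSeries ℚ) =
        (ℓ : LaurentSeries ℚ) * (y : LaurentSeries ℚ) := by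
      rw [hyz]; exact hz
    have hyB : (y : LaurentSeries ℚ) ∈ B := by rw [hyz]; exact z.2
    have hint : IsIntOver ℓ (s : LaurentSeries ℚ) ((ℓ : LaurentSeries ℚ) * (y : LaurentSeries ℚ)) := by
      rw [← hxy]
      exact (wp8_mem_chartAlg_singleton_iff_isIntOver N ℓ s x).mp x.2
    have hyint := hK4 _ hyB (hF y.2) s hs hint
    have hymem : y ∈ chartAlg N ℓ ({s} : Set ↥(modularFunctionFieldFull N)) :=
      (wp8_mem_chartAlg_singleton_iff_isIntOver N ℓ s y).mpr hyint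
    refine ⟨⟨y, hymem⟩, ?_⟩
    apply Subtype.ext
    apply Subtype.ext
    show (y : LaurentSeries ℚ) *
      ((((ℓ : ℕ) : ↥(chartAlg N ℓ ({s} : Set ↥(modularFunctionFieldFull N)))) :
        ↥(modularFunctionFieldFull N)) : LaurentSeries ℚ) = _
    rw [hxy, mul_comm]
    push_cast
    rfl
  · rintro ⟨a, rfl⟩
    rw [map_mul, map_natCast, wp8_natCast_laurent_zmod_eq_zero, mul_zero]

/-- The middle chart maps to `𝔽_ℓ((q))`. -/
theorem wp8_chart_mid (u : LaurentSeries ℚ) (B : Subring (LaurentSeries ℚ))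
    (ρ : B →+* LaurentSeries (ZMod ℓ))
    (hF : modularFunctionFieldFull N ≤
      IntermediateField.adjoin ℚ ({jq, u} : Set (LaurentSeries ℚ)))
    (hK3 : ∀ x ∈ IntermediateField.adjoin ℚ ({jq, u} : Set (LaurentSeries ℚ)),
      ∀ s ∈ ({jq, jq⁻¹} : Set (LaurentSeries ℚ)), IsIntOver ℓ s x → x ∈ B) :
    Nonempty (↥(chartAlgMid N ℓ) →+* LaurentSeries (ZMod ℓ)) := by
  have hjinvL : (jq⁻¹ : LaurentSeries ℚ) ∈
      IntermediateField.adjoin ℚ ({jq, u} : Set (LaurentSeries ℚ)) :=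
    inv_mem (IntermediateField.subset_adjoin ℚ _ (Set.mem_insert _ _))
  have hjinvB : (jq⁻¹ : LaurentSeries ℚ) ∈ B :=
    hK3 _ hjinvL _ (Set.mem_insert_of_mem _ rfl) (wp8_isIntOver_self ℓ _)
  have hmemB : ∀ x : ↥(modularFunctionFieldFull N), x ∈ chartAlgMid N ℓ →
      (x : LaurentSeries ℚ) ∈ B := by
    intro x hx
    have hz : x ∈ chartAlg N ℓ (insert (jFull N)⁻¹ {jFull N}) := by
      rw [show insert (jFull N)⁻¹ ({jFull N} : Set ↥(modularFunctionFieldFull N)) =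
        {jFull N, (jFull N)⁻¹} from Set.pair_comm _ _]
      exact hx
    obtain ⟨n, hn⟩ := exists_pow_mul_mem_chartAlg (Set.mem_singleton _) (jFull_ne_zero N) hz
    have h1 : ((jFull N ^ n * x : ↥(modularFunctionFieldFull N)) : LaurentSeries ℚ) ∈ B :=
      hK3 _ (hF (jFull N ^ n * x).2) jq (Set.mem_insert _ _)
        ((wp8_mem_chartAlg_singleton_iff_isIntOver N ℓ (jFull N) _).mp hn)
    have h2 : (x : LaurentSeries ℚ) =
        (jq⁻¹) ^ n * ((jFull N ^ n * x : ↥(modularFunctionFieldFull N)) : LaurentSeries ℚ) := by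
      have hj0 : (jq : LaurentSeries ℚ) ≠ 0 := jq_ne_zero
      push_cast
      rw [coe_jFull, inv_pow, ← mul_assoc, inv_mul_cancel₀ (pow_ne_zero n hj0), one_mul]
    rw [h2]
    exact B.mul_mem (B.pow_mem hjinvB n) h1
  let ι : ↥(chartAlgMid N ℓ) →+* B :=
    { toFun := fun x => ⟨((x : ↥(modularFunctionFieldFull N)) : LaurentSeries ℚ), hmemB x.1 x.2⟩
      map_one' := rfl
      map_mul' := fun _ _ => rfl
      map_zero' := rfl
      map_add' := fun _ _ => rfl }
  exact ⟨ρ.comp ι⟩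

/-- **WP8a.** From the reduction package to the three charts. -/
theorem wp8_charts_of_redStatement (h : RedStatement N ℓ) :
    (∃ ρFin : ↥(chartAlgFin N ℓ) →+* LaurentSeries (ZMod ℓ),
      RingHom.ker ρFin = Ideal.span {((ℓ : ℕ) : ↥(chartAlgFin N ℓ))}) ∧
    (∃ ρInf : ↥(chartAlgInf N ℓ) →+* LaurentSeries (ZMod ℓ),
      RingHom.ker ρInf = Ideal.span {((ℓ : ℕ) : ↥(chartAlgInf N ℓ))}) ∧
    Nonempty (↥(chartAlgMid N ℓ) →+* LaurentSeries (ZMod ℓ)) := by
  obtain ⟨u, B, ρ, hF, hK3, hker, hK4⟩ := h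
  refine ⟨?_, ?_, wp8_chart_mid u B ρ hF hK3⟩
  · exact wp8_chart_singleton u B ρ hF hK3 hker hK4 (jFull N) (Set.mem_insert _ _)
  · refine wp8_chart_singleton u B ρ hF hK3 hker hK4 (jFull N)⁻¹ ?_
    refine Set.mem_insert_of_mem _ ?_
    show (((jFull N)⁻¹ : ↥(modularFunctionFieldFull N)) : LaurentSeries ℚ) = jq⁻¹
    push_cast
    rfl

end

end Fermat.Agent.S28
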