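import Mathlib
import Fermat.Prelude.Def_ModularCurve_IgusaScheme

/-!
# S28 WP9: gluing step for the Igusa scheme

If the base changes of the two chart algebras to `K` are domains and the base change of
the overlap algebra is nontrivial, then the base change of the Igusa scheme to `K` is an integral
scheme.
-/

set_option autoImplicit false

open AlgebraicGeometry CategoryTheory CategoryTheory.Limits ModularCurve ModularCurve.IgusaScheme
open scoped TensorProduct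

noncomputable section

namespace Fermat.Agent.S28

/-- A space covered by two preirreducible subsets, one of them open, with nonempty intersection
is irreducible. -/
theorem wp9_irreducibleSpace_of_two_opens {X : Type*} [TopologicalSpace X] {U V : Set X}
    (hU : IsPreirreducible U) (hV : IsPreirreducible V) (hUo : IsOpen U)
    (hUV : (U ∩ V).Nonempty) (hcov : U ∪ V = Set.univ) : IrreducibleSpace X := by
  have key : ∀ A : Set X, IsOpen A → A.Nonempty → (U ∩ A).Nonempty := by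
    intro A hA ⟨a, ha⟩
    have hmem : a ∈ U ∪ V := by rw [hcov]; trivial
    rcases hmem with h | h
    · exact ⟨a, h, ha⟩
    · obtain ⟨x, hx, hxA, hxU⟩ := hV A U hA hUo ⟨a, h, ha⟩ (by rwa [Set.inter_comm] at hUV)
      exact ⟨x, hxU, hxA⟩
  have : PreirreducibleSpace X := PreirreducibleSpace.of_forall_nonempty_inter (by
    intro A B hA hB hAne hBne
    obtain ⟨x, -, hx⟩ := hU A B hA hB (key A hA hAne) (key B hB hBne)
    exact ⟨x, hx⟩)
  exact ⟨⟨hUV.some⟩⟩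

variable (N : ℕ) [NeZero N] (ℓ : ℕ) [Fact ℓ.Prime]
variable (K : Type) [Field K] [Algebra ↥(GaloisRep.ratLocalizedAt ℓ) K]

/-- The base-change morphism `Spec K ⟶ Spec ℤ_(ℓ)`. -/
abbrev wp9_baseK : Spec (CommRingCat.of K) ⟶ Spec (CommRingCat.of ↥(GaloisRep.ratLocalizedAt ℓ)) :=
  Spec.map (CommRingCat.ofHom (algebraMap ↥(GaloisRep.ratLocalizedAt ℓ) K))

/-- The three-chart open cover of the Igusa scheme. -/
abbrev wp9_igusaCov : (ModularCurve.IgusaScheme N ℓ).OpenCover :=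
  Scheme.IsLocallyDirected.openCover (span (fFin N ℓ) (fInf N ℓ))

/-- The induced open cover of the base change. -/
abbrev wp9_pbCov : (pullback (igusaTo N ℓ) (wp9_baseK ℓ K)).OpenCover :=
  Scheme.Pullback.openCoverOfLeft (wp9_igusaCov N ℓ) (igusaTo N ℓ) (wp9_baseK ℓ K)

theorem wp9_igusaCov_f_none : (wp9_igusaCov N ℓ).f none = fFin N ℓ ≫ ιFin N ℓ :=
  (colimit.w (span (fFin N ℓ) (fInf N ℓ)) WalkingSpan.Hom.fst).symm

theorem wp9_igusaCov_f_none' : (wp9_igusaCov N ℓ).f none = fInf N ℓ ≫ ιInf N ℓ :=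
  (colimit.w (span (fFin N ℓ) (fInf N ℓ)) WalkingSpan.Hom.snd).symm

theorem wp9_isIntegral_pbFin
    [IsDomain (↥(chartAlgFin N ℓ) ⊗[↥(GaloisRep.ratLocalizedAt ℓ)] K)] :
    IsIntegral (pullback (ιFin N ℓ ≫ igusaTo N ℓ) (wp9_baseK ℓ K)) := by
  rw [ιFin_igusaTo]
  exact IsIntegral.of_isIso (pullbackSpecIso ↥(GaloisRep.ratLocalizedAt ℓ) ↥(chartAlgFin N ℓ) K).inv

theorem wp9_isIntegral_pbInf
    [IsDomain (↥(chartAlgInf N ℓ) ⊗[↥(GaloisRep.ratLocalizedAt ℓ)] K)] :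
    IsIntegral (pullback (ιInf N ℓ ≫ igusaTo N ℓ) (wp9_baseK ℓ K)) := by
  rw [ιInf_igusaTo]
  exact IsIntegral.of_isIso (pullbackSpecIso ↥(GaloisRep.ratLocalizedAt ℓ) ↥(chartAlgInf N ℓ) K).inv

theorem wp9_midToBase :
    (fFin N ℓ ≫ ιFin N ℓ) ≫ igusaTo N ℓ =
      Spec.map (CommRingCat.ofHom (algebraMap ↥(GaloisRep.ratLocalizedAt ℓ) ↥(chartAlgMid N ℓ))) := by
  rw [Category.assoc, ιFin_igusaTo, ← Spec.map_comp, ← CommRingCat.ofHom_comp]
  rfl

theorem wp9_nonempty_pbMid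
    [Nontrivial (↥(chartAlgMid N ℓ) ⊗[↥(GaloisRep.ratLocalizedAt ℓ)] K)] :
    Nonempty ↥(pullback ((fFin N ℓ ≫ ιFin N ℓ) ≫ igusaTo N ℓ) (wp9_baseK ℓ K)) := by
  rw [wp9_midToBase]
  have : Nonempty ↥(Spec (CommRingCat.of (↥(chartAlgMid N ℓ) ⊗[↥(GaloisRep.ratLocalizedAt ℓ)] K))) :=
    inferInstanceAs (Nonempty (PrimeSpectrum (↥(chartAlgMid N ℓ) ⊗[↥(GaloisRep.ratLocalizedAt ℓ)] K)))
  exact this.map (pullbackSpecIso ↥(GaloisRep.ratLocalizedAt ℓ) ↥(chartAlgMid N ℓ) K).inv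

/-- The finite chart of the base change. -/
abbrev wp9_finToPb :
    pullback (ιFin N ℓ ≫ igusaTo N ℓ) (wp9_baseK ℓ K) ⟶ pullback (igusaTo N ℓ) (wp9_baseK ℓ K) :=
  pullback.map _ _ _ _ (ιFin N ℓ) (𝟙 _) (𝟙 _) (by simp) (by simp)

/-- The chart at infinity of the base change. -/
abbrev wp9_infToPb :
    pullback (ιInf N ℓ ≫ igusaTo N ℓ) (wp9_baseK ℓ K) ⟶ pullback (igusaTo N ℓ) (wp9_baseK ℓ K) :=
  pullback.map _ _ _ _ (ιInf N ℓ) (𝟙 _) (𝟙 _) (by simp) (by simp)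

/-- The overlap chart of the base change. -/
abbrev wp9_midToPb :
    pullback ((fFin N ℓ ≫ ιFin N ℓ) ≫ igusaTo N ℓ) (wp9_baseK ℓ K) ⟶
      pullback (igusaTo N ℓ) (wp9_baseK ℓ K) :=
  pullback.map _ _ _ _ (fFin N ℓ ≫ ιFin N ℓ) (𝟙 _) (𝟙 _) (by simp) (by simp)

/-- The overlap chart maps to the finite chart. -/
abbrev wp9_midToFin :
    pullback ((fFin N ℓ ≫ ιFin N ℓ) ≫ igusaTo N ℓ) (wp9_baseK ℓ K) ⟶
      pullback (ιFin N ℓ ≫ igusaTo N ℓ) (wp9_baseK ℓ K) :=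
  pullback.map _ _ _ _ (fFin N ℓ) (𝟙 _) (𝟙 _) (by simp) (by simp)

theorem wp9_range_finToPb :
    Set.range (wp9_finToPb N ℓ K) =
      pullback.fst (igusaTo N ℓ) (wp9_baseK ℓ K) ⁻¹' Set.range (ιFin N ℓ) := by
  have h := Scheme.Pullback.range_map (ιFin N ℓ ≫ igusaTo N ℓ) (wp9_baseK ℓ K)
    (igusaTo N ℓ) (wp9_baseK ℓ K) (ιFin N ℓ) (𝟙 _) (𝟙 _) (by simp) (by simp)
  refine h.trans ?_
  simp

theorem wp9_range_infToPb :
    Set.range (wp9_infToPb N ℓ K) =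
      pullback.fst (igusaTo N ℓ) (wp9_baseK ℓ K) ⁻¹' Set.range (ιInf N ℓ) := by
  have h := Scheme.Pullback.range_map (ιInf N ℓ ≫ igusaTo N ℓ) (wp9_baseK ℓ K)
    (igusaTo N ℓ) (wp9_baseK ℓ K) (ιInf N ℓ) (𝟙 _) (𝟙 _) (by simp) (by simp)
  refine h.trans ?_
  simp

theorem wp9_range_midToPb :
    Set.range (wp9_midToPb N ℓ K) =
      pullback.fst (igusaTo N ℓ) (wp9_baseK ℓ K) ⁻¹' Set.range (fFin N ℓ ≫ ιFin N ℓ) := by
  have h := Scheme.Pullback.range_map ((fFin N ℓ ≫ ιFin N ℓ) ≫ igusaTo N ℓ) (wp9_baseK ℓ K)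
    (igusaTo N ℓ) (wp9_baseK ℓ K) (fFin N ℓ ≫ ιFin N ℓ) (𝟙 _) (𝟙 _) (by simp) (by simp)
  refine h.trans ?_
  simp

theorem wp9_range_mid_subset_fin :
    Set.range (fFin N ℓ ≫ ιFin N ℓ) ⊆ Set.range (ιFin N ℓ) := by
  rintro _ ⟨y, rfl⟩
  exact ⟨fFin N ℓ y, by simp⟩

theorem wp9_range_mid_subset_inf :
    Set.range (fFin N ℓ ≫ ιFin N ℓ) ⊆ Set.range (ιInf N ℓ) := by
  rw [glue_condition]
  rintro _ ⟨y, rfl⟩
  exact ⟨fInf N ℓ y, by simp⟩

theorem wp9_irreducibleSpace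
    [IsDomain (↥(chartAlgFin N ℓ) ⊗[↥(GaloisRep.ratLocalizedAt ℓ)] K)]
    [IsDomain (↥(chartAlgInf N ℓ) ⊗[↥(GaloisRep.ratLocalizedAt ℓ)] K)]
    [Nontrivial (↥(chartAlgMid N ℓ) ⊗[↥(GaloisRep.ratLocalizedAt ℓ)] K)] :
    IrreducibleSpace ↥(pullback (igusaTo N ℓ) (wp9_baseK ℓ K)) := by
  have hFin := wp9_isIntegral_pbFin N ℓ K
  have hInf := wp9_isIntegral_pbInf N ℓ K
  have hU : IsPreirreducible (Set.range (wp9_finToPb N ℓ K)) := by
    rw [← Set.image_univ]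
    exact ((IrreducibleSpace.isIrreducible_univ _).image _
      (wp9_finToPb N ℓ K).continuous.continuousOn).isPreirreducible
  have hV : IsPreirreducible (Set.range (wp9_infToPb N ℓ K)) := by
    rw [← Set.image_univ]
    exact ((IrreducibleSpace.isIrreducible_univ _).image _
      (wp9_infToPb N ℓ K).continuous.continuousOn).isPreirreducible
  have hUo : IsOpen (Set.range (wp9_finToPb N ℓ K)) :=
    (wp9_finToPb N ℓ K).isOpenEmbedding.isOpen_range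
  refine wp9_irreducibleSpace_of_two_opens hU hV hUo ?_ ?_
  · obtain ⟨y⟩ := wp9_nonempty_pbMid N ℓ K
    have hy : wp9_midToPb N ℓ K y ∈ Set.range (wp9_midToPb N ℓ K) := ⟨y, rfl⟩
    rw [wp9_range_midToPb] at hy
    refine ⟨wp9_midToPb N ℓ K y, ?_, ?_⟩
    · rw [wp9_range_finToPb]
      exact wp9_range_mid_subset_fin N ℓ hy
    · rw [wp9_range_infToPb]
      exact wp9_range_mid_subset_inf N ℓ hy
  · rw [wp9_range_finToPb, wp9_range_infToPb, ← Set.preimage_union]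
    rw [Set.eq_univ_iff_forall]
    intro x
    exact mem_range_ιFin_or_mem_range_ιInf N ℓ _

theorem wp9_isReduced_X
    [IsDomain (↥(chartAlgFin N ℓ) ⊗[↥(GaloisRep.ratLocalizedAt ℓ)] K)]
    [IsDomain (↥(chartAlgInf N ℓ) ⊗[↥(GaloisRep.ratLocalizedAt ℓ)] K)]
    (i : (wp9_pbCov N ℓ K).I₀) : IsReduced ((wp9_pbCov N ℓ K).X i) := by
  have hFin := wp9_isIntegral_pbFin N ℓ K
  have hInf := wp9_isIntegral_pbInf N ℓ K
  rcases i with (_ | _ | _)
  · have e : (wp9_igusaCov N ℓ).f none ≫ igusaTo N ℓ = (fFin N ℓ ≫ ιFin N ℓ) ≫ igusaTo N ℓ :=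
      congrArg (· ≫ igusaTo N ℓ) (wp9_igusaCov_f_none N ℓ)
    show IsReduced (pullback ((wp9_igusaCov N ℓ).f none ≫ igusaTo N ℓ) (wp9_baseK ℓ K))
    rw [e]
    have hm : IsOpenImmersion (wp9_midToFin N ℓ K) :=
      Scheme.pullback_map_isOpenImmersion _ _ _ _ _ _ _ _ _
    exact @isReduced_of_isOpenImmersion _ _ (wp9_midToFin N ℓ K) hm inferInstance
  · show IsReduced (pullback (ιFin N ℓ ≫ igusaTo N ℓ) (wp9_baseK ℓ K))
    infer_instance
  · show IsReduced (pullback (ιInf N ℓ ≫ igusaTo N ℓ) (wp9_baseK ℓ K))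
    infer_instance

/-- **S28, WP9.** The base change of the Igusa scheme to `K` is integral as soon as the base
changes of the two chart algebras are domains and the base change of the overlap algebra is
nontrivial. -/
theorem wp9_isIntegral_pullback_igusaTo
    (hFin : IsDomain (↥(chartAlgFin N ℓ) ⊗[↥(GaloisRep.ratLocalizedAt ℓ)] K))
    (hInf : IsDomain (↥(chartAlgInf N ℓ) ⊗[↥(GaloisRep.ratLocalizedAt ℓ)] K))
    (hMid : Nontrivial (↥(chartAlgMid N ℓ) ⊗[↥(GaloisRep.ratLocalizedAt ℓ)] K)) :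
    IsIntegral ↑(pullback (igusaTo N ℓ)
      (Spec.map (CommRingCat.ofHom (algebraMap ↥(GaloisRep.ratLocalizedAt ℓ) K)))) := by
  have h1 : IrreducibleSpace ↥(pullback (igusaTo N ℓ) (wp9_baseK ℓ K)) :=
    wp9_irreducibleSpace N ℓ K
  have h2 : IsReduced (pullback (igusaTo N ℓ) (wp9_baseK ℓ K)) := by
    have := wp9_isReduced_X N ℓ K
    exact IsReduced.of_openCover _ (wp9_pbCov N ℓ K)
  exact isIntegral_of_irreducibleSpace_of_isReduced _

end Fermat.Agent.S28
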