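import Mathlib
import Fermat.Prelude.Def_ModularCurve_IgusaScheme
import Fermat.Agent.S28.Charts
import Fermat.Agent.S28.Tensor
import Fermat.Agent.S28.Scheme

/-!
# S28: final assembly from the reduction package

`RedStatement N ℓ` (descent + reduction) ⟹ the pullback of the Igusa scheme to any field of
characteristic `ℓ` is integral.
-/

set_option autoImplicit false

open AlgebraicGeometry CategoryTheory CategoryTheory.Limits ModularCurve ModularCurve.IgusaScheme

noncomputable section

namespace Fermat.Agent.S28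

set_option maxHeartbeats 4000000 in
set_option synthInstance.maxHeartbeats 400000 in
theorem s28_of_redStatement
    (N : ℕ) [NeZero N] (ℓ : ℕ) [Fact ℓ.Prime] (h : RedStatement N ℓ)
    (K : Type) [Field K] [CharP K ℓ] [Algebra ↥(GaloisRep.ratLocalizedAt ℓ) K] :
    IsIntegral ↑(pullback (igusaTo N ℓ)
      (Spec.map (CommRingCat.ofHom (algebraMap ↥(GaloisRep.ratLocalizedAt ℓ) K)))) := by
  obtain ⟨⟨ρFin, hFin⟩, ⟨ρInf, hInf⟩, ⟨ρMid⟩⟩ := wp8_charts_of_redStatement (N := N) (ℓ := ℓ) h
  exact wp9_isIntegral_pullback_igusaTo N ℓ K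
    (isDomain_tensor_of_reduction ℓ _ ρFin hFin K)
    (isDomain_tensor_of_reduction ℓ _ ρInf hInf K)
    (nontrivial_tensor_of_ringHom ℓ _ ρMid K)

end Fermat.Agent.S28
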