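import Mathlib
import Fermat.Agent.S28.IntOver
import Fermat.Agent.S28.DescentMain
import Fermat.Agent.S28.DescentD3
import Fermat.Agent.S28.RedMain

/-!
# S28: from Theorem A to the reduction package

`ThmAStatement N` and `ℓ ∤ N` give `RedStatement N ℓ`: descent to `ℚ` and `ℓ`-integrality
(`descent_main`), `F ⊆ ℚ(j, u)` and `ℚ(j, u) = ℚ(j)[u]` (`DescentD3`), and the reduction theory
(`reduction_main`).
-/

set_option autoImplicit false

open ModularCurve Polynomial

namespace Fermat.Agent.S28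

theorem redStatement_of_thmA (N ℓ : ℕ) [NeZero N] [Fact ℓ.Prime] (hℓN : ¬ ℓ ∣ N)
    (h : ThmAStatement N) : RedStatement N ℓ := by
  obtain ⟨n, φ, u, χQ, hφ, hu, hχm, hχd, hχc, hχint, hχu, hA⟩ := descent_main N ℓ hℓN h
  have hD3 := modularFunctionFieldFull_le_adjoin' N hφ u hu χQ hχm hχd hχc hχu hA
  have hT : ∀ x ∈ IntermediateField.adjoin ℚ ({jq, u} : Set (LaurentSeries ℚ)), InT jq u x :=
    fun x hx => inT_of_mem_adjoin' jq u ordV_jq χQ hχm hχu hx
  exact reduction_main (N := N) (ℓ := ℓ) hφ u hu χQ hχm hχd hχc hχint hχu hD3 hT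

end Fermat.Agent.S28
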