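import Fermat.Agent.S28.DeltaQuotDefs

/-!
# S28, WP3 (helper31): Δ-quotients are holomorphic on `ℍ`
-/

set_option autoImplicit false

namespace Fermat.Agent.S28

open UpperHalfPlane hiding I
open ModularForm Filter Complex MatrixGroups Topology SlashInvariantForm
open scoped Real Manifold

lemma wp3b_heckeDiagMatrix_zero : heckeDiagMatrix 0 = 1 := by simp [heckeDiagMatrix]

/-- `τ ↦ Δ(δ τ)` is holomorphic. -/
lemma mdifferentiable_dDelta (δ : ℕ) : MDifferentiable 𝓘(ℂ) 𝓘(ℂ) (dDelta δ) := by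
  rcases Nat.eq_zero_or_pos δ with rfl | hδ
  · have : dDelta 0 = ⇑CuspForm.discriminant := by
      funext τ
      simp [dDelta]
    rw [this]
    exact CuspForm.discriminant.holo'
  · have hδ0 : δ ≠ 0 := hδ.ne'
    have hδC : ((δ : ℂ) ^ ((12 : ℤ) - 1)) ≠ 0 := zpow_ne_zero _ (by exact_mod_cast hδ0)
    have h1 : dDelta δ = fun τ => ((δ : ℂ) ^ ((12 : ℤ) - 1))⁻¹ *
        (⇑CuspForm.discriminant ∣[(12 : ℤ)] heckeDiagMatrix δ) τ := by
      funext τ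
      rw [slash_heckeDiagMatrix_apply 12 hδ0, ← mul_assoc, inv_mul_cancel₀ hδC, one_mul]
      rfl
    rw [h1]
    have h2 : MDifferentiable 𝓘(ℂ) 𝓘(ℂ)
        (⇑CuspForm.discriminant ∣[(12 : ℤ)] heckeDiagMatrix δ) :=
      (CuspForm.translate CuspForm.discriminant (heckeDiagMatrix δ)).holo'
    exact (mdifferentiable_const (c := ((δ : ℂ) ^ ((12 : ℤ) - 1))⁻¹)).mul h2

/-- Integer powers of a nowhere vanishing holomorphic function are holomorphic. -/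
lemma wp3b_mdifferentiable_zpow {f : ℍ → ℂ} (hf : MDifferentiable 𝓘(ℂ) 𝓘(ℂ) f)
    (hf0 : ∀ τ, f τ ≠ 0) (m : ℤ) : MDifferentiable 𝓘(ℂ) 𝓘(ℂ) (fun τ => f τ ^ m) := by
  obtain ⟨k, rfl | rfl⟩ := Int.eq_nat_or_neg m
  · have h0 : (fun τ => f τ ^ ((k : ℕ) : ℤ)) = f ^ k := by
      funext τ; simp
    rw [h0]
    exact hf.pow k
  · have h1 : (fun τ => f τ ^ (-(k : ℤ))) = fun τ => (f τ ^ k)⁻¹ := by
      funext τ; rw [zpow_neg, zpow_natCast]
    rw [h1]
    have h2 : (fun τ => (f τ ^ k)⁻¹) = (f ^ k)⁻¹ := by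
      funext τ; simp
    rw [h2]
    exact (hf.pow k).inv fun τ => by simpa using pow_ne_zero k (hf0 τ)

/-- A Δ-quotient is holomorphic on `ℍ`. -/
theorem mdifferentiable_deltaQuot (S : Finset ℕ) (m : ℕ → ℤ) :
    MDifferentiable 𝓘(ℂ) 𝓘(ℂ) (deltaQuot S m) := by
  have h : deltaQuot S m = fun τ => ∏ δ ∈ S, dDelta δ τ ^ m δ := rfl
  rw [h]
  have h2 : (fun τ => ∏ δ ∈ S, dDelta δ τ ^ m δ) = ∏ δ ∈ S, fun τ => dDelta δ τ ^ m δ := by
    funext τ
    simp [Finset.prod_apply]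
  rw [h2]
  exact MDifferentiable.prod
    (fun δ _ => wp3b_mdifferentiable_zpow (mdifferentiable_dDelta δ) (dDelta_ne_zero δ) (m δ))

end Fermat.Agent.S28
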